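/-
DS programme (S48), chapter G-ESRED, brick KRON-D (helper3): GENERIC TWIN of
`ES/KRON/ChartBridge24` (helper24), the BRIDGE
  `Contract8.ChartSpec` (+ the place map `r` with `O_{rP} = S.rSubring P hP`)  ⟹  `EsDivAbs24.Chart`
for the two-bijection `Chart r Fr W …` of the twin `DS/G/ES/KRON/EsDivAbs24` (helper93).

The original file is already generic in `(L, A, F, Ft)` and its lemmas (`BridgeHyp`,
`coord_of_bridge`, `lift_of_bridge`, `mem_support_Dinf_iff`, …) do not mention `Fr`; they are cited.
Only `chart_of_bridge` is restated, with the additional stability hypothesis for `W`.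
-/
import Mathlib
import Fermat.Agent.ES.KRON.ChartBridge24
import Fermat.Agent.DS.G.ES.KRON.EsDivAbs24

set_option autoImplicit false
set_option linter.unusedSectionVars false

noncomputable section

open AlgebraicCurve

namespace Fermat.Agent.DS.G.ES.KRON.ChartBridge24

open Fermat.Agent.X0.FF Fermat.Agent.ES.RED.PlaceValue13 Fermat.Agent.ES.RED.Contract8
open Fermat.Agent.DS.G.ES.KRON.EsDivAbs24
open Fermat.Agent.ES.KRON.ChartBridge24 (BridgeHyp coord_of_bridge lift_of_bridge
  mem_support_Dinf_iff mem_support_Dinf'_iff ord_red_nonneg)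

variable {L : Type*} [Field L] [IsAlgClosed L] {A : ValuationSubring L}
variable {F : Type*} [Field F] [Algebra L F] {x : F} {hx : IsGen L x}
variable {Ft : Type*} [Field Ft] [Algebra (kA A) Ft] [IsAlgClosed (kA A)]
variable {xt : Ft} (hxt : IsGen (kA A) xt)
variable {S : ChartSpec A hx Ft} {r : Place L F → Place (kA A) Ft}
variable {princ : (Place L F →₀ ℤ) → (Place (kA A) Ft →₀ ℤ) → Prop}
  {Dinf : Place L F →₀ ℤ} {Dinf' : Place (kA A) Ft →₀ ℤ}

include hxt in
/-- **The bridge**: a chart of the contract is a chart of the abstract (ES-div) with `(Fr, W)`. -/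
theorem chart_of_bridge (h : BridgeHyp S r princ Dinf Dinf')
    (Fr W : Place (kA A) Ft ≃ Place (kA A) Ft)
    (hdeg : Dinf.sum (fun _ n => n) = Dinf'.sum (fun _ n => n))
    (hstable : ∀ Q, Q ∈ Dinf'.support ↔ Fr Q ∈ Dinf'.support)
    (hstableW : ∀ Q, Q ∈ Dinf'.support ↔ W Q ∈ Dinf'.support) :
    Chart r Fr W princ {P | S.InChart P} Dinf Dinf' where
  dinf_pos := fun p => by rw [h.hDinf]; exact le_max_right _ _
  dinf'_pos := fun q => by rw [h.hDinf']; exact le_max_right _ _
  deg_eq := hdeg
  stable := hstable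
  stableW := hstableW
  r_bad := fun p hp => by
    rw [mem_support_Dinf'_iff h]
    exact h.hrbad p ((mem_support_Dinf_iff h p).mp hp)
  r_good := fun p hp => by
    rw [mem_support_Dinf'_iff h, not_lt]
    exact ord_red_nonneg S r p hp (h.hr p hp) S.sB
  coord := fun p hp => coord_of_bridge h p hp
  lift := fun p hp T hT hpT => lift_of_bridge hxt h p hp T hT hpT

end Fermat.Agent.DS.G.ES.KRON.ChartBridge24
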