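/-
Programme DS (S48), chapter G-ESRED, brick KRON-C (bricks row 258), helper90.

GENERIC TWIN of `ES/KRON/Conjugates11` + `ES/KRON/ConjNorm11` + `ES/KRON/ConjAlpha24`:
the `p + 1` conjugates of a "level `(M; p)`" field `F'` over the two copies `α F`, `β F` of a
"level `M`" field `F`, inside `K((q))`, and the Kronecker form of the characteristic polynomials
and norms — NOW WITH THE DIAMOND TWIST.

Setting (`K` any field, `p` a prime): `F F' : IntermediateField K K((q))`, `α β : F →ₐ[K] F'` with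
`(α x : K((q))) = x` (inclusion) and `(β x : K((q))) = x(q^p)`.  For `Γ₀` the last conjugate of
`α f` over `β F` is `f(q^{p²})`; for `Γ₁(M)` it is `(⟨p⟩ f)(q^{p²})`: the conjugates of
`f(τ'/p)` over the functions of `τ'` are `f((τ' + b)/p)` and `(f ∘ σ_p)(p τ')`.  So the abstract
input is a ring hom `dia : F →+* F` ("diamond", the identity for `Γ₀`) and

* `HasW p α β dia`  : `∃ W : F' →+* K((q))`, `W (β h) = h`, `W (α f) = (dia f)(q^p)`
                      (Atkin–Lehner type embedding; for `Γ₁(M)`: `f ↦ f ∘ σ ∘ (p ·)` with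
                      `σ ∈ SL₂(ℤ)`, `σ ≡ (p⁻¹, *; 0, p) mod M`, `p ∣ σ₁₁`);
* `HasW' p α β dia'`: `∃ W : F' →+* K((q))`, `W (α a) = a(q^p)`, `W (β h) = dia' h`
                      (`dia' = dia⁻¹`; the same with `γ ∈ Γ₁(M)`, `p ∣ γ₁₁`).

Both are CONSTRUCTED from per-generator analytic data in `ConjEmb90.lean`
(`Transport90.lean` = the analytic engine).  The degree `finrankAlong = p + 1` is a hypothesis
(twin of `ES/HECKE/AlongDegree25`, chapter G-HECKE).

Results (`ζ` a primitive `p`-th root of unity in `K`):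
* `charpolyAlong_map_of_val`  **(POLY)**  :
  `((charpolyAlong β α hfin f).map val).map (qExpand p)
      = ∏_{b<p} (X - f(ζ^b q)) * (X - (dia f)(q^{p²}))`;
* `charpolyAlong_alpha_map_of_val` **(POLY-α)** :
  `((charpolyAlong α β hfin f).map val).map (qExpand p)
      = ∏_{b<p} (X - (dia' f)(ζ^b q)) * (X - f(q^{p²}))`;
* `qExpand_normAlong_alpha` **(NORM-α)**, `qExpand_normAlong_beta` **(NORM-β)**.
With helper20's two-series `kronProd l ζ y y'`/`normProd l ζ y y'` (twin `KronCong24`) the right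
hand sides are `kronProd p ζ f (dia f)`, resp. `kronProd p ζ (dia' f) f`, by `rfl`/`unfold`.
-/
import Mathlib
import Fermat.Prelude.Def_AlgebraicCurve_Correspondence
import Fermat.Agent.ES.KRON.KronCong24
import Fermat.Agent.ES.KRON.CharpolyEmb11
import Fermat.Agent.ES.HECKE.PointFormula28

set_option autoImplicit false
set_option linter.unusedSectionVars false

open ModularCurve IntermediateField AlgebraicCurve Polynomial

noncomputable section

namespace Fermat.Agent.DS.G.ES.KRON.Conjugates11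

open Fermat.Agent.ES.KRON.KronCong24
open Fermat.Agent.ES.HECKE.PointFormula28

/-! ### Generic: characteristic polynomial and norm along a hom, through embeddings -/

section Generic

variable {K F F' : Type*} [Field K] [Field F] [Field F'] [Algebra K F] [Algebra K F']

/-- The characteristic polynomial of (multiplication by) `ψ f` on `F'`, seen as an `F`-vector space
along `φ`. -/
def charpolyAlong (φ ψ : F →ₐ[K] F') (hfin : FiniteAlong K φ) (f : F) : Polynomial F :=
  letI := algebraAlong φ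
  haveI : Module.Finite F F' := hfin
  LinearMap.charpoly (Algebra.lmul F F' (ψ f))

theorem charpolyAlong_def (φ ψ : F →ₐ[K] F') (hfin : FiniteAlong K φ) (f : F) :
    charpolyAlong φ ψ hfin f =
      (letI := algebraAlong φ
       haveI : Module.Finite F F' := hfin
       LinearMap.charpoly (Algebra.lmul F F' (ψ f))) := rfl

/-- The characteristic polynomial along `φ` through a full set of embeddings. -/
theorem charpolyAlong_map_eq_prod (φ ψ : F →ₐ[K] F') (hfin : FiniteAlong K φ) {n : ℕ}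
    (hn : finrankAlong K φ = n) {Ω : Type*} [Field Ω] (ι : F →+* Ω) (σ : Fin n → (F' →+* Ω))
    (hσ : ∀ i (a : F), σ i (φ a) = ι a) (hinj : Function.Injective σ) (f : F) :
    (charpolyAlong φ ψ hfin f).map ι = ∏ i, (X - C (σ i (ψ f))) := by
  let _ := algebraAlong φ
  have : Module.Finite F F' := hfin
  exact Fermat.Agent.ES.KRON.CharpolyEmb11.charpoly_map_eq_prod_embs (E := F) (L := F') hn ι σ hσ
    hinj (ψ f)

/-- The characteristic polynomial of an arbitrary `g : F'` along `φ`, through a full set of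
embeddings. -/
theorem charpoly_lmul_along_map_eq_prod (φ : F →ₐ[K] F') (hfin : FiniteAlong K φ) {n : ℕ}
    (hn : finrankAlong K φ = n) {Ω : Type*} [Field Ω] (ι : F →+* Ω) (σ : Fin n → (F' →+* Ω))
    (hσ : ∀ i (a : F), σ i (φ a) = ι a) (hinj : Function.Injective σ) (g : F') :
    letI := algebraAlong φ
    haveI : Module.Finite F F' := hfin
    (LinearMap.charpoly (Algebra.lmul F F' g)).map ι = ∏ i, (X - C (σ i g)) := by
  let _ := algebraAlong φ
  have : Module.Finite F F' := hfin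
  exact Fermat.Agent.ES.KRON.CharpolyEmb11.charpoly_map_eq_prod_embs (E := F) (L := F') hn ι σ hσ
    hinj g

/-- **The norm along `φ` through a full set of embeddings.** -/
theorem normAlong_map_eq_prod (φ : F →ₐ[K] F') (hfin : FiniteAlong K φ) {n : ℕ}
    (hn : finrankAlong K φ = n) {Ω : Type*} [Field Ω] (ι : F →+* Ω) (σ : Fin n → (F' →+* Ω))
    (hσ : ∀ i (a : F), σ i (φ a) = ι a) (hinj : Function.Injective σ) (g : F') :
    ι (normAlong φ g) = ∏ i, σ i g := by
  have hchar := charpoly_lmul_along_map_eq_prod φ hfin hn ι σ hσ hinj g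
  let _ := algebraAlong φ
  have : Module.Finite F F' := hfin
  have hn' : Module.finrank F F' = n := hn
  have h1 : normAlong φ g = (-1) ^ n * (LinearMap.charpoly (Algebra.lmul F F' g)).coeff 0 := by
    show Algebra.norm F g = _
    rw [Algebra.norm_apply, LinearMap.det_eq_sign_charpoly_coeff, hn']
  have h2 : ι ((LinearMap.charpoly (Algebra.lmul F F' g)).coeff 0) =
      (∏ i, (X - C (σ i g))).coeff 0 := by
    rw [← hchar, Polynomial.coeff_map]
  rw [h1, map_mul, map_pow, map_neg, map_one, h2, Polynomial.coeff_zero_eq_eval_zero,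
    Polynomial.eval_prod]
  simp only [eval_sub, eval_X, eval_C, zero_sub]
  rw [Finset.prod_neg, Finset.card_univ, Fintype.card_fin, ← mul_assoc, ← pow_add, ← two_mul,
    pow_mul, neg_one_sq, one_pow, one_mul]

/-- The norm along `φ` is, up to sign, the constant coefficient of the characteristic polynomial. -/
theorem normAlong_eq_coeff_zero (φ ψ : F →ₐ[K] F') (hfin : FiniteAlong K φ) (f : F) :
    normAlong φ (ψ f) = (-1) ^ finrankAlong K φ * (charpolyAlong φ ψ hfin f).coeff 0 := by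
  let _ := algebraAlong φ
  have : Module.Finite F F' := hfin
  show Algebra.norm F (ψ f) = (-1) ^ Module.finrank F F' *
    (LinearMap.charpoly (Algebra.lmul F F' (ψ f))).coeff 0
  rw [Algebra.norm_apply, LinearMap.det_eq_sign_charpoly_coeff]

end Generic

/-! ### Families of `p + 1` embeddings of Kronecker type -/

section Family

variable {K : Type*} [Field K] (p : ℕ) [NeZero p]
variable {F' : Type*} [Field F']

/-- `p + 1` embeddings: `τ 0, …, τ (p-1), τ'`. -/
def embFamily (τ : ℕ → (F' →+* LaurentSeries K)) (τ' : F' →+* LaurentSeries K) :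
    Fin (p + 1) → (F' →+* LaurentSeries K) :=
  fun i => if (i : ℕ) < p then τ (i : ℕ) else τ'

variable {p}
variable {τ : ℕ → (F' →+* LaurentSeries K)} {τ' : F' →+* LaurentSeries K}

theorem embFamily_lt (i : Fin (p + 1)) (hi : (i : ℕ) < p) : embFamily p τ τ' i = τ (i : ℕ) := by
  simp only [embFamily, if_pos hi]

theorem embFamily_ge (i : Fin (p + 1)) (hi : ¬ (i : ℕ) < p) : embFamily p τ τ' i = τ' := by
  simp only [embFamily, if_neg hi]

theorem embFamily_castSucc (i : Fin p) : embFamily p τ τ' (Fin.castSucc i) = τ (i : ℕ) := by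
  have hi : ((Fin.castSucc i : Fin (p + 1)) : ℕ) < p := by
    rw [Fin.val_castSucc]
    exact i.isLt
  rw [embFamily_lt _ hi, Fin.val_castSucc]

theorem embFamily_last : embFamily p τ τ' (Fin.last p) = τ' := by
  have hl : ¬ ((Fin.last p : Fin (p + 1)) : ℕ) < p := by
    rw [Fin.val_last]
    exact lt_irrefl p
  exact embFamily_ge _ hl

theorem not_sq_dvd_neg_one (hp : p.Prime) : ¬ ((p ^ 2 : ℕ) : ℤ) ∣ (-1 : ℤ) := by
  intro h
  have h1 : ((p ^ 2 : ℕ) : ℤ) ∣ 1 := (dvd_neg).mp h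
  have h2 : (p ^ 2 : ℕ) ∣ 1 := by exact_mod_cast h1
  have h3 : p ^ 2 = 1 := Nat.dvd_one.mp h2
  have h4 : p = 1 := by
    rcases Nat.pow_eq_one.mp h3 with h | h
    · exact h
    · exact absurd h (by norm_num)
  exact hp.one_lt.ne' h4

/-- The family is injective as soon as some `x₀` has the values `y₀(ζ^b q)`, `y₀'(q^{p²})` with
`y₀` having a nonzero coefficient at `q⁻¹`. -/
theorem embFamily_injective (hp : p.Prime) (ζ : Kˣ) (hζ : IsPrimitiveRoot ζ p)
    (x₀ : F') (y₀ y₀' : LaurentSeries K) (hy₀ : y₀.coeff (-1) ≠ 0)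
    (h2 : ∀ b, τ b x₀ = twistU (ζ ^ b) y₀)
    (h2' : τ' x₀ = qExpand K (p ^ 2) y₀') : Function.Injective (embFamily p τ τ') := by
  have hc : ∀ b, (τ b x₀).coeff (-1) = (((ζ ^ b) ^ (-1 : ℤ) : Kˣ) : K) * y₀.coeff (-1) := by
    intro b
    rw [h2, twistU_coeff]
  have hc' : (τ' x₀).coeff (-1) = 0 := by
    rw [h2']
    exact qExpand_coeff_of_not_dvd (p ^ 2) _ (not_sq_dvd_neg_one hp)
  intro i j hij
  have hval' : (embFamily p τ τ' i x₀).coeff (-1) = (embFamily p τ τ' j x₀).coeff (-1) := by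
    rw [hij]
  by_cases hi : (i : ℕ) < p <;> by_cases hj : (j : ℕ) < p
  · rw [embFamily_lt i hi, embFamily_lt j hj, hc, hc] at hval'
    have h0 : (((ζ ^ (i : ℕ)) ^ (-1 : ℤ) : Kˣ) : K) = (((ζ ^ (j : ℕ)) ^ (-1 : ℤ) : Kˣ) : K) :=
      mul_right_cancel₀ hy₀ hval'
    have h1 : (ζ ^ (i : ℕ)) ^ (-1 : ℤ) = (ζ ^ (j : ℕ)) ^ (-1 : ℤ) := Units.ext h0
    have h2 : ζ ^ (i : ℕ) = ζ ^ (j : ℕ) := by
      rw [zpow_neg_one, zpow_neg_one] at h1
      exact inv_injective h1
    exact Fin.ext (hζ.pow_inj hi hj h2)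
  · rw [embFamily_lt i hi, embFamily_ge j hj, hc, hc'] at hval'
    exact absurd hval' (mul_ne_zero (Units.ne_zero _) hy₀)
  · rw [embFamily_ge i hi, embFamily_lt j hj, hc, hc'] at hval'
    exact absurd hval'.symm (mul_ne_zero (Units.ne_zero _) hy₀)
  · have hi' : (i : ℕ) = p := le_antisymm (Nat.lt_succ_iff.mp i.isLt) (not_lt.mp hi)
    have hj' : (j : ℕ) = p := le_antisymm (Nat.lt_succ_iff.mp j.isLt) (not_lt.mp hj)
    exact Fin.ext (hi'.trans hj'.symm)

variable {F : Type*} [Field F] [Algebra K F] [Algebra K F']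
variable (φ ψ : F →ₐ[K] F') (hfin : FiniteAlong K φ)
  (hn : finrankAlong K φ = p + 1) (hp : p.Prime) (ζ : Kˣ) (hζ : IsPrimitiveRoot ζ p)
  (ι : F →+* LaurentSeries K) (y y' : F → LaurentSeries K)
  (f₀ : F) (hf₀ : (y f₀).coeff (-1) ≠ 0)
  (h1 : ∀ b a, τ b (φ a) = ι a) (h1' : ∀ a, τ' (φ a) = ι a)
  (h2 : ∀ b (f : F), τ b (ψ f) = twistU (ζ ^ b) (y f))
  (h2' : ∀ f : F, τ' (ψ f) = qExpand K (p ^ 2) (y' f))

include hn hp hζ hf₀ h1 h1' h2 h2'

theorem embFamily_spec : Function.Injective (embFamily p τ τ') ∧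
    ∀ (i : Fin (p + 1)) (a : F), embFamily p τ τ' i (φ a) = ι a := by
  refine ⟨embFamily_injective hp ζ hζ (ψ f₀) (y f₀) (y' f₀) hf₀ (fun b => h2 b f₀) (h2' f₀),
    fun i a => ?_⟩
  by_cases hi : (i : ℕ) < p
  · rw [embFamily_lt i hi, h1]
  · rw [embFamily_ge i hi, h1']

/-- The characteristic polynomial of `ψ f` along `φ` from `p + 1` embeddings of Kronecker type
(two series: `y f` in the twisted factors, `y' f` in the last one). -/
theorem charpolyAlong_eq_kronProd_of_embs (f : F) :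
    (charpolyAlong φ ψ hfin f).map ι =
      (∏ b ∈ Finset.range p, (X - C (twistU (ζ ^ b) (y f)))) *
        (X - C (qExpand K (p ^ 2) (y' f))) := by
  obtain ⟨hinj, hσ⟩ := embFamily_spec φ ψ hn hp ζ hζ ι y y' f₀ hf₀ h1 h1' h2 h2'
  rw [charpolyAlong_map_eq_prod φ ψ hfin hn ι (embFamily p τ τ') hσ hinj f,
    Fin.prod_univ_castSucc]
  congr 1
  · rw [← Fin.prod_univ_eq_prod_range (fun b => X - Polynomial.C (twistU (ζ ^ b) (y f))) p]
    refine Finset.prod_congr rfl fun i _ => ?_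
    rw [embFamily_castSucc, h2]
  · rw [embFamily_last, h2']

include hfin in
/-- The norm of `ψ f` along `φ` from `p + 1` embeddings of Kronecker type. -/
theorem normAlong_eq_of_embs (f : F) :
    ι (normAlong φ (ψ f)) = (∏ b ∈ Finset.range p, twistU (ζ ^ b) (y f)) *
      qExpand K (p ^ 2) (y' f) := by
  obtain ⟨hinj, hσ⟩ := embFamily_spec φ ψ hn hp ζ hζ ι y y' f₀ hf₀ h1 h1' h2 h2'
  rw [normAlong_map_eq_prod φ hfin hn ι (embFamily p τ τ') hσ hinj (ψ f),
    Fin.prod_univ_castSucc]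
  congr 1
  · rw [← Fin.prod_univ_eq_prod_range (fun b => twistU (ζ ^ b) (y f)) p]
    refine Finset.prod_congr rfl fun i _ => ?_
    rw [embFamily_castSucc, h2]
  · rw [embFamily_last, h2']

end Family

/-! ### The Hecke pair `(α, β)` inside `K((q))` -/

section Pair

variable {K : Type*} [Field K] (p : ℕ) [NeZero p]
variable {F F' : IntermediateField K (LaurentSeries K)}
variable (α β : F →ₐ[K] F')

/-- **(W)**: an Atkin–Lehner type embedding `W : F' → K((q))` with `W ∘ β = id` and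
`W ∘ α = (q ↦ q^p) ∘ dia`. -/
def HasW (dia : F →+* F) : Prop :=
  ∃ W : F' →+* LaurentSeries K,
    (∀ h : F, W (β h) = (h : LaurentSeries K)) ∧
    (∀ f : F, W (α f) = qExpand K p ((dia f : F) : LaurentSeries K))

/-- **(W')**: an Atkin–Lehner type embedding `W : F' → K((q))` with `W ∘ α = (q ↦ q^p)` and
`W ∘ β = dia'`. -/
def HasW' (dia' : F →+* F) : Prop :=
  ∃ W : F' →+* LaurentSeries K,
    (∀ a : F, W (α a) = qExpand K p (a : LaurentSeries K)) ∧
    (∀ h : F, W (β h) = ((dia' h : F) : LaurentSeries K))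

/-- `ι = (q ↦ q^p) ∘ incl : F → K((q))`. -/
def iotaL (E : IntermediateField K (LaurentSeries K)) : E →+* LaurentSeries K :=
  (qExpand K p).comp (algebraMap E (LaurentSeries K))

theorem iotaL_apply (E : IntermediateField K (LaurentSeries K)) (x : E) :
    iotaL p E x = qExpand K p (x : LaurentSeries K) := rfl

/-- `ζ^p = 1 → (ζ^b)^p = 1`. -/
theorem pow_pow_eq_one (ζ : Kˣ) (hζ : ζ ^ p = 1) (b : ℕ) : (ζ ^ b) ^ p = 1 := by
  rw [← pow_mul, mul_comm, pow_mul, hζ, one_pow]

variable (hα : ∀ x : F, ((α x : F') : LaurentSeries K) = (x : LaurentSeries K))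
  (hβ : ∀ x : F, ((β x : F') : LaurentSeries K) = qExpand K p (x : LaurentSeries K))

include hβ in
/-- **(E∞)** the conjugate "at infinity" over `β F`: `σ_∞ ∘ β = (q ↦ q^p)`,
`σ_∞ ∘ α = (q ↦ q^{p²}) ∘ dia`. -/
theorem exists_emb_infty (dia : F →+* F) (hW : HasW p α β dia) :
    ∃ σ : F' →+* LaurentSeries K,
      (∀ h : F, σ (β h) = qExpand K p (h : LaurentSeries K)) ∧
      (∀ f : F, σ (α f) = qExpand K (p ^ 2) ((dia f : F) : LaurentSeries K)) := by
  obtain ⟨W, hWβ, hWα⟩ := hW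
  refine ⟨(qExpand K p).comp W, fun h => ?_, fun f => ?_⟩
  · rw [RingHom.comp_apply, hWβ]
  · rw [RingHom.comp_apply, hWα, qExpand_qExpand]
    exact qExpand_congr (sq p).symm _

/-- **(Eb)** the `p` finite conjugates over `β F`: `σ_b = (q ↦ ζ^b q) ∘ incl`. -/
def embTwist (ζ : Kˣ) (b : ℕ) : F' →+* LaurentSeries K :=
  (twistU (ζ ^ b)).comp (algebraMap F' (LaurentSeries K))

theorem embTwist_apply (ζ : Kˣ) (b : ℕ) (x : F') :
    embTwist (F' := F') ζ b x = twistU (ζ ^ b) (x : LaurentSeries K) := rfl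

include hβ in
theorem embTwist_beta (ζ : Kˣ) (hζ : ζ ^ p = 1) (b : ℕ) (h : F) :
    embTwist ζ b (β h) = qExpand K p (h : LaurentSeries K) := by
  rw [embTwist_apply, hβ]
  exact twistU_qExpand p _ (pow_pow_eq_one p ζ hζ b) _

include hα in
theorem embTwist_alpha (ζ : Kˣ) (b : ℕ) (f : F) :
    embTwist ζ b (α f) = twistU (ζ ^ b) (f : LaurentSeries K) := by
  rw [embTwist_apply, hα]

include hα hβ

/-- **(POLY)** the characteristic polynomial of `α f` over `β F`, read in `K((q))` through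
`q ↦ q^p`, is `∏_b (Y - f(ζ^b q)) · (Y - (dia f)(q^{p²}))`. -/
theorem charpolyAlong_map (hp : p.Prime) (ζ : Kˣ) (hζ : IsPrimitiveRoot ζ p)
    (dia : F →+* F) (hW : HasW p α β dia)
    (f₀ : F) (hf₀ : (f₀ : LaurentSeries K).coeff (-1) ≠ 0)
    (hfin : FiniteAlong K β) (hn : finrankAlong K β = p + 1) (f : F) :
    (charpolyAlong β α hfin f).map (iotaL p F) =
      (∏ b ∈ Finset.range p, (X - C (twistU (ζ ^ b) (f : LaurentSeries K)))) *
        (X - C (qExpand K (p ^ 2) ((dia f : F) : LaurentSeries K))) := by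
  obtain ⟨σ', hσβ, hσα⟩ := exists_emb_infty p α β hβ dia hW
  have hζp : ζ ^ p = 1 := hζ.pow_eq_one
  exact charpolyAlong_eq_kronProd_of_embs
    (τ := fun b => embTwist ζ b) (τ' := σ') β α hfin hn hp ζ hζ (iotaL p F)
    (fun f => (f : LaurentSeries K)) (fun f => ((dia f : F) : LaurentSeries K)) f₀ hf₀
    (fun b a => by rw [embTwist_beta p β hβ ζ hζp, iotaL_apply])
    (fun a => by rw [hσβ, iotaL_apply])
    (fun b g => embTwist_alpha α hα ζ b g) hσα f

/-- (POLY) with an arbitrary `val` (the coercion) and `Polynomial.map` twice. -/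
theorem charpolyAlong_map_of_val (hp : p.Prime) (ζ : Kˣ) (hζ : IsPrimitiveRoot ζ p)
    (dia : F →+* F) (hW : HasW p α β dia)
    (f₀ : F) (hf₀ : (f₀ : LaurentSeries K).coeff (-1) ≠ 0)
    (val : F →+* LaurentSeries K) (hval : ∀ x : F, val x = (x : LaurentSeries K))
    (hfin : FiniteAlong K β) (hn : finrankAlong K β = p + 1) (f : F) :
    ((charpolyAlong β α hfin f).map val).map (qExpand K p) =
      (∏ b ∈ Finset.range p, (X - C (twistU (ζ ^ b) (f : LaurentSeries K)))) *
        (X - C (qExpand K (p ^ 2) ((dia f : F) : LaurentSeries K))) := by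
  have hι : (qExpand K p).comp val = iotaL p F := by
    ext1 x
    rw [RingHom.comp_apply, hval, iotaL_apply]
  rw [Polynomial.map_map, hι]
  exact charpolyAlong_map p α β hα hβ hp ζ hζ dia hW f₀ hf₀ hfin hn f

/-- **(NORM-β)**: `N_β (α f)(q^p) = ∏_{b<p} f(ζ^b q) · (dia f)(q^{p²})`. -/
theorem qExpand_normAlong_beta (hp : p.Prime) (ζ : Kˣ) (hζ : IsPrimitiveRoot ζ p)
    (dia : F →+* F) (hW : HasW p α β dia)
    (f₀ : F) (hf₀ : (f₀ : LaurentSeries K).coeff (-1) ≠ 0)
    (hfin : FiniteAlong K β) (hn : finrankAlong K β = p + 1) (f : F) :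
    qExpand K p ((normAlong β (α f) : F) : LaurentSeries K) =
      (∏ b ∈ Finset.range p, twistU (ζ ^ b) (f : LaurentSeries K)) *
        qExpand K (p ^ 2) ((dia f : F) : LaurentSeries K) := by
  obtain ⟨σ', hσβ, hσα⟩ := exists_emb_infty p α β hβ dia hW
  have hζp : ζ ^ p = 1 := hζ.pow_eq_one
  rw [← iotaL_apply]
  exact normAlong_eq_of_embs
    (τ := fun b => embTwist ζ b) (τ' := σ') β α hfin hn hp ζ hζ (iotaL p F)
    (fun f => (f : LaurentSeries K)) (fun f => ((dia f : F) : LaurentSeries K)) f₀ hf₀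
    (fun b a => by rw [embTwist_beta p β hβ ζ hζp, iotaL_apply])
    (fun a => by rw [hσβ, iotaL_apply])
    (fun b g => embTwist_alpha α hα ζ b g) hσα f

/-- the hypotheses of `…_of_embs` for `φ = α`, `ψ = β`, `τ b = twistU (ζ^b) ∘ W`, `τ' = ι`. -/
theorem embs_alpha_beta (ζ : Kˣ) (hζp : ζ ^ p = 1) (dia' : F →+* F)
    (W : F' →+* LaurentSeries K)
    (hWα : ∀ a : F, W (α a) = qExpand K p (a : LaurentSeries K))
    (hWβ : ∀ h : F, W (β h) = ((dia' h : F) : LaurentSeries K)) :
    (∀ (b : ℕ) (a : F), ((twistU (ζ ^ b)).comp W) (α a) = iotaL p F a) ∧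
    (∀ a : F, iotaL p F' (α a) = iotaL p F a) ∧
    (∀ (b : ℕ) (g : F), ((twistU (ζ ^ b)).comp W) (β g) =
      twistU (ζ ^ b) ((dia' g : F) : LaurentSeries K)) ∧
    (∀ g : F, iotaL p F' (β g) = qExpand K (p ^ 2) (g : LaurentSeries K)) := by
  refine ⟨fun b a => ?_, fun a => ?_, fun b g => ?_, fun g => ?_⟩
  · rw [RingHom.comp_apply, hWα, iotaL_apply]
    exact twistU_qExpand p _ (pow_pow_eq_one p ζ hζp b) _
  · rw [iotaL_apply, iotaL_apply, hα]
  · rw [RingHom.comp_apply, hWβ]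
  · rw [iotaL_apply, hβ, qExpand_qExpand]
    exact qExpand_congr (sq p).symm _

/-- **(POLY-α)** the characteristic polynomial of `β f` over `α F`, read in `K((q))` through
`q ↦ q^p`, is `∏_b (Y - (dia' f)(ζ^b q)) · (Y - f(q^{p²}))`. -/
theorem charpolyAlong_alpha_beta_map (hp : p.Prime) (ζ : Kˣ) (hζ : IsPrimitiveRoot ζ p)
    (dia' : F →+* F) (hW : HasW' p α β dia')
    (f₀ : F) (hf₀ : ((dia' f₀ : F) : LaurentSeries K).coeff (-1) ≠ 0)
    (hfin : FiniteAlong K α) (hn : finrankAlong K α = p + 1) (f : F) :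
    (charpolyAlong α β hfin f).map (iotaL p F) =
      (∏ b ∈ Finset.range p, (X - C (twistU (ζ ^ b) ((dia' f : F) : LaurentSeries K)))) *
        (X - C (qExpand K (p ^ 2) (f : LaurentSeries K))) := by
  obtain ⟨W, hWα, hWβ⟩ := hW
  obtain ⟨h1, h1', h2, h2'⟩ := embs_alpha_beta p α β hα hβ ζ hζ.pow_eq_one dia' W hWα hWβ
  exact charpolyAlong_eq_kronProd_of_embs
    (τ := fun b => (twistU (ζ ^ b)).comp W) (τ' := iotaL p F') α β hfin hn hp ζ hζ (iotaL p F)
    (fun f => ((dia' f : F) : LaurentSeries K)) (fun f => (f : LaurentSeries K)) f₀ hf₀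
    h1 h1' h2 h2' f

/-- (POLY-α) with an arbitrary `val` (the coercion) and `Polynomial.map` twice. -/
theorem charpolyAlong_alpha_map_of_val (hp : p.Prime) (ζ : Kˣ) (hζ : IsPrimitiveRoot ζ p)
    (dia' : F →+* F) (hW : HasW' p α β dia')
    (f₀ : F) (hf₀ : ((dia' f₀ : F) : LaurentSeries K).coeff (-1) ≠ 0)
    (val : F →+* LaurentSeries K) (hval : ∀ x : F, val x = (x : LaurentSeries K))
    (hfin : FiniteAlong K α) (hn : finrankAlong K α = p + 1) (f : F) :
    ((charpolyAlong α β hfin f).map val).map (qExpand K p) =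
      (∏ b ∈ Finset.range p, (X - C (twistU (ζ ^ b) ((dia' f : F) : LaurentSeries K)))) *
        (X - C (qExpand K (p ^ 2) (f : LaurentSeries K))) := by
  have hι : (qExpand K p).comp val = iotaL p F := by
    ext1 x
    rw [RingHom.comp_apply, hval, iotaL_apply]
  rw [Polynomial.map_map, hι]
  exact charpolyAlong_alpha_beta_map p α β hα hβ hp ζ hζ dia' hW f₀ hf₀ hfin hn f

/-- **(NORM-α)**: `N_α (β f)(q^p) = ∏_{b<p} (dia' f)(ζ^b q) · f(q^{p²})`: the `q`-expansion of the
function whose divisor is `T (div f)`, `T = α_* β^*`. -/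
theorem qExpand_normAlong_alpha (hp : p.Prime) (ζ : Kˣ) (hζ : IsPrimitiveRoot ζ p)
    (dia' : F →+* F) (hW : HasW' p α β dia')
    (f₀ : F) (hf₀ : ((dia' f₀ : F) : LaurentSeries K).coeff (-1) ≠ 0)
    (hfin : FiniteAlong K α) (hn : finrankAlong K α = p + 1) (f : F) :
    qExpand K p ((normAlong α (β f) : F) : LaurentSeries K) =
      (∏ b ∈ Finset.range p, twistU (ζ ^ b) ((dia' f : F) : LaurentSeries K)) *
        qExpand K (p ^ 2) (f : LaurentSeries K) := by
  obtain ⟨W, hWα, hWβ⟩ := hW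
  obtain ⟨h1, h1', h2, h2'⟩ := embs_alpha_beta p α β hα hβ ζ hζ.pow_eq_one dia' W hWα hWβ
  rw [← iotaL_apply]
  exact normAlong_eq_of_embs
    (τ := fun b => (twistU (ζ ^ b)).comp W) (τ' := iotaL p F') α β hfin hn hp ζ hζ (iotaL p F)
    (fun f => ((dia' f : F) : LaurentSeries K)) (fun f => (f : LaurentSeries K)) f₀ hf₀
    h1 h1' h2 h2' f

end Pair

end Fermat.Agent.DS.G.ES.KRON.Conjugates11
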