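/-
Programme DS (S48), chapter G-ESRED, brick KRON-C (bricks row 258), helper90.

CONSTRUCTION of the Atkin–Lehner type embeddings `HasW` / `HasW'` of `Conjugates11` (generic twin)
and of diamond-type automorphisms, from PER-GENERATOR ANALYTIC DATA — no cusp data at the level
`(M; p)` is needed.

Setting: `Lc` a field, `ι : Lc →+* ℂ`, `F = Lc(S) ⊆ Lc((q))`, `F' ⊆ Lc(S ∪ S(q^p))`, `α β : F → F'`
(`α` = inclusion, `β = (q ↦ q^p)`), and for every generator `s ∈ S` a function `gFun s : ℍ → ℂ` with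
`q`-expansion `s`.  Let `σ γ ∈ SL₂(ℤ)` with

      `diag(p,1) σ diag(p,1) = p γ`,   i.e.   `γ = (p σ₀₀, σ₀₁; σ₁₀, σ₁₁/p)`     (`MatRel p σ γ`).

Then `p · σ(p z) = γ z` on `ℍ` (`scaleH_smul_scaleH`), and:

* `hasW_of_analytic`  : all `gFun s` are `γ`-invariant, `gFun s ∘ σ` has `q`-expansion `dia s`
                        (`dia : F →ₐ[Lc] F`)  ⟹  `HasW p α β dia`
                        (`Γ₁(M)`: `σ ≡ (p⁻¹,*;0,p) mod M`, `p ∣ σ₁₁`, `γ ∈ Γ₁(M)`);
* `hasW'_of_analytic` : all `gFun s` are `σ`-invariant, `gFun s ∘ γ` has `q`-expansion `dia' s`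
                        ⟹  `HasW' p α β dia'`
                        (`Γ₁(M)`: `σ ∈ Γ₁(M)`, `p ∣ σ₁₁`, `γ ≡ (p,*;0,p⁻¹) mod M`);
* `exists_dia`        : if `gFun s ∘ σ` has a `q`-expansion `d s ∈ F` for every generator, there is
                        an algebra hom `dia : F →ₐ[Lc] F` with `dia s = d s` (and `dia x = y` whenever
                        `x`, `y` are the expansions of some `g`, `g ∘ σ`).
-/
import Mathlib
import Fermat.Agent.X0.Hermite
import Fermat.Agent.DS.G.ES.KRON.Transport90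
import Fermat.Agent.DS.G.ES.KRON.Conjugates11

set_option autoImplicit false
set_option synthInstance.maxHeartbeats 400000
set_option linter.unusedSectionVars false

open ModularCurve UpperHalfPlane IntermediateField
open scoped MatrixGroups

noncomputable section

namespace Fermat.Agent.DS.G.ES.KRON.ConjEmb90

open Fermat.Agent.X0 Fermat.Agent.X0.Analytic
open Fermat.Agent.DS.G.ES.KRON.Transport90
open Fermat.Agent.DS.G.ES.KRON.Conjugates11

/-! ### Möbius identities -/

section Moebius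

variable (p : ℕ) [NeZero p]

/-- `diag(p,1) σ diag(p,1) = p γ`, entrywise. -/
structure MatRel (σ γ : SL(2, ℤ)) : Prop where
  h00 : γ 0 0 = (p : ℤ) * σ 0 0
  h01 : γ 0 1 = σ 0 1
  h10 : γ 1 0 = σ 1 0
  h11 : σ 1 1 = (p : ℤ) * γ 1 1

variable {p}

/-- `p · σ(p z) = γ z`. -/
theorem scaleH_smul_scaleH {σ γ : SL(2, ℤ)} (h : MatRel p σ γ) (z : ℍ) :
    scaleH p (σ • scaleH p z) = γ • z := by
  apply UpperHalfPlane.ext
  rw [coe_scaleH, Hermite.coe_smul', Hermite.coe_smul', coe_scaleH]
  have hden := Hermite.denom_ne_zero' σ (scaleH p z)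
  have hden' := Hermite.denom_ne_zero' γ z
  rw [coe_scaleH] at hden
  have hp0 : (p : ℂ) ≠ 0 := by exact_mod_cast NeZero.ne p
  have e00 : ((γ 0 0 : ℤ) : ℂ) = (p : ℂ) * ((σ 0 0 : ℤ) : ℂ) := by
    exact_mod_cast congrArg (Int.cast : ℤ → ℂ) h.h00
  have e01 : ((γ 0 1 : ℤ) : ℂ) = ((σ 0 1 : ℤ) : ℂ) := by
    exact_mod_cast congrArg (Int.cast : ℤ → ℂ) h.h01
  have e10 : ((γ 1 0 : ℤ) : ℂ) = ((σ 1 0 : ℤ) : ℂ) := by
    exact_mod_cast congrArg (Int.cast : ℤ → ℂ) h.h10
  have e11 : ((σ 1 1 : ℤ) : ℂ) = (p : ℂ) * ((γ 1 1 : ℤ) : ℂ) := by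
    exact_mod_cast congrArg (Int.cast : ℤ → ℂ) h.h11
  rw [e10] at hden'
  rw [e00, e01, e10, e11]
  rw [e11] at hden
  have hden2 : ((σ 1 0 : ℤ) : ℂ) * ((p : ℂ) * z) + (p : ℂ) * ((γ 1 1 : ℤ) : ℂ) =
      (p : ℂ) * (((σ 1 0 : ℤ) : ℂ) * z + ((γ 1 1 : ℤ) : ℂ)) := by ring
  rw [hden2, ← mul_div_assoc, mul_div_mul_left _ _ hp0]
  congr 1
  ring

theorem scaleH_surjective (d : ℕ) [NeZero d] : Function.Surjective (scaleH d) := by
  intro w
  have hd : 0 < (d : ℝ) := by exact_mod_cast Nat.pos_of_ne_zero (NeZero.ne d)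
  have hd0 : (d : ℂ) ≠ 0 := by exact_mod_cast NeZero.ne d
  have him : 0 < ((w : ℂ) / (d : ℂ)).im := by
    have : ((w : ℂ) / (d : ℂ)).im = w.im / d := by
      rw [Complex.div_natCast_im]
      rfl
    rw [this]
    exact div_pos w.im_pos hd
  refine ⟨⟨(w : ℂ) / (d : ℂ), him⟩, ?_⟩
  apply UpperHalfPlane.ext
  rw [coe_scaleH]
  show (d : ℂ) * ((w : ℂ) / (d : ℂ)) = w
  field_simp

theorem smul_surjective (σ : SL(2, ℤ)) : Function.Surjective (fun z : ℍ => σ • z) := by
  intro w
  refine ⟨σ⁻¹ • w, ?_⟩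
  show σ • σ⁻¹ • w = w
  rw [smul_smul, mul_inv_cancel, one_smul]

theorem smul_scaleH_surjective (σ : SL(2, ℤ)) (d : ℕ) [NeZero d] :
    Function.Surjective (fun z : ℍ => σ • scaleH d z) :=
  (smul_surjective σ).comp (scaleH_surjective d)

end Moebius

/-! ### The embeddings -/

section Emb

variable {Lc : Type*} [Field Lc] (ι : Lc →+* ℂ) (p : ℕ) [NeZero p]
variable {F F' : IntermediateField Lc (LaurentSeries Lc)} (α β : F →ₐ[Lc] F')
variable (hα : ∀ x : F, ((α x : F') : LaurentSeries Lc) = (x : LaurentSeries Lc))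
  (hβ : ∀ x : F, ((β x : F') : LaurentSeries Lc) = qExpand Lc p (x : LaurentSeries Lc))
variable (S : Set (LaurentSeries Lc)) (hF : F = IntermediateField.adjoin Lc S)
  (hF' : F' ≤ IntermediateField.adjoin Lc (S ∪ (qExpand Lc p) '' S))
variable (gFun : S → (ℍ → ℂ))
  (hasQ : ∀ s : S, HasQExp (coeffMap ι (s : LaurentSeries Lc)) (gFun s))

include hF in
theorem subset_F : S ⊆ (F : Set (LaurentSeries Lc)) := by
  intro s hs
  rw [hF]
  exact IntermediateField.subset_adjoin Lc S hs

/-- The generator `s ∈ S` as an element of `F`. -/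
def genF (s : S) : F := ⟨(s : LaurentSeries Lc), subset_F S hF s.2⟩

theorem coe_genF (s : S) : ((genF S hF s : F) : LaurentSeries Lc) = (s : LaurentSeries Lc) := rfl

include hα hβ hF' hasQ

/-- The common engine: an embedding of `F'` attached to `A = σ ∘ (p ·)`, from the two families of
relations on the generators. -/
theorem exists_emb_of_rel (A : ℍ → ℍ) (hA : Function.Surjective A)
    (φa φb : F →ₐ[Lc] LaurentSeries Lc)
    (hrela : ∀ s : S, Rel ι A (s : LaurentSeries Lc) (φa (genF S hF s)))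
    (hrelb : ∀ s : S, Rel ι A (qExpand Lc p (s : LaurentSeries Lc)) (φb (genF S hF s))) :
    ∃ W : F' →+* LaurentSeries Lc, (∀ a : F, W (α a) = φa a) ∧ (∀ h : F, W (β h) = φb h) := by
  have hS' : ∀ x ∈ S ∪ (qExpand Lc p) '' S, ∃ y, Rel ι A x y := by
    rintro x (hx | ⟨s, hs, rfl⟩)
    · exact ⟨_, hrela ⟨x, hx⟩⟩
    · exact ⟨_, hrelb ⟨s, hs⟩⟩
  obtain ⟨W, hW⟩ := exists_algHom ι A hA _ hS'
  let W' : F' →ₐ[Lc] LaurentSeries Lc := W.comp (IntermediateField.inclusion hF')
  have hWa : W'.comp α = φa := by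
    apply IntermediateField.algHom_ext_of_eq_adjoin Lc hF
    intro x hx
    show W (IntermediateField.inclusion hF' (α ⟨x, _⟩)) = φa ⟨x, _⟩
    apply hW
    have h1 : ((IntermediateField.inclusion hF' (α ⟨x, hF.ge (subset_adjoin _ _ hx)⟩) :
        IntermediateField.adjoin Lc (S ∪ (qExpand Lc p) '' S)) : LaurentSeries Lc) = x := by
      rw [IntermediateField.coe_inclusion, hα]
    rw [h1]
    exact hrela ⟨x, hx⟩
  have hWb : W'.comp β = φb := by
    apply IntermediateField.algHom_ext_of_eq_adjoin Lc hF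
    intro x hx
    show W (IntermediateField.inclusion hF' (β ⟨x, _⟩)) = φb ⟨x, _⟩
    apply hW
    have h1 : ((IntermediateField.inclusion hF' (β ⟨x, hF.ge (subset_adjoin _ _ hx)⟩) :
        IntermediateField.adjoin Lc (S ∪ (qExpand Lc p) '' S)) : LaurentSeries Lc) =
        qExpand Lc p x := by
      rw [IntermediateField.coe_inclusion, hβ]
    rw [h1]
    exact hrelb ⟨x, hx⟩
  exact ⟨W'.toRingHom, fun a => congrArg (fun φ : F →ₐ[Lc] LaurentSeries Lc => φ a) hWa,
    fun h => congrArg (fun φ : F →ₐ[Lc] LaurentSeries Lc => φ h) hWb⟩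

/-- **(W) from analytic data**: `γ`-invariant generators, `gFun s ∘ σ` with expansion `dia s`. -/
theorem hasW_of_analytic {σ γ : SL(2, ℤ)} (hσγ : MatRel p σ γ)
    (hinv : ∀ s : S, compSL (gFun s) γ = gFun s)
    (dia : F →ₐ[Lc] F)
    (hdia : ∀ s : S, HasQExp (coeffMap ι ((dia (genF S hF s) : F) : LaurentSeries Lc))
      (compSL (gFun s) σ)) :
    HasW p α β (dia : F →+* F) := by
  have hA := smul_scaleH_surjective σ p
  obtain ⟨W, hWa, hWb⟩ := exists_emb_of_rel ι p α β hα hβ S hF hF' gFun hasQ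
    (fun z : ℍ => σ • scaleH p z) hA
    (((IntermediateField.val F').comp β).comp dia) (IntermediateField.val F)
    (fun s => by
      refine Rel.intro (g := gFun s) (hasQ s) ?_
      have h1 : (((IntermediateField.val F').comp β).comp dia) (genF S hF s) =
          qExpand Lc p ((dia (genF S hF s) : F) : LaurentSeries Lc) := by
        show ((β (dia (genF S hF s)) : F') : LaurentSeries Lc) = _
        rw [hβ]
      rw [h1, Analytic.coeffMap_qExpand]
      exact (hdia s).qExpand p)
    (fun s => by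
      refine Rel.intro (g := fun z => gFun s (scaleH p z)) ?_ ?_
      · rw [Analytic.coeffMap_qExpand]
        exact (hasQ s).qExpand p
      · have h1 : (fun z : ℍ => gFun s (scaleH p (σ • scaleH p z))) = gFun s := by
          funext z
          rw [scaleH_smul_scaleH hσγ z]
          exact congrFun (hinv s) z
        rw [h1]
        exact hasQ s)
  refine ⟨W, fun h => ?_, fun f => ?_⟩
  · rw [hWb]
    rfl
  · rw [hWa]
    show ((β (dia f) : F') : LaurentSeries Lc) = _
    rw [hβ]
    rfl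

/-- **(W') from analytic data**: `σ`-invariant generators, `gFun s ∘ γ` with expansion `dia' s`. -/
theorem hasW'_of_analytic {σ γ : SL(2, ℤ)} (hσγ : MatRel p σ γ)
    (hinv : ∀ s : S, compSL (gFun s) σ = gFun s)
    (dia' : F →ₐ[Lc] F)
    (hdia' : ∀ s : S, HasQExp (coeffMap ι ((dia' (genF S hF s) : F) : LaurentSeries Lc))
      (compSL (gFun s) γ)) :
    HasW' p α β (dia' : F →+* F) := by
  have hA := smul_scaleH_surjective σ p
  obtain ⟨W, hWa, hWb⟩ := exists_emb_of_rel ι p α β hα hβ S hF hF' gFun hasQ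
    (fun z : ℍ => σ • scaleH p z) hA
    ((IntermediateField.val F').comp β) ((IntermediateField.val F).comp dia')
    (fun s => by
      refine Rel.intro (g := gFun s) (hasQ s) ?_
      have h1 : ((IntermediateField.val F').comp β) (genF S hF s) =
          qExpand Lc p (s : LaurentSeries Lc) := by
        show ((β (genF S hF s) : F') : LaurentSeries Lc) = _
        rw [hβ]
        rfl
      have h2 : (fun z : ℍ => gFun s (σ • scaleH p z)) = fun z => gFun s (scaleH p z) := by
        funext z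
        exact congrFun (hinv s) (scaleH p z)
      rw [h1, h2, Analytic.coeffMap_qExpand]
      exact (hasQ s).qExpand p)
    (fun s => by
      refine Rel.intro (g := fun z => gFun s (scaleH p z)) ?_ ?_
      · rw [Analytic.coeffMap_qExpand]
        exact (hasQ s).qExpand p
      · have h1 : (fun z : ℍ => gFun s (scaleH p (σ • scaleH p z))) = compSL (gFun s) γ := by
          funext z
          rw [scaleH_smul_scaleH hσγ z]
          rfl
        rw [h1]
        exact hdia' s)
  refine ⟨W, fun a => ?_, fun h => ?_⟩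
  · rw [hWa]
    show ((β a : F') : LaurentSeries Lc) = _
    rw [hβ]
  · rw [hWb]
    rfl

end Emb

/-! ### Diamond-type homs -/

section Dia

variable {Lc : Type*} [Field Lc] (ι : Lc →+* ℂ)
variable {F : IntermediateField Lc (LaurentSeries Lc)}
variable (S : Set (LaurentSeries Lc)) (hF : F = IntermediateField.adjoin Lc S)
variable (gFun : S → (ℍ → ℂ))
  (hasQ : ∀ s : S, HasQExp (coeffMap ι (s : LaurentSeries Lc)) (gFun s))

include hasQ in
/-- **Diamond-type hom from analytic data**: if for every generator `s` the function `gFun s ∘ σ` has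
a `q`-expansion `d s` lying in `F`, then there is an algebra hom `dia : F →ₐ[Lc] F` with
`dia s = d s`; more generally `dia x = y` whenever `x`, `y` are the expansions of `g`, `g ∘ σ`. -/
theorem exists_dia (σ : SL(2, ℤ)) (d : S → LaurentSeries Lc) (hdF : ∀ s : S, d s ∈ F)
    (hd : ∀ s : S, HasQExp (coeffMap ι (d s)) (compSL (gFun s) σ)) :
    ∃ dia : F →ₐ[Lc] F, (∀ s : S, ((dia (genF S hF s) : F) : LaurentSeries Lc) = d s) ∧
      ∀ (x : F) (y : LaurentSeries Lc), Rel ι (fun z : ℍ => σ • z) (x : LaurentSeries Lc) y →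
        ((dia x : F) : LaurentSeries Lc) = y := by
  have hA := smul_surjective σ
  have hrel : ∀ s : S, Rel ι (fun z : ℍ => σ • z) (s : LaurentSeries Lc) (d s) := fun s =>
    Rel.intro (g := gFun s) (hasQ s) (hd s)
  obtain ⟨W, hW⟩ := exists_algHom ι (fun z : ℍ => σ • z) hA S fun x hx => ⟨_, hrel ⟨x, hx⟩⟩
  let W' : F →ₐ[Lc] LaurentSeries Lc := W.comp (IntermediateField.inclusion hF.le)
  have hWgen : ∀ s : S, W' (genF S hF s) = d s := fun s => hW _ _ (hrel s)
  have hrange : ∀ x : F, W' x ∈ F := by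
    intro x
    obtain ⟨x, hx⟩ := x
    have hx' : x ∈ IntermediateField.adjoin Lc S := hF ▸ hx
    induction hx' using IntermediateField.adjoin_induction with
    | mem y hy =>
        have : (⟨y, hx⟩ : F) = genF S hF ⟨y, hy⟩ := rfl
        rw [this, hWgen]
        exact hdF _
    | algebraMap c =>
        have : (⟨algebraMap Lc (LaurentSeries Lc) c, hx⟩ : F) = algebraMap Lc F c := rfl
        rw [this, AlgHom.commutes]
        exact F.algebraMap_mem c
    | add y z hy hz ihy ihz =>
        have hy' : y ∈ F := hF ▸ hy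
        have hz' : z ∈ F := hF ▸ hz
        have : (⟨y + z, hx⟩ : F) = ⟨y, hy'⟩ + ⟨z, hz'⟩ := rfl
        rw [this, map_add]
        exact add_mem (ihy hy') (ihz hz')
    | inv y hy ihy =>
        have hy' : y ∈ F := hF ▸ hy
        have : (⟨y⁻¹, hx⟩ : F) = (⟨y, hy'⟩ : F)⁻¹ := rfl
        rw [this, map_inv₀]
        exact inv_mem (ihy hy')
    | mul y z hy hz ihy ihz =>
        have hy' : y ∈ F := hF ▸ hy
        have hz' : z ∈ F := hF ▸ hz
        have : (⟨y * z, hx⟩ : F) = ⟨y, hy'⟩ * ⟨z, hz'⟩ := rfl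
        rw [this, map_mul]
        exact mul_mem (ihy hy') (ihz hz')
  refine ⟨W'.codRestrict F.toSubalgebra hrange, fun s => hWgen s, fun x y hxy => ?_⟩
  show W' x = y
  exact hW _ _ hxy

end Dia

end Fermat.Agent.DS.G.ES.KRON.ConjEmb90
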