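/-
Programme DS (S48), chapter G-ESRED, brick KRON-C (bricks row 258), helper90.

BRIDGE to the root interface `DS/G/Level.lean`: `HasW` / `HasW'` / diamond homs of `Conjugates11`
(generic twin) for a pair of levels `(L, L')`,

      `L'.F₀ ≤ ℚ(L.gensQ ∪ L.gensQ(q^p))`     (`L' = ` "`L` with `Γ₀(p)`-structure"),

from the per-generator analytic facts `AnalyticGens L Lc ι` of the level `L` ALONE, two matrices
`σ γ ∈ SL₂(ℤ)` with `diag(p,1) σ diag(p,1) = p γ` (`ConjEmb90.MatRel`), and the expansion of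
`gFun g ∘ σ` (resp. `gFun g ∘ γ`) for the generators.

* `laurentBaseChange_adjoin` : `Lc · ℚ(gens) = Lc(gens)` inside `Lc((q))`;
* `FFc_eq_adjoin`            : `FFc L Lc = Lc(coeffEmb '' L.gensQ)`;
* `hasW_of_level`, `hasW'_of_level`, `exists_dia_of_level`.
-/
import Mathlib
import Fermat.Agent.DS.G.Level
import Fermat.Agent.DS.G.ES.KRON.ConjEmb90

set_option autoImplicit false
set_option linter.unusedSectionVars false

open ModularCurve UpperHalfPlane IntermediateField
open scoped MatrixGroups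

noncomputable section

namespace Fermat.Agent.DS.G.ES.KRON.ConjLevel90

open Fermat.Agent.X0 Fermat.Agent.X0.Analytic
open Fermat.Agent.DS.G.Level
open Fermat.Agent.DS.G.ES.KRON.Transport90
open Fermat.Agent.DS.G.ES.KRON.Conjugates11
open Fermat.Agent.DS.G.ES.KRON.ConjEmb90

/-! ### Base change of a field given by generators -/

section BaseChange

variable (Lc : Type*) [Field Lc] [Algebra ℚ Lc]

theorem coeffEmb_algebraMap (r : ℚ) :
    coeffEmb Lc (algebraMap ℚ (LaurentSeries ℚ) r) =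
      algebraMap Lc (LaurentSeries Lc) (algebraMap ℚ Lc r) := by
  rw [algebraMap_laurentSeries_eq_single, algebraMap_laurentSeries_eq_single, coeffEmb,
    coeffMap_single]

theorem coeffEmb_injective : Function.Injective (coeffEmb Lc) := by
  intro x y h
  ext k
  have h1 := congrArg (fun s : LaurentSeries Lc => s.coeff k) h
  simp only [coeffEmb_coeff] at h1
  exact (algebraMap ℚ Lc).injective h1

/-- `Lc · ℚ(gens) = Lc(gens)`. -/
theorem laurentBaseChange_adjoin (gens : Set (LaurentSeries ℚ)) :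
    laurentBaseChange Lc (IntermediateField.adjoin ℚ gens) =
      IntermediateField.adjoin Lc (⇑(coeffEmb Lc) '' gens) := by
  apply le_antisymm
  · rw [laurentBaseChange, IntermediateField.adjoin_le_iff]
    rintro _ ⟨y, hy, rfl⟩
    induction hy using IntermediateField.adjoin_induction with
    | mem y hy => exact IntermediateField.subset_adjoin Lc _ ⟨y, hy, rfl⟩
    | algebraMap r =>
        rw [coeffEmb_algebraMap]
        exact IntermediateField.algebraMap_mem _ _
    | add y z _ _ ihy ihz =>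
        rw [map_add]
        exact add_mem ihy ihz
    | inv y _ ihy =>
        rw [map_inv₀]
        exact inv_mem ihy
    | mul y z _ _ ihy ihz =>
        rw [map_mul]
        exact mul_mem ihy ihz
  · rw [IntermediateField.adjoin_le_iff]
    rintro _ ⟨y, hy, rfl⟩
    exact coeffEmb_mem_laurentBaseChange Lc (IntermediateField.subset_adjoin ℚ gens hy)

theorem laurentBaseChange_mono {F₀ F₁ : IntermediateField ℚ (LaurentSeries ℚ)} (h : F₀ ≤ F₁) :
    laurentBaseChange Lc F₀ ≤ laurentBaseChange Lc F₁ := by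
  rw [laurentBaseChange, IntermediateField.adjoin_le_iff]
  rintro _ ⟨y, hy, rfl⟩
  exact coeffEmb_mem_laurentBaseChange Lc (h hy)

theorem coeffEmb_qExpand (n : ℕ) [NeZero n] (x : LaurentSeries ℚ) :
    coeffEmb Lc (qExpand ℚ n x) = qExpand Lc n (coeffEmb Lc x) :=
  Analytic.coeffMap_qExpand _ n x

/-- `coeffEmb '' (gens ∪ gens(q^p)) = S ∪ S(q^p)` with `S = coeffEmb '' gens`. -/
theorem image_union_qExpand (p : ℕ) [NeZero p] (gens : Set (LaurentSeries ℚ)) :
    ⇑(coeffEmb Lc) '' (gens ∪ (qExpand ℚ p) '' gens) =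
      (⇑(coeffEmb Lc) '' gens) ∪ (qExpand Lc p) '' (⇑(coeffEmb Lc) '' gens) := by
  rw [Set.image_union, Set.image_image, Set.image_image]
  congr 1
  ext x
  simp only [Set.mem_image]
  constructor
  · rintro ⟨g, hg, rfl⟩
    exact ⟨g, hg, (coeffEmb_qExpand Lc p g).symm⟩
  · rintro ⟨g, hg, rfl⟩
    exact ⟨g, hg, coeffEmb_qExpand Lc p g⟩

end BaseChange

/-! ### The level interface -/

section Level

variable (L L' : LevelData) (Lc : Type) [Field Lc] [Algebra ℚ Lc] (ι : Lc →+* ℂ)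
variable (p : ℕ) [NeZero p]

/-- The generating set `S = coeffEmb '' L.gensQ ⊆ Lc((q))`. -/
def genS : Set (LaurentSeries Lc) := ⇑(coeffEmb Lc) '' L.gensQ

theorem FFc_eq_adjoin :
    laurentBaseChange Lc L.F₀ = IntermediateField.adjoin Lc (genS L Lc) := by
  rw [← L.adjoin_eq]
  exact laurentBaseChange_adjoin Lc L.gensQ

theorem FFc_le_adjoin
    (hL' : L'.F₀ ≤ IntermediateField.adjoin ℚ (L.gensQ ∪ (qExpand ℚ p) '' L.gensQ)) :
    laurentBaseChange Lc L'.F₀ ≤
      IntermediateField.adjoin Lc (genS L Lc ∪ (qExpand Lc p) '' genS L Lc) := by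
  refine (laurentBaseChange_mono Lc hL').trans ?_
  rw [laurentBaseChange_adjoin, image_union_qExpand]
  exact le_rfl

/-- The generator of `L` behind an element of `genS`. -/
def preGen (s : genS L Lc) : L.gensQ := ⟨s.2.choose, s.2.choose_spec.1⟩

theorem coeffEmb_preGen (s : genS L Lc) :
    coeffEmb Lc (preGen L Lc s : LaurentSeries ℚ) = (s : LaurentSeries Lc) :=
  s.2.choose_spec.2

variable {L Lc ι}

/-- The analytic functions attached to the elements of `genS`. -/
def gFunS (AG : AnalyticGens L Lc ι) (s : genS L Lc) : ℍ → ℂ := AG.gFun (preGen L Lc s)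

theorem coeffMap_coeffEmb (x : LaurentSeries ℚ) :
    coeffMap ι (coeffEmb Lc x) = coeffEmb ℂ x := by
  rw [coeffEmb, coeffMap_coeffMap]
  exact coeffMap_congr (Subsingleton.elim _ _) x

theorem hasQ_gFunS (AG : AnalyticGens L Lc ι) (s : genS L Lc) :
    HasQExp (coeffMap ι (s : LaurentSeries Lc)) (gFunS AG s) := by
  rw [← coeffEmb_preGen L Lc s, coeffMap_coeffEmb]
  exact AG.hasQExp (preGen L Lc s)

theorem genF_eq_genc (s : genS L Lc) :
    genF (genS L Lc) (FFc_eq_adjoin L Lc) s = genc L Lc (preGen L Lc s) := by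
  apply Subtype.ext
  rw [coe_genF, coe_genc, coeffEmb_preGen]

variable {L' p}
variable (α β : FFc L Lc →ₐ[Lc] FFc L' Lc)
variable (hα : ∀ x : FFc L Lc, ((α x : FFc L' Lc) : LaurentSeries Lc) = (x : LaurentSeries Lc))
  (hβ : ∀ x : FFc L Lc,
    ((β x : FFc L' Lc) : LaurentSeries Lc) = qExpand Lc p (x : LaurentSeries Lc))

include hα hβ

/-- **(W) for a pair of levels**: `γ ∈ L.Gam`, and `gFun g ∘ σ` has expansion `dia g` for the
generators `g` of `L`. -/
theorem hasW_of_level (AG : AnalyticGens L Lc ι)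
    (hL' : L'.F₀ ≤ IntermediateField.adjoin ℚ (L.gensQ ∪ (qExpand ℚ p) '' L.gensQ))
    {σ γ : SL(2, ℤ)} (hσγ : MatRel p σ γ) (hγ : γ ∈ L.Gam)
    (dia : FFc L Lc →ₐ[Lc] FFc L Lc)
    (hdia : ∀ g : L.gensQ, HasQExp (coeffMap ι ((dia (genc L Lc g) : FFc L Lc) : LaurentSeries Lc))
      (compSL (AG.gFun g) σ)) :
    HasW p α β (dia : FFc L Lc →+* FFc L Lc) :=
  hasW_of_analytic ι p α β hα hβ (genS L Lc) (FFc_eq_adjoin L Lc) (FFc_le_adjoin L L' Lc p hL')
    (gFunS AG) (hasQ_gFunS AG) hσγ (fun s => AG.invariant _ γ hγ) dia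
    (fun s => by
      rw [genF_eq_genc]
      exact hdia (preGen L Lc s))

/-- **(W') for a pair of levels**: `σ ∈ L.Gam`, and `gFun g ∘ γ` has expansion `dia' g` for the
generators `g` of `L`. -/
theorem hasW'_of_level (AG : AnalyticGens L Lc ι)
    (hL' : L'.F₀ ≤ IntermediateField.adjoin ℚ (L.gensQ ∪ (qExpand ℚ p) '' L.gensQ))
    {σ γ : SL(2, ℤ)} (hσγ : MatRel p σ γ) (hσ : σ ∈ L.Gam)
    (dia' : FFc L Lc →ₐ[Lc] FFc L Lc)
    (hdia' : ∀ g : L.gensQ,
      HasQExp (coeffMap ι ((dia' (genc L Lc g) : FFc L Lc) : LaurentSeries Lc))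
        (compSL (AG.gFun g) γ)) :
    HasW' p α β (dia' : FFc L Lc →+* FFc L Lc) :=
  hasW'_of_analytic ι p α β hα hβ (genS L Lc) (FFc_eq_adjoin L Lc) (FFc_le_adjoin L L' Lc p hL')
    (gFunS AG) (hasQ_gFunS AG) hσγ (fun s => AG.invariant _ σ hσ) dia'
    (fun s => by
      rw [genF_eq_genc]
      exact hdia' (preGen L Lc s))

omit hα hβ in
/-- **Diamond-type hom of a level**: if for every generator `g` the function `gFun g ∘ σ` has a
`q`-expansion `d g` in `FFc L Lc`, there is an algebra endomorphism `dia` of `FFc L Lc` with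
`dia g = d g`. -/
theorem exists_dia_of_level (AG : AnalyticGens L Lc ι) (σ : SL(2, ℤ))
    (d : L.gensQ → FFc L Lc)
    (hd : ∀ g : L.gensQ, HasQExp (coeffMap ι ((d g : FFc L Lc) : LaurentSeries Lc))
      (compSL (AG.gFun g) σ)) :
    ∃ dia : FFc L Lc →ₐ[Lc] FFc L Lc, (∀ g : L.gensQ, dia (genc L Lc g) = d g) ∧
      ∀ g : L.gensQ, HasQExp (coeffMap ι ((dia (genc L Lc g) : FFc L Lc) : LaurentSeries Lc))
        (compSL (AG.gFun g) σ) := by
  obtain ⟨dia, h1, -⟩ := exists_dia ι (genS L Lc) (FFc_eq_adjoin L Lc) (gFunS AG) (hasQ_gFunS AG) σ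
    (fun s => ((d (preGen L Lc s) : FFc L Lc) : LaurentSeries Lc))
    (fun s => (d (preGen L Lc s)).2) (fun s => hd (preGen L Lc s))
  have hgen : ∀ g : L.gensQ, dia (genc L Lc g) = d g := by
    intro g
    have hs : coeffEmb Lc (g : LaurentSeries ℚ) ∈ genS L Lc := ⟨g, g.2, rfl⟩
    have hpre : preGen L Lc ⟨_, hs⟩ = g := by
      apply Subtype.ext
      exact coeffEmb_injective Lc (coeffEmb_preGen L Lc ⟨_, hs⟩)
    have h2 := h1 ⟨_, hs⟩
    rw [genF_eq_genc, hpre] at h2
    exact Subtype.ext h2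
  refine ⟨dia, hgen, fun g => ?_⟩
  rw [hgen]
  exact hd g

end Level

end Fermat.Agent.DS.G.ES.KRON.ConjLevel90
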