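/-
Programme DS (S48), chapter G-ESRED, brick KRON-C (bricks row 258), helper90.

TOP of KRON-C: the Kronecker form of the Hecke characteristic polynomial / norm for a pair of
levels `(L, L')`, and the plug for `L = L1 M` (`±Γ₁(M)`, `DS/X1/Level1.lean`).

* `StableUnder AG γ` : for every generator `g` of `L`, `gFun g ∘ γ` has a `q`-expansion in
  `FFc L Lc`  (for `L1 M` and `γ ∈ Γ₀(M)`: `compSL_gABfun`, the diamond law of `X1/GabFun`);
* `exists_dia_hasW'` / `exists_dia_hasW` : the diamond hom `dia'` (resp. `dia`) attached to `γ`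
  (resp. `σ`) and the Atkin–Lehner embedding, from `MatRel p σ γ`;
* `kron_alpha_of_level` **(POLY-α + NORM-α for a pair of levels)**, `kron_beta_of_level`;
* `exists_matRel'`, `exists_matRel` : the matrices for `Γ₁(M)`, `p ∤ M`:
    `σ = (1, -k; M, p w) ∈ Γ₁(M)`, `γ = (p, -k; M, w) ∈ Γ₀(M)`, `γ₀₀ = p`        (`w p + k M = 1`),
    `σ = (w, -k; M, p) ∈ Γ₀(M)`, `σ₁₁ = p`, `γ = (p w, -k; M, 1) ∈ Γ₁(M)`;
* `kron_alpha_L1`, `kron_beta_L1` : the statements for `L1 M`.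
-/
import Mathlib
import Fermat.Agent.DS.X1.Level1
import Fermat.Agent.DS.G.ES.KRON.ConjLevel90

set_option autoImplicit false
set_option linter.unusedSectionVars false

open ModularCurve UpperHalfPlane IntermediateField AlgebraicCurve Polynomial
open scoped MatrixGroups

noncomputable section

namespace Fermat.Agent.DS.G.ES.KRON.ConjTop90

open Fermat.Agent.X0 Fermat.Agent.X0.Analytic
open Fermat.Agent.DS.G.Level
open Fermat.Agent.ES.KRON.KronCong24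
open Fermat.Agent.ES.HECKE.PointFormula28
open Fermat.Agent.DS.G.ES.KRON.Transport90
open Fermat.Agent.DS.G.ES.KRON.Conjugates11
open Fermat.Agent.DS.G.ES.KRON.ConjEmb90
open Fermat.Agent.DS.G.ES.KRON.ConjLevel90

/-! ### Pairs of levels -/

section Level

variable {L L' : LevelData} {Lc : Type} [Field Lc] [Algebra ℚ Lc] {ι : Lc →+* ℂ}
variable {p : ℕ} [NeZero p]

/-- For every generator `g` of `L`, the function `gFun g ∘ γ` has a `q`-expansion lying in the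
function field of `L`. -/
def StableUnder (AG : AnalyticGens L Lc ι) (γ : SL(2, ℤ)) : Prop :=
  ∀ g : L.gensQ, ∃ y : FFc L Lc,
    HasQExp (coeffMap ι ((y : FFc L Lc) : LaurentSeries Lc)) (compSL (AG.gFun g) γ)

/-- If `γ` permutes the analytic generators, the level is stable under `γ`. -/
theorem stableUnder_of_perm (AG : AnalyticGens L Lc ι) (γ : SL(2, ℤ))
    (h : ∀ g : L.gensQ, ∃ g' : L.gensQ, compSL (AG.gFun g) γ = AG.gFun g') :
    StableUnder AG γ := by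
  intro g
  obtain ⟨g', hg'⟩ := h g
  refine ⟨genc L Lc g', ?_⟩
  rw [hg', coe_genc, ConjLevel90.coeffMap_coeffEmb]
  exact AG.hasQExp g'

/-- The diamond hom attached to `γ`. -/
theorem exists_dia_of_stable (AG : AnalyticGens L Lc ι) {γ : SL(2, ℤ)} (hst : StableUnder AG γ) :
    ∃ dia : FFc L Lc →ₐ[Lc] FFc L Lc,
      (∀ g : L.gensQ, HasQExp (coeffMap ι ((dia (genc L Lc g) : FFc L Lc) : LaurentSeries Lc))
        (compSL (AG.gFun g) γ)) ∧ dia (jFc L Lc) = jFc L Lc := by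
  obtain ⟨dia, -, hdia⟩ := exists_dia_of_level AG γ (fun g => (hst g).choose)
    (fun g => (hst g).choose_spec)
  refine ⟨dia, hdia, ?_⟩
  -- `dia j = j`: both have the `q`-expansion of `jFun ∘ γ = jFun`
  have h1 := hdia L.jGen
  have hj : compSL (AG.gFun L.jGen) γ = AG.gFun L.jGen := by
    rw [AG.j_eq]
    funext z
    exact jFun_smul γ z
  rw [hj] at h1
  have h2 : HasQExp (coeffMap ι ((jFc L Lc : FFc L Lc) : LaurentSeries Lc)) (AG.gFun L.jGen) := by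
    rw [coe_jFc, ConjLevel90.coeffMap_coeffEmb]
    exact AG.hasQExp L.jGen
  apply Subtype.ext
  exact Transport90.coeffMap_injective ι (h1.unique_left h2)

variable (α β : FFc L Lc →ₐ[Lc] FFc L' Lc)
variable (hα : ∀ x : FFc L Lc, ((α x : FFc L' Lc) : LaurentSeries Lc) = (x : LaurentSeries Lc))
  (hβ : ∀ x : FFc L Lc,
    ((β x : FFc L' Lc) : LaurentSeries Lc) = qExpand Lc p (x : LaurentSeries Lc))

include hα hβ

/-- **(W')**: `σ ∈ L.Gam`, the level stable under `γ`, `diag(p,1) σ diag(p,1) = p γ`. -/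
theorem exists_dia_hasW' (AG : AnalyticGens L Lc ι)
    (hL' : L'.F₀ ≤ IntermediateField.adjoin ℚ (L.gensQ ∪ (qExpand ℚ p) '' L.gensQ))
    {σ γ : SL(2, ℤ)} (hσγ : MatRel p σ γ) (hσ : σ ∈ L.Gam) (hst : StableUnder AG γ) :
    ∃ dia' : FFc L Lc →ₐ[Lc] FFc L Lc,
      (∀ g : L.gensQ, HasQExp (coeffMap ι ((dia' (genc L Lc g) : FFc L Lc) : LaurentSeries Lc))
        (compSL (AG.gFun g) γ)) ∧ dia' (jFc L Lc) = jFc L Lc ∧
      HasW' p α β (dia' : FFc L Lc →+* FFc L Lc) := by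
  obtain ⟨dia', h1, h2⟩ := exists_dia_of_stable AG hst
  exact ⟨dia', h1, h2, hasW'_of_level α β hα hβ AG hL' hσγ hσ dia' h1⟩

/-- **(W)**: `γ ∈ L.Gam`, the level stable under `σ`, `diag(p,1) σ diag(p,1) = p γ`. -/
theorem exists_dia_hasW (AG : AnalyticGens L Lc ι)
    (hL' : L'.F₀ ≤ IntermediateField.adjoin ℚ (L.gensQ ∪ (qExpand ℚ p) '' L.gensQ))
    {σ γ : SL(2, ℤ)} (hσγ : MatRel p σ γ) (hγ : γ ∈ L.Gam) (hst : StableUnder AG σ) :
    ∃ dia : FFc L Lc →ₐ[Lc] FFc L Lc,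
      (∀ g : L.gensQ, HasQExp (coeffMap ι ((dia (genc L Lc g) : FFc L Lc) : LaurentSeries Lc))
        (compSL (AG.gFun g) σ)) ∧ dia (jFc L Lc) = jFc L Lc ∧
      HasW p α β (dia : FFc L Lc →+* FFc L Lc) := by
  obtain ⟨dia, h1, h2⟩ := exists_dia_of_stable AG hst
  exact ⟨dia, h1, h2, hasW_of_level α β hα hβ AG hL' hσγ hγ dia h1⟩

omit hα hβ in
theorem coeff_jFc_neg_one : ((jFc L Lc : FFc L Lc) : LaurentSeries Lc).coeff (-1) ≠ 0 := by
  rw [coe_jFc, coeffEmb_coeff]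
  rw [ModularCurve.coeff_jq_neg_one, map_one]
  exact one_ne_zero

/-- **KRON-C, `α`-orientation, for a pair of levels**: there is a diamond hom `dia'`
(`dia' g` = expansion of `gFun g ∘ γ`, `dia' j = j`) such that for all `f`

  `((charpolyAlong α β hfin f).map val).map (qExpand p)
      = ∏_{b<p} (X - (dia' f)(ζ^b q)) * (X - f(q^{p²}))`   and
  `(N_α (β f))(q^p) = ∏_{b<p} (dia' f)(ζ^b q) * f(q^{p²})`. -/
theorem kron_alpha_of_level (hp : p.Prime) (AG : AnalyticGens L Lc ι)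
    (hL' : L'.F₀ ≤ IntermediateField.adjoin ℚ (L.gensQ ∪ (qExpand ℚ p) '' L.gensQ))
    {σ γ : SL(2, ℤ)} (hσγ : MatRel p σ γ) (hσ : σ ∈ L.Gam) (hst : StableUnder AG γ)
    (hfin : FiniteAlong Lc α) (hn : finrankAlong Lc α = p + 1) :
    ∃ dia' : FFc L Lc →ₐ[Lc] FFc L Lc,
      (∀ g : L.gensQ, HasQExp (coeffMap ι ((dia' (genc L Lc g) : FFc L Lc) : LaurentSeries Lc))
        (compSL (AG.gFun g) γ)) ∧ dia' (jFc L Lc) = jFc L Lc ∧
      (∀ (ζ : Lcˣ) (_ : IsPrimitiveRoot ζ p) (val : FFc L Lc →+* LaurentSeries Lc)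
        (_ : ∀ x : FFc L Lc, val x = (x : LaurentSeries Lc)) (f : FFc L Lc),
        ((charpolyAlong α β hfin f).map val).map (qExpand Lc p) =
          (∏ b ∈ Finset.range p,
            (X - C (twistU (ζ ^ b) ((dia' f : FFc L Lc) : LaurentSeries Lc)))) *
          (X - C (qExpand Lc (p ^ 2) (f : LaurentSeries Lc)))) ∧
      (∀ (ζ : Lcˣ) (_ : IsPrimitiveRoot ζ p) (f : FFc L Lc),
        qExpand Lc p ((normAlong α (β f) : FFc L Lc) : LaurentSeries Lc) =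
          (∏ b ∈ Finset.range p, twistU (ζ ^ b) ((dia' f : FFc L Lc) : LaurentSeries Lc)) *
            qExpand Lc (p ^ 2) (f : LaurentSeries Lc)) := by
  obtain ⟨dia', h1, h2, hW⟩ := exists_dia_hasW' α β hα hβ AG hL' hσγ hσ hst
  have hf₀ : (((dia' : FFc L Lc →+* FFc L Lc) (jFc L Lc) : FFc L Lc) : LaurentSeries Lc).coeff (-1)
      ≠ 0 := by
    show ((dia' (jFc L Lc) : FFc L Lc) : LaurentSeries Lc).coeff (-1) ≠ 0
    rw [h2]
    exact coeff_jFc_neg_one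
  refine ⟨dia', h1, h2, fun ζ hζ val hval f => ?_, fun ζ hζ f => ?_⟩
  · exact charpolyAlong_alpha_map_of_val p α β hα hβ hp ζ hζ (dia' : FFc L Lc →+* FFc L Lc) hW
      (jFc L Lc) hf₀ val hval hfin hn f
  · exact qExpand_normAlong_alpha p α β hα hβ hp ζ hζ (dia' : FFc L Lc →+* FFc L Lc) hW
      (jFc L Lc) hf₀ hfin hn f

/-- **KRON-C, `β`-orientation, for a pair of levels.** -/
theorem kron_beta_of_level (hp : p.Prime) (AG : AnalyticGens L Lc ι)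
    (hL' : L'.F₀ ≤ IntermediateField.adjoin ℚ (L.gensQ ∪ (qExpand ℚ p) '' L.gensQ))
    {σ γ : SL(2, ℤ)} (hσγ : MatRel p σ γ) (hγ : γ ∈ L.Gam) (hst : StableUnder AG σ)
    (hfin : FiniteAlong Lc β) (hn : finrankAlong Lc β = p + 1) :
    ∃ dia : FFc L Lc →ₐ[Lc] FFc L Lc,
      (∀ g : L.gensQ, HasQExp (coeffMap ι ((dia (genc L Lc g) : FFc L Lc) : LaurentSeries Lc))
        (compSL (AG.gFun g) σ)) ∧ dia (jFc L Lc) = jFc L Lc ∧
      (∀ (ζ : Lcˣ) (_ : IsPrimitiveRoot ζ p) (val : FFc L Lc →+* LaurentSeries Lc)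
        (_ : ∀ x : FFc L Lc, val x = (x : LaurentSeries Lc)) (f : FFc L Lc),
        ((charpolyAlong β α hfin f).map val).map (qExpand Lc p) =
          (∏ b ∈ Finset.range p, (X - C (twistU (ζ ^ b) (f : LaurentSeries Lc)))) *
          (X - C (qExpand Lc (p ^ 2) ((dia f : FFc L Lc) : LaurentSeries Lc)))) ∧
      (∀ (ζ : Lcˣ) (_ : IsPrimitiveRoot ζ p) (f : FFc L Lc),
        qExpand Lc p ((normAlong β (α f) : FFc L Lc) : LaurentSeries Lc) =
          (∏ b ∈ Finset.range p, twistU (ζ ^ b) (f : LaurentSeries Lc)) *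
            qExpand Lc (p ^ 2) ((dia f : FFc L Lc) : LaurentSeries Lc)) := by
  obtain ⟨dia, h1, h2, hW⟩ := exists_dia_hasW α β hα hβ AG hL' hσγ hγ hst
  have hf₀ : ((jFc L Lc : FFc L Lc) : LaurentSeries Lc).coeff (-1) ≠ 0 := coeff_jFc_neg_one
  refine ⟨dia, h1, h2, fun ζ hζ val hval f => ?_, fun ζ hζ f => ?_⟩
  · exact charpolyAlong_map_of_val p α β hα hβ hp ζ hζ (dia : FFc L Lc →+* FFc L Lc) hW
      (jFc L Lc) hf₀ val hval hfin hn f
  · exact qExpand_normAlong_beta p α β hα hβ hp ζ hζ (dia : FFc L Lc →+* FFc L Lc) hW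
      (jFc L Lc) hf₀ hfin hn f

end Level

/-! ### The matrices for `Γ₁(M)` -/

section Matrices

variable (M p : ℕ) [NeZero p]

theorem intCast_natCast_zmod_self : (((M : ℕ) : ℤ) : ZMod M) = 0 := by
  rw [Int.cast_natCast]
  exact ZMod.natCast_self M

/-- `σ = (1, -k; M, p w) ∈ Γ₁(M)`, `γ = (p, -k; M, w) ∈ Γ₀(M)`, for `w p + k M = 1`. -/
theorem exists_matRel' (hcop : Nat.Coprime p M) :
    ∃ σ γ : SL(2, ℤ), MatRel p σ γ ∧ σ ∈ CongruenceSubgroup.Gamma1 M ∧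
      γ ∈ CongruenceSubgroup.Gamma0 M ∧ ((γ 0 0 : ℤ) : ZMod M) = (p : ZMod M) := by
  have hco : IsCoprime (p : ℤ) (M : ℤ) := Nat.isCoprime_iff_coprime.mpr hcop
  obtain ⟨w, k, hwk⟩ := hco
  have hM0 : ((M : ℤ) : ZMod M) = 0 := intCast_natCast_zmod_self M
  refine ⟨⟨!![1, -k; (M : ℤ), (p : ℤ) * w], by rw [Matrix.det_fin_two_of]; linear_combination hwk⟩,
    ⟨!![(p : ℤ), -k; (M : ℤ), w], by rw [Matrix.det_fin_two_of]; linear_combination hwk⟩,
    ⟨?_, rfl, rfl, rfl⟩, ?_, ?_, ?_⟩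
  · show (p : ℤ) = (p : ℤ) * 1
    rw [mul_one]
  · rw [CongruenceSubgroup.Gamma1_mem]
    refine ⟨?_, ?_, ?_⟩
    · show (((1 : ℤ)) : ZMod M) = 1
      exact Int.cast_one
    · show (((p : ℤ) * w : ℤ) : ZMod M) = 1
      have h1 : (p : ℤ) * w = 1 - k * M := by linear_combination hwk
      rw [h1, Int.cast_sub, Int.cast_one, Int.cast_mul, hM0, mul_zero, sub_zero]
    · show (((M : ℤ)) : ZMod M) = 0
      exact hM0
  · rw [CongruenceSubgroup.Gamma0_mem]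
    show (((M : ℤ)) : ZMod M) = 0
    exact hM0
  · show (((p : ℤ)) : ZMod M) = (p : ZMod M)
    exact Int.cast_natCast p

/-- `σ = (w, -k; M, p) ∈ Γ₀(M)`, `γ = (p w, -k; M, 1) ∈ Γ₁(M)`, for `w p + k M = 1`. -/
theorem exists_matRel (hcop : Nat.Coprime p M) :
    ∃ σ γ : SL(2, ℤ), MatRel p σ γ ∧ γ ∈ CongruenceSubgroup.Gamma1 M ∧
      σ ∈ CongruenceSubgroup.Gamma0 M ∧ ((σ 1 1 : ℤ) : ZMod M) = (p : ZMod M) := by
  have hco : IsCoprime (p : ℤ) (M : ℤ) := Nat.isCoprime_iff_coprime.mpr hcop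
  obtain ⟨w, k, hwk⟩ := hco
  have hM0 : ((M : ℤ) : ZMod M) = 0 := intCast_natCast_zmod_self M
  refine ⟨⟨!![w, -k; (M : ℤ), (p : ℤ)], by rw [Matrix.det_fin_two_of]; linear_combination hwk⟩,
    ⟨!![(p : ℤ) * w, -k; (M : ℤ), 1], by rw [Matrix.det_fin_two_of]; linear_combination hwk⟩,
    ⟨rfl, rfl, rfl, ?_⟩, ?_, ?_, ?_⟩
  · show (p : ℤ) = (p : ℤ) * 1
    rw [mul_one]
  · rw [CongruenceSubgroup.Gamma1_mem]
    refine ⟨?_, ?_, ?_⟩
    · show (((p : ℤ) * w : ℤ) : ZMod M) = 1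
      have h1 : (p : ℤ) * w = 1 - k * M := by linear_combination hwk
      rw [h1, Int.cast_sub, Int.cast_one, Int.cast_mul, hM0, mul_zero, sub_zero]
    · show (((1 : ℤ)) : ZMod M) = 1
      exact Int.cast_one
    · show (((M : ℤ)) : ZMod M) = 0
      exact hM0
  · rw [CongruenceSubgroup.Gamma0_mem]
    show (((M : ℤ)) : ZMod M) = 0
    exact hM0
  · show (((p : ℤ)) : ZMod M) = (p : ZMod M)
    exact Int.cast_natCast p

end Matrices

/-! ### The level `L1 M = ±Γ₁(M)` -/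

section LOne

open Fermat.Agent.DS.X1.Level1

variable (M : ℕ) [NeZero M] {p : ℕ} [NeZero p]
variable {L' : LevelData} {Lc : Type} [Field Lc] [Algebra ℚ Lc] {ι : Lc →+* ℂ}
variable (α β : FFc (L1 M) Lc →ₐ[Lc] FFc L' Lc)
variable (hα : ∀ x : FFc (L1 M) Lc,
    ((α x : FFc L' Lc) : LaurentSeries Lc) = (x : LaurentSeries Lc))
  (hβ : ∀ x : FFc (L1 M) Lc,
    ((β x : FFc L' Lc) : LaurentSeries Lc) = qExpand Lc p (x : LaurentSeries Lc))

include hα hβ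

/-- **KRON-C for `±Γ₁(M)`, `α`-orientation** (`T = α_* β^*`): if `Γ₀(M)` stabilises the analytic
generators, there are `γ ∈ Γ₀(M)` with `γ₀₀ ≡ p mod M` and a diamond hom `dia'` (`dia' g` = expansion
of `gFun g ∘ γ`) with the Kronecker formulas. -/
theorem kron_alpha_L1 (hp : p.Prime) (hpM : ¬ p ∣ M) (AG : AnalyticGens (L1 M) Lc ι)
    (hL' : L'.F₀ ≤
      IntermediateField.adjoin ℚ ((L1 M).gensQ ∪ (qExpand ℚ p) '' (L1 M).gensQ))
    (hst : ∀ γ ∈ CongruenceSubgroup.Gamma0 M, StableUnder AG γ)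
    (hfin : FiniteAlong Lc α) (hn : finrankAlong Lc α = p + 1) :
    ∃ γ ∈ CongruenceSubgroup.Gamma0 M, ((γ 0 0 : ℤ) : ZMod M) = (p : ZMod M) ∧
    ∃ dia' : FFc (L1 M) Lc →ₐ[Lc] FFc (L1 M) Lc,
      (∀ g : (L1 M).gensQ,
        HasQExp (coeffMap ι ((dia' (genc (L1 M) Lc g) : FFc (L1 M) Lc) : LaurentSeries Lc))
          (compSL (AG.gFun g) γ)) ∧ dia' (jFc (L1 M) Lc) = jFc (L1 M) Lc ∧
      (∀ (ζ : Lcˣ) (_ : IsPrimitiveRoot ζ p) (val : FFc (L1 M) Lc →+* LaurentSeries Lc)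
        (_ : ∀ x : FFc (L1 M) Lc, val x = (x : LaurentSeries Lc)) (f : FFc (L1 M) Lc),
        ((charpolyAlong α β hfin f).map val).map (qExpand Lc p) =
          (∏ b ∈ Finset.range p,
            (X - C (twistU (ζ ^ b) ((dia' f : FFc (L1 M) Lc) : LaurentSeries Lc)))) *
          (X - C (qExpand Lc (p ^ 2) (f : LaurentSeries Lc)))) ∧
      (∀ (ζ : Lcˣ) (_ : IsPrimitiveRoot ζ p) (f : FFc (L1 M) Lc),
        qExpand Lc p ((normAlong α (β f) : FFc (L1 M) Lc) : LaurentSeries Lc) =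
          (∏ b ∈ Finset.range p,
            twistU (ζ ^ b) ((dia' f : FFc (L1 M) Lc) : LaurentSeries Lc)) *
            qExpand Lc (p ^ 2) (f : LaurentSeries Lc)) := by
  have hcop : Nat.Coprime p M := (Nat.Prime.coprime_iff_not_dvd hp).mpr hpM
  obtain ⟨σ, γ, hσγ, hσ, hγ, hγ00⟩ := exists_matRel' M p hcop
  have hσ' : σ ∈ (L1 M).Gam := Gamma1_le_Gamma1pm M hσ
  exact ⟨γ, hγ, hγ00, kron_alpha_of_level α β hα hβ hp AG hL' hσγ hσ' (hst γ hγ) hfin hn⟩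

/-- **KRON-C for `±Γ₁(M)`, `β`-orientation.** -/
theorem kron_beta_L1 (hp : p.Prime) (hpM : ¬ p ∣ M) (AG : AnalyticGens (L1 M) Lc ι)
    (hL' : L'.F₀ ≤
      IntermediateField.adjoin ℚ ((L1 M).gensQ ∪ (qExpand ℚ p) '' (L1 M).gensQ))
    (hst : ∀ γ ∈ CongruenceSubgroup.Gamma0 M, StableUnder AG γ)
    (hfin : FiniteAlong Lc β) (hn : finrankAlong Lc β = p + 1) :
    ∃ σ ∈ CongruenceSubgroup.Gamma0 M, ((σ 1 1 : ℤ) : ZMod M) = (p : ZMod M) ∧
    ∃ dia : FFc (L1 M) Lc →ₐ[Lc] FFc (L1 M) Lc,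
      (∀ g : (L1 M).gensQ,
        HasQExp (coeffMap ι ((dia (genc (L1 M) Lc g) : FFc (L1 M) Lc) : LaurentSeries Lc))
          (compSL (AG.gFun g) σ)) ∧ dia (jFc (L1 M) Lc) = jFc (L1 M) Lc ∧
      (∀ (ζ : Lcˣ) (_ : IsPrimitiveRoot ζ p) (val : FFc (L1 M) Lc →+* LaurentSeries Lc)
        (_ : ∀ x : FFc (L1 M) Lc, val x = (x : LaurentSeries Lc)) (f : FFc (L1 M) Lc),
        ((charpolyAlong β α hfin f).map val).map (qExpand Lc p) =
          (∏ b ∈ Finset.range p, (X - C (twistU (ζ ^ b) (f : LaurentSeries Lc)))) *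
          (X - C (qExpand Lc (p ^ 2) ((dia f : FFc (L1 M) Lc) : LaurentSeries Lc)))) ∧
      (∀ (ζ : Lcˣ) (_ : IsPrimitiveRoot ζ p) (f : FFc (L1 M) Lc),
        qExpand Lc p ((normAlong β (α f) : FFc (L1 M) Lc) : LaurentSeries Lc) =
          (∏ b ∈ Finset.range p, twistU (ζ ^ b) (f : LaurentSeries Lc)) *
            qExpand Lc (p ^ 2) ((dia f : FFc (L1 M) Lc) : LaurentSeries Lc)) := by
  have hcop : Nat.Coprime p M := (Nat.Prime.coprime_iff_not_dvd hp).mpr hpM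
  obtain ⟨σ, γ, hσγ, hγ, hσ, hσ11⟩ := exists_matRel M p hcop
  have hγ' : γ ∈ (L1 M).Gam := Gamma1_le_Gamma1pm M hγ
  exact ⟨σ, hσ, hσ11, kron_beta_of_level α β hα hβ hp AG hL' hσγ hγ' (hst σ hσ) hfin hn⟩

end LOne

end Fermat.Agent.DS.G.ES.KRON.ConjTop90
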