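/-
Programme DS (S48), chapter G-ESRED, brick KRON-C (bricks row 258), helper90.

Input (I1) of `ConjTop90.kron_alpha_L1` / `kron_beta_L1`: **the analytic generators of the level
`±Γ₁(M)` are permuted by `Γ₀(M)`** (the diamond law of `X1/GabFun`):

* `perm_gFun M hγ g : ∃ g', compSL (gFun M g) γ = gFun M g'` for `γ ∈ Γ₀(M)`:
  `j(dτ) ∘ γ = j(dτ)` and `g_{a,b} ∘ γ = g_{a u, b u}`, `u = γ₀₀ mod M`;
* `stableUnder_analyticGens1 : ∀ γ ∈ Γ₀(M), StableUnder (analyticGens1 M Lc ι ζ hζ) γ`;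
* `kron_alpha_L1'`, `kron_beta_L1'` : `ConjTop90.kron_alpha_L1`, `kron_beta_L1` for the concrete
  analytic package `analyticGens1` (no stability hypothesis left).
-/
import Mathlib
import Fermat.Agent.DS.X1.AnalyticGens13
import Fermat.Agent.DS.G.ES.KRON.ConjTop90

set_option autoImplicit false
set_option linter.unusedSectionVars false

open ModularCurve UpperHalfPlane IntermediateField AlgebraicCurve Polynomial
open scoped MatrixGroups

noncomputable section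

namespace Fermat.Agent.DS.G.ES.KRON.ConjStable90

open Fermat.Agent.X0 Fermat.Agent.X0.Analytic
open Fermat.Agent.DS.G.Level
open Fermat.Agent.DS.X1.Level1 Fermat.Agent.DS.X1.GabFun Fermat.Agent.DS.X1.HasQExp13
open Fermat.Agent.DS.X1.AnalyticGens13
open Fermat.Agent.ES.KRON.KronCong24
open Fermat.Agent.ES.HECKE.PointFormula28
open Fermat.Agent.DS.G.ES.KRON.Conjugates11
open Fermat.Agent.DS.G.ES.KRON.ConjTop90

variable (M : ℕ) [NeZero M]

/-- `u = γ₀₀ mod M` is not a zero divisor for `γ ∈ Γ₀(M)`. -/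
theorem mul_diag_ne_zero {γ : SL(2, ℤ)} (hγ : γ ∈ CongruenceSubgroup.Gamma0 M) {a : ZMod M}
    (ha : a ≠ 0) : a * ((γ 0 0 : ℤ) : ZMod M) ≠ 0 := by
  intro h
  apply ha
  have h1 := diag_mul_eq_one M hγ
  calc a = a * (((γ 0 0 : ℤ) : ZMod M) * ((γ 1 1 : ℤ) : ZMod M)) := by rw [h1, mul_one]
    _ = (a * ((γ 0 0 : ℤ) : ZMod M)) * ((γ 1 1 : ℤ) : ZMod M) := by rw [mul_assoc]
    _ = 0 := by rw [h, zero_mul]

/-- **`Γ₀(M)` permutes the analytic generators of `±Γ₁(M)`.** -/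
theorem perm_gFun {γ : SL(2, ℤ)} (hγ : γ ∈ CongruenceSubgroup.Gamma0 M) (g : (L1 M).gensQ) :
    ∃ g' : (L1 M).gensQ, compSL (gFun M g) γ = gFun M g' := by
  refine gensQ_cases M (p := fun g => ∃ g' : (L1 M).gensQ, compSL (gFun M g) γ = gFun M g')
    ?_ ?_ g
  · intro d _ h
    refine ⟨jGenD M h, ?_⟩
    rw [gFun_jGenD]
    exact compSL_jdFun_of_mem_Gamma0 M h hγ
  · intro a b ha hb
    set u : ZMod M := ((γ 0 0 : ℤ) : ZMod M) with hu
    have hau : a * u ≠ 0 := mul_diag_ne_zero M hγ ha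
    have hbu : b * u ≠ 0 := mul_diag_ne_zero M hγ hb
    refine ⟨gGenAB M hau hbu, ?_⟩
    rw [gFun_gGenAB, gFun_gGenAB, compSL_gABfun M hγ (not_dvd_val M ha) (not_dvd_val M hb)]
    refine gABfun_congr M (not_dvd_val M hau) (not_dvd_val M hbu) ?_ ?_
    · rw [← ZMod.intCast_zmod_eq_zero_iff_dvd]
      rw [Int.cast_sub, Int.cast_mul, Fermat.Agent.DS.X1.HasQExp13.intCast_val,
        Fermat.Agent.DS.X1.HasQExp13.intCast_val, sub_self]
    · rw [← ZMod.intCast_zmod_eq_zero_iff_dvd]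
      rw [Int.cast_sub, Int.cast_mul, Fermat.Agent.DS.X1.HasQExp13.intCast_val,
        Fermat.Agent.DS.X1.HasQExp13.intCast_val, sub_self]

variable {Lc : Type} [Field Lc] [Algebra ℚ Lc] {ι : Lc →+* ℂ} {ζ : Lc}
  (hζ : ι ζ = Fermat.Agent.X0.QExpAffine.zetaC M)

/-- **(I1)**: the level `±Γ₁(M)` is stable under `Γ₀(M)`. -/
theorem stableUnder_analyticGens1 (γ : SL(2, ℤ)) (hγ : γ ∈ CongruenceSubgroup.Gamma0 M) :
    StableUnder (analyticGens1 M Lc ι ζ hζ) γ :=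
  stableUnder_of_perm (analyticGens1 M Lc ι ζ hζ) γ (fun g => perm_gFun M hγ g)

section Kron

variable {p : ℕ} [NeZero p] {L' : LevelData}
variable (α β : FFc (L1 M) Lc →ₐ[Lc] FFc L' Lc)
variable (hα : ∀ x : FFc (L1 M) Lc,
    ((α x : FFc L' Lc) : LaurentSeries Lc) = (x : LaurentSeries Lc))
  (hβ : ∀ x : FFc (L1 M) Lc,
    ((β x : FFc L' Lc) : LaurentSeries Lc) = qExpand Lc p (x : LaurentSeries Lc))

include hα hβ hζ

/-- **KRON-C for `±Γ₁(M)`, `α`-orientation, concrete analytic package.** -/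
theorem kron_alpha_L1' (hp : p.Prime) (hpM : ¬ p ∣ M)
    (hL' : L'.F₀ ≤
      IntermediateField.adjoin ℚ ((L1 M).gensQ ∪ (qExpand ℚ p) '' (L1 M).gensQ))
    (hfin : FiniteAlong Lc α) (hn : finrankAlong Lc α = p + 1) :
    ∃ γ ∈ CongruenceSubgroup.Gamma0 M, ((γ 0 0 : ℤ) : ZMod M) = (p : ZMod M) ∧
    ∃ dia' : FFc (L1 M) Lc →ₐ[Lc] FFc (L1 M) Lc,
      (∀ g : (L1 M).gensQ,
        HasQExp (coeffMap ι ((dia' (genc (L1 M) Lc g) : FFc (L1 M) Lc) : LaurentSeries Lc))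
          (compSL (gFun M g) γ)) ∧ dia' (jFc (L1 M) Lc) = jFc (L1 M) Lc ∧
      (∀ (ξ : Lcˣ) (_ : IsPrimitiveRoot ξ p) (val : FFc (L1 M) Lc →+* LaurentSeries Lc)
        (_ : ∀ x : FFc (L1 M) Lc, val x = (x : LaurentSeries Lc)) (f : FFc (L1 M) Lc),
        ((charpolyAlong α β hfin f).map val).map (qExpand Lc p) =
          (∏ b ∈ Finset.range p,
            (X - C (twistU (ξ ^ b) ((dia' f : FFc (L1 M) Lc) : LaurentSeries Lc)))) *
          (X - C (qExpand Lc (p ^ 2) (f : LaurentSeries Lc)))) ∧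
      (∀ (ξ : Lcˣ) (_ : IsPrimitiveRoot ξ p) (f : FFc (L1 M) Lc),
        qExpand Lc p ((normAlong α (β f) : FFc (L1 M) Lc) : LaurentSeries Lc) =
          (∏ b ∈ Finset.range p,
            twistU (ξ ^ b) ((dia' f : FFc (L1 M) Lc) : LaurentSeries Lc)) *
            qExpand Lc (p ^ 2) (f : LaurentSeries Lc)) :=
  kron_alpha_L1 M α β hα hβ hp hpM (analyticGens1 M Lc ι ζ hζ) hL'
    (stableUnder_analyticGens1 M hζ) hfin hn

/-- **KRON-C for `±Γ₁(M)`, `β`-orientation, concrete analytic package.** -/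
theorem kron_beta_L1' (hp : p.Prime) (hpM : ¬ p ∣ M)
    (hL' : L'.F₀ ≤
      IntermediateField.adjoin ℚ ((L1 M).gensQ ∪ (qExpand ℚ p) '' (L1 M).gensQ))
    (hfin : FiniteAlong Lc β) (hn : finrankAlong Lc β = p + 1) :
    ∃ σ ∈ CongruenceSubgroup.Gamma0 M, ((σ 1 1 : ℤ) : ZMod M) = (p : ZMod M) ∧
    ∃ dia : FFc (L1 M) Lc →ₐ[Lc] FFc (L1 M) Lc,
      (∀ g : (L1 M).gensQ,
        HasQExp (coeffMap ι ((dia (genc (L1 M) Lc g) : FFc (L1 M) Lc) : LaurentSeries Lc))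
          (compSL (gFun M g) σ)) ∧ dia (jFc (L1 M) Lc) = jFc (L1 M) Lc ∧
      (∀ (ξ : Lcˣ) (_ : IsPrimitiveRoot ξ p) (val : FFc (L1 M) Lc →+* LaurentSeries Lc)
        (_ : ∀ x : FFc (L1 M) Lc, val x = (x : LaurentSeries Lc)) (f : FFc (L1 M) Lc),
        ((charpolyAlong β α hfin f).map val).map (qExpand Lc p) =
          (∏ b ∈ Finset.range p, (X - C (twistU (ξ ^ b) (f : LaurentSeries Lc)))) *
          (X - C (qExpand Lc (p ^ 2) ((dia f : FFc (L1 M) Lc) : LaurentSeries Lc)))) ∧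
      (∀ (ξ : Lcˣ) (_ : IsPrimitiveRoot ξ p) (f : FFc (L1 M) Lc),
        qExpand Lc p ((normAlong β (α f) : FFc (L1 M) Lc) : LaurentSeries Lc) =
          (∏ b ∈ Finset.range p, twistU (ξ ^ b) (f : LaurentSeries Lc)) *
            qExpand Lc (p ^ 2) ((dia f : FFc (L1 M) Lc) : LaurentSeries Lc)) :=
  kron_beta_L1 M α β hα hβ hp hpM (analyticGens1 M Lc ι ζ hζ) hL'
    (stableUnder_analyticGens1 M hζ) hfin hn

end Kron

end Fermat.Agent.DS.G.ES.KRON.ConjStable90
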