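/-
Programme DS (S48), chapter G-ESRED, brick KRON-C (bricks row 258), helper90.

**The final plug of KRON-C for the pair `(L1 M, up (L1 M) p)`** (`DS/X1/Level1`, `DS/G/HECKE/UpLevel`)
with the degeneracy embeddings `alphaG`, `betaG` of `DS/G/HECKE/Iface`, in the shape consumed by
helper3's `KronInputOf.kronInput` (`HasW' p α β dia'` + `f₀ := j`):

* `algHom_ext_genc` : two `Lc`-algebra homs out of `FFc L Lc` which agree on the generators are equal
  (to identify the `dia'` below with H07's `Diamond.dia A γ hs`);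
* `dia_unique` : `dia'` is determined by the `q`-expansions of its values on the generators;
* `exists_hasW'_of_level` / `exists_hasW'_L1` : `∃ γ ∈ Γ₀(M), γ₀₀ ≡ p`, `∃ dia'` (`dia' g` = expansion of
  `g ∘ γ`), `dia' j = j`, `(dia' j).coeff (-1) ≠ 0`, `HasW' p α β dia'`;
* `exists_hasW'_up` : the same for `L' = up (L1 M) p`, `α = alphaG Lc P`, `β = betaG Lc P`,
  `P = heckePair_up (L1 M) p`: NO hypothesis left except `p ∤ M`.
-/
import Mathlib
import Fermat.Agent.DS.G.HECKE.UpLevel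
import Fermat.Agent.DS.G.ES.KRON.ConjStable90

set_option autoImplicit false
set_option linter.unusedSectionVars false

open ModularCurve UpperHalfPlane IntermediateField AlgebraicCurve Polynomial
open scoped MatrixGroups

noncomputable section

namespace Fermat.Agent.DS.G.ES.KRON.ConjPlug90

open Fermat.Agent.X0 Fermat.Agent.X0.Analytic
open Fermat.Agent.DS.G.Level
open Fermat.Agent.DS.X1.Level1 Fermat.Agent.DS.X1.AnalyticGens13
open Fermat.Agent.DS.G.ES.KRON.Transport90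
open Fermat.Agent.DS.G.ES.KRON.Conjugates11
open Fermat.Agent.DS.G.ES.KRON.ConjEmb90
open Fermat.Agent.DS.G.ES.KRON.ConjLevel90
open Fermat.Agent.DS.G.ES.KRON.ConjTop90
open Fermat.Agent.DS.G.ES.KRON.ConjStable90

/-! ### Uniqueness of homs on the generators -/

section Ext

variable {L : LevelData} {Lc : Type} [Field Lc] [Algebra ℚ Lc]

/-- Two `Lc`-algebra homs out of `FFc L Lc` which agree on the generators are equal. -/
theorem algHom_ext_genc {E : Type*} [Field E] [Algebra Lc E] (φ ψ : FFc L Lc →ₐ[Lc] E)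
    (h : ∀ g : L.gensQ, φ (genc L Lc g) = ψ (genc L Lc g)) : φ = ψ := by
  refine IntermediateField.algHom_ext_of_eq_adjoin Lc (FFc_eq_adjoin L Lc) ?_
  rintro x ⟨g, hg, rfl⟩
  exact h ⟨g, hg⟩

variable {ι : Lc →+* ℂ}

/-- The diamond hom is determined by the `q`-expansions of its values on the generators. -/
theorem dia_unique (AG : AnalyticGens L Lc ι) (γ : SL(2, ℤ))
    (d₁ d₂ : FFc L Lc →ₐ[Lc] FFc L Lc)
    (h₁ : ∀ g : L.gensQ, HasQExp (coeffMap ι ((d₁ (genc L Lc g) : FFc L Lc) : LaurentSeries Lc))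
      (compSL (AG.gFun g) γ))
    (h₂ : ∀ g : L.gensQ, HasQExp (coeffMap ι ((d₂ (genc L Lc g) : FFc L Lc) : LaurentSeries Lc))
      (compSL (AG.gFun g) γ)) : d₁ = d₂ := by
  refine algHom_ext_genc d₁ d₂ fun g => ?_
  apply Subtype.ext
  exact Transport90.coeffMap_injective ι ((h₁ g).unique_left (h₂ g))

end Ext

/-! ### The `HasW'` form for `±Γ₁(M)` -/

section LOne

variable (M : ℕ) [NeZero M] {p : ℕ} [NeZero p]
variable {L' : LevelData} {Lc : Type} [Field Lc] [Algebra ℚ Lc] {ι : Lc →+* ℂ} {ζ : Lc}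
  (hζ : ι ζ = Fermat.Agent.X0.QExpAffine.zetaC M)
variable (α β : FFc (L1 M) Lc →ₐ[Lc] FFc L' Lc)
variable (hα : ∀ x : FFc (L1 M) Lc,
    ((α x : FFc L' Lc) : LaurentSeries Lc) = (x : LaurentSeries Lc))
  (hβ : ∀ x : FFc (L1 M) Lc,
    ((β x : FFc L' Lc) : LaurentSeries Lc) = qExpand Lc p (x : LaurentSeries Lc))

include hα hβ hζ in
/-- **(W') for `±Γ₁(M)`**: the matrix `γ ∈ Γ₀(M)`, `γ₀₀ ≡ p`, the diamond hom `dia'` of `γ`, and the
Atkin–Lehner relation `HasW' p α β dia'`, in the shape consumed by `KronInputOf.kronInput`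
(with `f₀ := jFc`). -/
theorem exists_hasW'_L1 (hp : p.Prime) (hpM : ¬ p ∣ M)
    (hL' : L'.F₀ ≤
      IntermediateField.adjoin ℚ ((L1 M).gensQ ∪ (qExpand ℚ p) '' (L1 M).gensQ)) :
    ∃ γ ∈ CongruenceSubgroup.Gamma0 M, ((γ 0 0 : ℤ) : ZMod M) = (p : ZMod M) ∧
    ∃ dia' : FFc (L1 M) Lc →ₐ[Lc] FFc (L1 M) Lc,
      (∀ g : (L1 M).gensQ,
        HasQExp (coeffMap ι ((dia' (genc (L1 M) Lc g) : FFc (L1 M) Lc) : LaurentSeries Lc))
          (compSL (gFun M g) γ)) ∧ dia' (jFc (L1 M) Lc) = jFc (L1 M) Lc ∧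
      ((dia' (jFc (L1 M) Lc) : FFc (L1 M) Lc) : LaurentSeries Lc).coeff (-1) ≠ 0 ∧
      HasW' p α β (dia' : FFc (L1 M) Lc →+* FFc (L1 M) Lc) := by
  have hcop : Nat.Coprime p M := (Nat.Prime.coprime_iff_not_dvd hp).mpr hpM
  obtain ⟨σ, γ, hσγ, hσ, hγ, hγ00⟩ := exists_matRel' M p hcop
  have hσ' : σ ∈ (L1 M).Gam := Gamma1_le_Gamma1pm M hσ
  obtain ⟨dia', h1, h2, h3⟩ := exists_dia_hasW' α β hα hβ (analyticGens1 M Lc ι ζ hζ) hL' hσγ hσ'
    (stableUnder_analyticGens1 M hζ γ hγ)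
  refine ⟨γ, hγ, hγ00, dia', h1, h2, ?_, h3⟩
  rw [h2]
  exact coeff_jFc_neg_one

end LOne

/-! ### The pair `(L1 M, up (L1 M) p)` -/

section Up

open Fermat.Agent.DS.G.HECKE.Iface Fermat.Agent.DS.G.HECKE.UpLevel

variable (M : ℕ) [NeZero M] {p : ℕ} [hp : Fact p.Prime]
variable {Lc : Type} [Field Lc] [Algebra ℚ Lc] {ι : Lc →+* ℂ} {ζ : Lc}
  (hζ : ι ζ = Fermat.Agent.X0.QExpAffine.zetaC M)

include hζ in
/-- **KRON-C plug for `(±Γ₁(M), ±Γ₁(M) ∩ Γ₀(p))`** with the degeneracy embeddings of the Hecke pair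
`heckePair_up (L1 M) p`. -/
theorem exists_hasW'_up (hpM : ¬ p ∣ M) :
    haveI : NeZero p := ⟨hp.out.ne_zero⟩
    ∃ γ ∈ CongruenceSubgroup.Gamma0 M, ((γ 0 0 : ℤ) : ZMod M) = (p : ZMod M) ∧
    ∃ dia' : Level.FFc (L1 M) Lc →ₐ[Lc] Level.FFc (L1 M) Lc,
      (∀ g : (L1 M).gensQ,
        HasQExp (coeffMap ι ((dia' (genc (L1 M) Lc g) : Level.FFc (L1 M) Lc) : LaurentSeries Lc))
          (compSL (gFun M g) γ)) ∧ dia' (jFc (L1 M) Lc) = jFc (L1 M) Lc ∧
      ((dia' (jFc (L1 M) Lc) : Level.FFc (L1 M) Lc) : LaurentSeries Lc).coeff (-1) ≠ 0 ∧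
      HasW' p (alphaG Lc (heckePair_up (L1 M) (p := p))) (betaG Lc (heckePair_up (L1 M) (p := p)))
        (dia' : Level.FFc (L1 M) Lc →+* Level.FFc (L1 M) Lc) := by
  have : NeZero p := ⟨hp.out.ne_zero⟩
  exact exists_hasW'_L1 M hζ (L' := up (L1 M) p)
    (alphaG Lc (heckePair_up (L1 M) (p := p))) (betaG Lc (heckePair_up (L1 M) (p := p)))
    (fun x => coe_alphaG Lc _ x) (fun x => coe_betaG Lc _ x) hp.out hpM le_rfl

end Up

end Fermat.Agent.DS.G.ES.KRON.ConjPlug90
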