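/-
Programme DS (S48), chapter G-ESRED, brick KRON-C (bricks row 258), helper90.

**The KRON-C plug `ConjPlug90.exists_hasW'_up` at `Lc = ℚbar`, `ι = iotaK`, with the abstract hom
`dia'` replaced by the H07 diamond automorphism `Diamond.dia (A1 M) γ (acts1 M hγ)`** (helper34's
identification `DiaIdent.dia_eq_of_hasQExp`).  Requested by helper57 for plug (P3) `hK` of
`DS/G/Top/LocalInst` (file `DS/G/Top/KronInst.lean`).

* `exists_hasW'_up_dia M hpM : ∃ γ, ∃ hγ : γ ∈ Γ₀(M), γ₀₀ ≡ p (mod M) ∧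
    HasW' p (alphaG Kbar P) (betaG Kbar P) (dia (A1 M) γ (acts1 M hγ)) ∧
    (dia (A1 M) γ _ (jFc (L1 M) Kbar)).coeff (-1) ≠ 0`, `P = heckePair_up (L1 M) p`.
-/
import Mathlib
import Fermat.Agent.DS.G.ES.KRON.ConjPlug90
import Fermat.Agent.DS.G.HECKE.DiaIdent
import Fermat.Agent.DS.G.HECKE.Top

set_option autoImplicit false
set_option linter.unusedSectionVars false

open ModularCurve UpperHalfPlane IntermediateField AlgebraicCurve Polynomial
open scoped MatrixGroups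

noncomputable section

namespace Fermat.Agent.DS.G.ES.KRON.ConjDia90

open Fermat.Agent.X0 Fermat.Agent.X0.Analytic Fermat.Agent.X0.SurjPoint Fermat.Agent.ES.KUM
open Fermat.Agent.DS.G.Level
open Fermat.Agent.DS.X1.Level1 Fermat.Agent.DS.X1.AnalyticGens13 Fermat.Agent.DS.X1.Inst13
open Fermat.Agent.DS.X1.Diamond13
open Fermat.Agent.DS.G.ES.KRON.Transport90
open Fermat.Agent.DS.G.ES.KRON.Conjugates11
open Fermat.Agent.DS.G.ES.KRON.ConjPlug90
open Fermat.Agent.DS.G.HECKE.Iface Fermat.Agent.DS.G.HECKE.UpLevel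
open Fermat.Agent.DS.G.HECKE.Diamond Fermat.Agent.DS.G.HECKE.DiaIdent
open Fermat.Agent.DS.G.HECKE.Top

variable (M : ℕ) [NeZero M] {p : ℕ} [hp : Fact p.Prime]

/-- **KRON-C plug with the H07 diamond**: there is `γ ∈ Γ₀(M)` with upper-left entry `≡ p` such that
the Atkin–Lehner relation `HasW' p α β (dia γ)` holds for the degeneracy embeddings of the Hecke pair
`heckePair_up (L1 M) p` over `ℚbar`, where `dia γ = Diamond.dia (A1 M) γ (acts1 M hγ)`. -/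
theorem exists_hasW'_up_dia (hpM : ¬ p ∣ M) :
    haveI : NeZero p := ⟨hp.out.ne_zero⟩
    ∃ γ : SL(2, ℤ), ∃ hγ : γ ∈ CongruenceSubgroup.Gamma0 M,
      ((γ 0 0 : ℤ) : ZMod M) = (p : ZMod M) ∧
      HasW' p (alphaG Kbar (heckePair_up (L1 M) (p := p)))
        (betaG Kbar (heckePair_up (L1 M) (p := p)))
        (((dia (A1 M) γ (acts1 M hγ) : FFK (L1 M).F₀ ≃ₐ[Kbar] FFK (L1 M).F₀) :
          FFK (L1 M).F₀ →ₐ[Kbar] FFK (L1 M).F₀) : FFK (L1 M).F₀ →+* FFK (L1 M).F₀) ∧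
      (((dia (A1 M) γ (acts1 M hγ)) (jFc (L1 M) Kbar) : FFK (L1 M).F₀) :
        LaurentSeries Kbar).coeff (-1) ≠ 0 := by
  have : NeZero p := ⟨hp.out.ne_zero⟩
  obtain ⟨γ, hγ, hγ00, dia', h1, h2, h3, h4⟩ :=
    exists_hasW'_up M (Lc := Kbar) (ι := iotaK) (ζ := zetaK1 M) (iotaK_zetaK1 M) (p := p) hpM
  have hperm : ∀ g : (L1 M).gensQ, ∃ g' : (L1 M).gensQ,
      compSL ((analyticGensK M).gFun g) γ = (analyticGensK M).gFun g' :=
    fun g => exists_perm_of_analyticGens M (analyticGensK M) hγ g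
  have hd : ((dia (A1 M) γ (acts1 M hγ) : FFK (L1 M).F₀ ≃ₐ[Kbar] FFK (L1 M).F₀) :
      FFK (L1 M).F₀ →ₐ[Kbar] FFK (L1 M).F₀) = dia' :=
    dia_eq_of_hasQExp (A1 M) (analyticGensK M) (acts1 M hγ) hperm dia' h1
  refine ⟨γ, hγ, hγ00, ?_, ?_⟩
  · rw [hd]; exact h4
  · have : (dia (A1 M) γ (acts1 M hγ)) (jFc (L1 M) Kbar) = dia' (jFc (L1 M) Kbar) :=
      DFunLike.congr_fun hd _
    rw [this]; exact h3

end Fermat.Agent.DS.G.ES.KRON.ConjDia90
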