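/-
DS programme (S48), chapter G-ESRED, brick KRON-D (abstract core, helper3): the Kronecker identity
(3) of (ES-div) and the `EsDivAbs24.Setup` of `r_* ∘ T`, ABSTRACTLY.

This is `ES/KRON/KronMain24` (helper24) with every concrete object replaced by its abstract
interface, so that it applies to any level structure (Γ₀, Γ₁, …) and does not depend on how the
Kronecker congruence or the reduction of places are obtained:

* `K`, `F`, `F'` : the characteristic-zero function fields (level `M`, level `M ℓ`), with the two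
  degeneracy maps `α β : F →ₐ[K] F'`; `T := Divisor.correspondence β α = α_* β^*`;
* `k`, `Fk` : the reduced function field; `r : Place K F → Place k Fk` the reduction of places;
* `Red f g` : "`f ∈ F` has an integral `q`-expansion with non-zero reduction `g ∈ Fk`";
* `Fr W : Place k Fk ≃ Place k Fk` : the Frobenius and the (diamond-twisted) Verschiebung on points.

`KronInput` bundles the three facts the concrete chapter has to deliver:
 (R2)   `Red f g → r_* (div f) = div g`;
 (KRON) `Red f g → Red (N_α (β f)) (g₁ * g₂ ^ ℓ)` with `ord_Q g₁ = ord_{Fr⁻¹ Q} g`,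
        `ord_Q g₂ = ord_{W⁻¹ Q} g`   (`g₁ = g^φ`, `g₂ = (⟨ℓ⟩ g)^{φ⁻¹}`: the norm version of the
        Kronecker congruence `Ψ_f ≡ (Y^ℓ - f̃^φ)(Y - ((⟨ℓ⟩f̃)^{φ⁻¹})^ℓ)`, i.e. `KRON-C` +
        `KronNorm10.norm_descent` + `FrobPlace13.ord_frobPlace`).

Output: `setup : Setup r Fr W ℓ (r_* ∘ T) princ` and `es_div_of_charts`:
`r_* (T D) = Fr_* (r_* D) + ℓ • W_* (r_* D)` given a cover by `EsDivAbs24.Chart`s.
-/
import Mathlib
import Fermat.Agent.ES.HECKE.PointFormula28
import Fermat.Agent.DS.G.ES.KRON.EsDivAbs24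
import Fermat.Agent.X0.FFDict

set_option autoImplicit false
set_option linter.unusedSectionVars false

open AlgebraicCurve

noncomputable section

namespace Fermat.Agent.DS.G.ES.KRON.KronMainAbs

open Fermat.Agent.ES.HECKE.PointFormula28
open Fermat.Agent.DS.G.ES.KRON.EsDivAbs24

variable {K F F' : Type*} [Field K] [Field F] [Field F'] [Algebra K F] [Algebra K F']
variable {k Fk : Type*} [Field k] [Field Fk] [Algebra k Fk]

/-- **The abstract Kronecker input.**  TWO predicates: `Red` (the class of pairs used by the charts,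
e.g. elements of the chart rings with their reductions; it has to be stable under the diamond) and
`Red'` (the class for which (R2) holds, e.g. ALL functions with integral `q`-expansion and non-zero
reduction).  Literal integrality of the `q`-expansion at `∞` is NOT stable under the diamond
(helper92's remark), which is why `Red` may have to be smaller than `Red'`. -/
structure KronInput (α β : F →ₐ[K] F') (r : Place K F → Place k Fk)
    (Fr W : Place k Fk ≃ Place k Fk) (ℓ : ℕ) (Red Red' : F → Fk → Prop) : Prop where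
  /-- `Red ⊆ Red'` -/
  sub : ∀ f g, Red f g → Red' f g
  /-- integral functions with non-zero reduction are non-zero -/
  ne_zero : ∀ f g, Red' f g → f ≠ 0
  /-- … and so is their reduction -/
  ne_zero' : ∀ f g, Red' f g → g ≠ 0
  /-- (R2): the reduction of `div f` is `div f~` -/
  red : ∀ f g, Red' f g → ∀ D : Divisor K F, (∀ P, D P = P.ord f) →
    ∀ Q, Finsupp.mapDomain r D Q = Q.ord g
  /-- (KRON), norm form -/
  norm : ∀ f g, Red f g → ∃ g₁ g₂ : Fk, Red' (normAlong α (β f)) (g₁ * g₂ ^ ℓ) ∧
    (∀ Q : Place k Fk, Q.ord g₁ = (Fr.symm Q).ord g) ∧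
    (∀ Q : Place k Fk, Q.ord g₂ = (W.symm Q).ord g)

/-- `princ D D'`: `D = div f`, `D' = div f~` for an integral `f` with non-zero reduction. -/
def princ (Red : F → Fk → Prop) (D : Divisor K F) (D' : Divisor k Fk) : Prop :=
  ∃ (f : F) (g : Fk), Red f g ∧ (∀ P, D P = P.ord f) ∧ ∀ Q, D' Q = Q.ord g

theorem princ_of {Red : F → Fk → Prop} {f : F} {g : Fk} (h : Red f g)
    (D : Divisor K F) (D' : Divisor k Fk) (hD : ∀ P, D P = P.ord f) (hD' : ∀ Q, D' Q = Q.ord g) :
    princ Red D D' := ⟨f, g, h, hD, hD'⟩

section Main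

variable [HasPrincipalDivisors K F']
variable {α β : F →ₐ[K] F'} (hα : α.toRingHom.IsIntegral) (hβ : β.toRingHom.IsIntegral)
variable {r : Place K F → Place k Fk} {Fr W : Place k Fk ≃ Place k Fk} {ℓ : ℕ}
  {Red Red' : F → Fk → Prop}

/-- **The Kronecker identity (3), abstract form**:
`r_* (T (div f)) = Fr_* (div f~) + ℓ · W_* (div f~)`, coefficientwise. -/
theorem map_hecke_principal (I : KronInput α β r Fr W ℓ Red Red')
    (hfin : FiniteAlong K α) (hN : NormFormulaAlong K α hfin)
    {f : F} {g : Fk} (hfg : Red f g) (D : Divisor K F) (hD : ∀ P, D P = P.ord f)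
    (Q : Place k Fk) :
    Finsupp.mapDomain r (Divisor.correspondence β α hβ hα D) Q =
      (Fr.symm Q).ord g + (ℓ : ℤ) * (W.symm Q).ord g := by
  obtain ⟨g₁, g₂, hR, h1, h2⟩ := I.norm f g hfg
  have hTD : ∀ v, Divisor.correspondence β α hβ hα D v = v.ord (normAlong α (β f)) := fun v =>
    correspondence_eq_ord_norm β α hβ hα hfin hN (I.ne_zero f g (I.sub f g hfg)) hD v
  have hprod0 : g₁ * g₂ ^ ℓ ≠ 0 := I.ne_zero' _ _ hR
  rw [I.red _ _ hR _ hTD Q, Place.ord_mul _ (left_ne_zero_of_mul hprod0)
    (right_ne_zero_of_mul hprod0), Fermat.Agent.X0.FF.ord_pow, h1, h2]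

/-- `L = r_* ∘ T`. -/
def redHecke (r : Place K F → Place k Fk) : Divisor K F →+ Divisor k Fk :=
  (Finsupp.mapDomain.addMonoidHom r).comp (Divisor.correspondence β α hβ hα)

theorem redHecke_apply (r : Place K F → Place k Fk) (D : Divisor K F) :
    redHecke hα hβ r D = Finsupp.mapDomain r (Divisor.correspondence β α hβ hα D) := rfl

/-- `mapDomain` preserves pointwise non-negativity. -/
theorem mapDomain_nonneg {P Q : Type*} (r : P → Q) (D : P →₀ ℤ) (hD : ∀ p, 0 ≤ D p) (y : Q) :
    0 ≤ Finsupp.mapDomain r D y := by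
  classical
  rw [mapDomain_apply_sum]
  refine Finset.sum_nonneg fun p _ => ?_
  split_ifs
  · exact hD p
  · exact le_rfl

/-- `mapDomain` preserves the coefficient sum. -/
theorem sum_mapDomain {P Q : Type*} (r : P → Q) (D : P →₀ ℤ) :
    (Finsupp.mapDomain r D).sum (fun _ n => n) = D.sum (fun _ n => n) :=
  Finsupp.sum_mapDomain_index (fun _ => rfl) (fun _ _ _ => rfl)

/-- When all places have degree one, the degree is the coefficient sum. -/
theorem degree_eq_sum {K F : Type*} [Field K] [Field F] [Algebra K F]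
    (hdeg : ∀ v : Place K F, v.deg = 1) (D : Divisor K F) :
    Divisor.degree D = D.sum (fun _ n => n) := by
  induction D using Finsupp.induction_linear with
  | zero => simp
  | add D₁ D₂ h₁ h₂ =>
    rw [map_add, h₁, h₂, Finsupp.sum_add_index' (fun _ => rfl) (fun _ _ _ => rfl)]
  | single v n =>
    rw [Divisor.degree_single, hdeg, Nat.cast_one, mul_one, Finsupp.sum_single_index rfl]

/-- **The global hypotheses of the abstract (ES-div)** for `r_* ∘ T`. -/
theorem setup (I : KronInput α β r Fr W ℓ Red Red')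
    (hFI : FundamentalIdentityAlong K β hβ) (hrank : finrankAlong K β = ℓ + 1)
    (hfin : FiniteAlong K α) (hN : NormFormulaAlong K α hfin)
    (hdeg : ∀ P : Place K F, P.deg = 1) :
    Setup r Fr W ℓ (redHecke hα hβ r) (princ Red) where
  pos := by
    classical
    intro p y
    show 0 ≤ Finsupp.mapDomain r (Divisor.correspondence β α hβ hα (Finsupp.single p 1)) y
    refine mapDomain_nonneg r _ (fun v => ?_) y
    rw [correspondence_single, Finsupp.finsetSum_apply]
    refine Finset.sum_nonneg fun w _ => ?_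
    rw [Finsupp.single_apply]
    split_ifs
    · positivity
    · exact le_rfl
  deg := by
    intro p
    show (Finsupp.mapDomain r (Divisor.correspondence β α hβ hα (Finsupp.single p 1))).sum
      (fun _ n => n) = _
    rw [sum_mapDomain, ← degree_eq_sum hdeg, degree_correspondence_single _ _ hβ hα hFI, hrank,
      hdeg]
    push_cast
    ring
  red := by
    rintro D D' ⟨f, g, hfg, hD, hD'⟩
    ext Q
    rw [hD' Q]
    exact I.red f g (I.sub f g hfg) D hD Q
  kron := by
    rintro D D' ⟨f, g, hfg, hD, hD'⟩ Q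
    rw [hD', hD']
    exact map_hecke_principal hα hβ I hfin hN hfg D hD Q

/-- **(ES-div), abstract form modulo the chart data**:
`r_* (T D) = Fr_* (r_* D) + ℓ · W_* (r_* D)`. -/
theorem es_div_of_charts (I : KronInput α β r Fr W ℓ Red Red')
    (hFI : FundamentalIdentityAlong K β hβ) (hrank : finrankAlong K β = ℓ + 1)
    (hfin : FiniteAlong K α) (hN : NormFormulaAlong K α hfin)
    (hdeg : ∀ P : Place K F, P.deg = 1)
    {ι : Type*} {C : ι → Set (Place K F)} {Dinf : ι → Divisor K F} {Dinf' : ι → Divisor k Fk}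
    (hC : ∀ i, Chart r Fr W (princ Red) (C i) (Dinf i) (Dinf' i))
    (hcov : ∀ P, ∃ i, P ∈ C i) (D : Divisor K F) :
    Finsupp.mapDomain r (Divisor.correspondence β α hβ hα D) =
      Finsupp.mapDomain Fr (Finsupp.mapDomain r D) +
        (ℓ : ℤ) • Finsupp.mapDomain W (Finsupp.mapDomain r D) :=
  es_div_all (setup hα hβ I hFI hrank hfin hN hdeg) hC hcov D

end Main

end Fermat.Agent.DS.G.ES.KRON.KronMainAbs
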