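/-
Programme DS (S48), chapter G-ESRED, brick KRON-B (helper20): twin of `ES/KRON/KronCong24` with TWO
series.  In the `Γ₁(M)` application the last conjugate of `y(q)` over the field of series in `q^l` is
`y'(q^{l²})` with `y' = ⟨l⟩ y` (diamond operator) instead of `y(q^{l²})`:

`kronProd l ζ y y' = ∏_{b < l} (Y - y(ζ^b q)) * (Y - y'(q^{l²}))`.

Modulo `res : R → k` (characteristic `l`):
`kronProd l ζ y y' ≡ (Y^l - (ȳ^φ)(q^l)) * (Y - ((ȳ'^{φ⁻¹})(q^l))^l)` (`kronProd_map_res`), and the
descent statement `kron_descent`.  The series-independent lemmas (`twistU`, `pow_char`,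
`qExpand_sq_eq_pow`, `mem_range_qExpand_of_coeffMap`, ...) are cited from the original file.
Same theorem names as the original; `kronProd l ζ y y` is the original `kronProd l ζ y`
(`kronProd_self`).
-/
import Mathlib
import Fermat.Agent.ES.KRON.KronCong24

set_option autoImplicit false

open HahnSeries Polynomial ModularCurve

noncomputable section

namespace Fermat.Agent.DS.G.ES.KRON.KronCong24

open Fermat.Agent.ES.KRON.KronCong24 (twistU twistU_one coeffMap_twistU pow_char
  qExpand_sq_eq_pow mem_range_qExpand_of_coeffMap map_qExpand_injective eq_one_of_pow_char_eq_one)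

section Kron

variable {R : Type*} [CommRing R]

/-- `∏_{b < l} (Y - y(ζ^b q)) * (Y - y'(q^{l²}))`. -/
def kronProd (l : ℕ) [NeZero l] (ζ : Rˣ) (y y' : LaurentSeries R) :
    Polynomial (LaurentSeries R) :=
  (∏ b ∈ Finset.range l, (X - Polynomial.C (twistU (ζ ^ b) y))) *
    (X - Polynomial.C (qExpand R (l ^ 2) y'))

/-- for `y' = y` this is the one-series product of `ES/KRON/KronCong24` -/
theorem kronProd_self (l : ℕ) [NeZero l] (ζ : Rˣ) (y : LaurentSeries R) :
    kronProd l ζ y y = Fermat.Agent.ES.KRON.KronCong24.kronProd l ζ y := rfl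

theorem kronProd_monic (l : ℕ) [NeZero l] (ζ : Rˣ) (y y' : LaurentSeries R) [Nontrivial R] :
    (kronProd l ζ y y').Monic :=
  (monic_prod_of_monic _ _ fun _ _ => monic_X_sub_C _).mul (monic_X_sub_C _)

theorem kronProd_natDegree (l : ℕ) [NeZero l] (ζ : Rˣ) (y y' : LaurentSeries R) [Nontrivial R] :
    (kronProd l ζ y y').natDegree = l + 1 := by
  rw [kronProd, Monic.natDegree_mul (monic_prod_of_monic _ _ fun b _ => monic_X_sub_C _)
    (monic_X_sub_C _), natDegree_X_sub_C, natDegree_prod_of_monic _ _ fun b _ => monic_X_sub_C _]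
  simp

theorem kronProd_map {S : Type*} [CommRing S] (φ : R →+* S) (l : ℕ) [NeZero l] (ζ : Rˣ)
    (y y' : LaurentSeries R) :
    (kronProd l ζ y y').map (coeffMap φ) =
      kronProd l (Units.map (φ : R →* S) ζ) (coeffMap φ y) (coeffMap φ y') := by
  rw [kronProd, kronProd, Polynomial.map_mul, Polynomial.map_prod]
  congr 1
  · refine Finset.prod_congr rfl fun b _ => ?_
    rw [Polynomial.map_sub, Polynomial.map_X, Polynomial.map_C, coeffMap_twistU, map_pow]
  · rw [Polynomial.map_sub, Polynomial.map_X, Polynomial.map_C, coeffMap_qExpand]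

variable {k : Type*} [Field k] (l : ℕ) [hl : Fact l.Prime] [CharP k l]

/-- `kronProd` over a field of characteristic `l` (where `ζ = 1`). -/
theorem kronProd_char (ψ : k →+* k) (hψ : ∀ a, ψ a ^ l = a) (ζ : kˣ) (hζ : ζ ^ l = 1)
    (x x' : LaurentSeries k) :
    kronProd l ζ x x' = ((X ^ l - Polynomial.C (coeffMap (frobenius k l) x)) *
      (X - Polynomial.C ((coeffMap ψ x') ^ l))).map (qExpand k l) := by
  have hζ1 : ζ = 1 := by
    apply Units.ext
    apply eq_one_of_pow_char_eq_one l
    rw [← Units.val_pow_eq_pow_val, hζ, Units.val_one]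
  subst hζ1
  rw [kronProd, Polynomial.map_mul, Polynomial.map_sub, Polynomial.map_sub, Polynomial.map_pow,
    Polynomial.map_X, Polynomial.map_C, Polynomial.map_C, map_pow, ← qExpand_sq_eq_pow l ψ hψ,
    ← pow_char]
  congr 1
  simp only [one_pow, twistU_one, Finset.prod_const, Finset.card_range]
  rw [sub_pow_char, ← Polynomial.C_pow]

/-- **(K1), two series.**  Modulo `res : R → k` (characteristic `l`),
`∏_b (Y - y(ζ^b q)) * (Y - y'(q^{l²})) ≡ (Y^l - (ȳ^φ)(q^l)) * (Y - ((ȳ'^{φ⁻¹})(q^l))^l)`. -/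
theorem kronProd_map_res (res : R →+* k) (ψ : k →+* k) (hψ : ∀ a, ψ a ^ l = a)
    (ζ : Rˣ) (hζ : ζ ^ l = 1) (y y' : LaurentSeries R) :
    (kronProd l ζ y y').map (coeffMap res) =
      ((X ^ l - Polynomial.C (coeffMap (frobenius k l) (coeffMap res y))) *
        (X - Polynomial.C ((coeffMap ψ (coeffMap res y')) ^ l))).map (qExpand k l) := by
  rw [kronProd_map]
  exact kronProd_char l ψ hψ _ (by rw [← map_pow, hζ, map_one]) _ _

/-- **(K1′), two series.**  Descent and reduction of `Ψ`: if `kronProd l ζ y y'` (after the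
injective coefficient extension `ι`) equals `Ψ(q^l)`, then `Ψ` has coefficients in `R((q))`,
`Ψ_R(q^l) = kronProd l ζ y y'`, and `Ψ_R` reduces modulo `res` to
`(Y^l - ȳ^φ) * (Y - (ȳ'^{φ⁻¹})^l)`. -/
theorem kron_descent {K : Type*} [CommRing K] (ι : R →+* K) (hι : Function.Injective ι)
    (res : R →+* k) (ψ : k →+* k) (hψ : ∀ a, ψ a ^ l = a)
    (ζ : Rˣ) (hζ : ζ ^ l = 1) (y y' : LaurentSeries R) (Ψ : Polynomial (LaurentSeries K))
    (hΨ : Ψ.map (qExpand K l) = (kronProd l ζ y y').map (coeffMap ι)) :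
    ∃ ΨR : Polynomial (LaurentSeries R),
      ΨR.map (qExpand R l) = kronProd l ζ y y' ∧
      ΨR.map (coeffMap ι) = Ψ ∧
      ΨR.map (coeffMap res) =
        (X ^ l - Polynomial.C (coeffMap (frobenius k l) (coeffMap res y))) *
          (X - Polynomial.C ((coeffMap ψ (coeffMap res y')) ^ l)) := by
  have hlift : kronProd l ζ y y' ∈ Polynomial.lifts (qExpand R l) := by
    rw [Polynomial.lifts_iff_coeff_lifts]
    intro n
    have h := congrArg (fun P => P.coeff n) hΨ
    simp only [Polynomial.coeff_map] at h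
    obtain ⟨z, hz⟩ := mem_range_qExpand_of_coeffMap ι hι l _ _ h.symm
    exact ⟨z, hz⟩
  obtain ⟨ΨR, hΨR⟩ := (Polynomial.mem_lifts _).mp hlift
  refine ⟨ΨR, hΨR, ?_, ?_⟩
  · apply map_qExpand_injective l
    rw [hΨ, ← hΨR, Polynomial.map_map, Polynomial.map_map]
    congr 1
    ext x : 1
    exact (coeffMap_qExpand ι l x).symm
  · apply map_qExpand_injective l
    rw [← kronProd_map_res l res ψ hψ ζ hζ y y', ← hΨR, Polynomial.map_map, Polynomial.map_map]
    congr 1
    ext x : 1
    exact (coeffMap_qExpand res l x).symm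

end Kron

end Fermat.Agent.DS.G.ES.KRON.KronCong24
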