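/-
Programme DS (S48), chapter G-ESRED, brick KRON-B (helper20): twin of `ES/KRON/KronInst10.kron_inst`
for the two-series Kronecker product `KronCong24.kronProd l ζ y y'` (twin).  The generic lemmas
(`isAlgClosed_residueField`, `charP_residueField`, `unitOfPowEqOne`, `exists_frobInv`, ...) are
cited from the original `Fermat.Agent.ES.KRON.KronInst10`.
-/
import Mathlib
import Fermat.Agent.ES.KRON.KronInst10
import Fermat.Agent.DS.G.ES.KRON.KronCong24

set_option autoImplicit false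
set_option linter.style.haveILetI false

open HahnSeries Polynomial ModularCurve

noncomputable section

namespace Fermat.Agent.DS.G.ES.KRON.KronInst10

open Fermat.Agent.ES.KRON.KronInst10 Fermat.Agent.DS.G.ES.KRON.KronCong24

variable {L : Type*} [Field L] [IsAlgClosed L] (A : ValuationSubring L) (ℓ : ℕ) [Fact ℓ.Prime]

/-- **(K1-inst), two series.**  The Kronecker congruence at a valuation subring `A` (over `ℓ`) of
an algebraically closed field `L`: if `Ψ(q^ℓ) = ∏_b (Y - f(ζ^b q)) · (Y - f'(q^{ℓ²}))` over `L((q))`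
for series `f, f'` with coefficients in `A`, then `Ψ` has coefficients in `A((q))` and reduces to
`(Y^ℓ - f̃^φ) (Y - (f̃'^{φ⁻¹})^ℓ)` over the residue field. -/
theorem kron_inst (hA : A.LiesOverPrime ℓ) (ζ : Lˣ) (hζ : ζ ^ ℓ = 1) :
    haveI := charP_residueField A (Fact.out : ℓ.Prime) hA
    haveI : NeZero ℓ := ⟨(Fact.out : ℓ.Prime).ne_zero⟩
    ∃ ψ : IsLocalRing.ResidueField A →+* IsLocalRing.ResidueField A,
      (∀ a, ψ a ^ ℓ = a) ∧ (∀ a, ψ (a ^ ℓ) = a) ∧
      ∀ (y y' : LaurentSeries ↥A) (Ψ : Polynomial (LaurentSeries L)),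
        Ψ.map (qExpand L ℓ) = kronProd ℓ ζ (coeffMap A.subtype y) (coeffMap A.subtype y') →
        ∃ ΨR : Polynomial (LaurentSeries ↥A),
          ΨR.map (coeffMap A.subtype) = Ψ ∧
          ΨR.map (coeffMap (IsLocalRing.residue A)) =
            (X ^ ℓ - Polynomial.C (coeffMap (frobenius (IsLocalRing.ResidueField A) ℓ)
                (coeffMap (IsLocalRing.residue A) y))) *
              (X - Polynomial.C ((coeffMap ψ (coeffMap (IsLocalRing.residue A) y')) ^ ℓ)) := by
  haveI := charP_residueField A (Fact.out : ℓ.Prime) hA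
  haveI := isAlgClosed_residueField A
  haveI : NeZero ℓ := ⟨(Fact.out : ℓ.Prime).ne_zero⟩
  obtain ⟨ψ, hψ1, hψ2⟩ := exists_frobInv (k := IsLocalRing.ResidueField A) ℓ
  refine ⟨ψ, hψ1, hψ2, fun y y' Ψ hΨ => ?_⟩
  have hℓpos : 0 < ℓ := (Fact.out : ℓ.Prime).pos
  have hζL : (ζ : L) ^ ℓ = 1 := by rw [← Units.val_pow_eq_pow_val, hζ, Units.val_one]
  set ζA : (↥A)ˣ := unitOfPowEqOne A hℓpos hζL with hζA
  have hmap : Units.map ((A.subtype : ↥A →+* L) : ↥A →* L) ζA = ζ := Units.ext rfl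
  have hΨ' : Ψ.map (qExpand L ℓ) = (kronProd ℓ ζA y y').map (coeffMap A.subtype) := by
    rw [kronProd_map, hmap]
    exact hΨ
  obtain ⟨ΨR, -, h2, h3⟩ := kron_descent ℓ A.subtype Subtype.val_injective
    (IsLocalRing.residue A) ψ hψ1 ζA (unitOfPowEqOne_pow A hℓpos hζL) y y' Ψ hΨ'
  exact ⟨ΨR, h2, h3⟩

end Fermat.Agent.DS.G.ES.KRON.KronInst10
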