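/-
DS programme (S48), chapter G-ESRED, brick KRON-D (instance layer, part 1; helper3): the abstract
Kronecker input `KronMainAbs.KronInput` for function fields inside Laurent series, from

* KRON-C (helper90, `Conjugates11.qExpand_normAlong_alpha`): the `q`-expansion of `N_α (β f)` is the
  two-series norm product `normProd ℓ ζ (dia' f) f`;
* KRON-B (helper20, `KronNorm10.norm_descent`): integrality and reduction of the norm product;
* the action of semilinear automorphisms on places (`SemilinearAut.ord_smul`);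
* (R2) for the reduction map `r` of places, as a hypothesis in EXACTLY the shape of the second
  component of the Prelude's `IsPlaceReductionAlong` (generic twin: `G/RED/Defs`).

Setting: `L` algebraically closed of characteristic zero, `A` a valuation subring, `π : A →+* k`,
`k` perfect of characteristic `ℓ`; `F F' ⊆ L((q))` with `α = incl`, `β = (q ↦ q^ℓ)` on `q`-expansions;
`Fk ⊆ k((q))` the reduced field, with two semilinear automorphisms:
`φ` = coefficientwise Frobenius, `δ` = reduction of the diamond `dia'`.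

`Red f g` : "`f ∈ F` has an `A`-integral `q`-expansion whose reduction is `g ∈ Fk`, `g ≠ 0`";
`RedD dia' δ f g := Red f g ∧ Red (dia' f) (δ • g)` : the diamond-stable class.  (Literal integrality
of the `q`-expansion at `∞` is NOT preserved by the diamond in general — `f` may have poles on the
generic fibre specialising to the cusp `γ∞` (helper92) — so the Kronecker input is stated for the
pairs `(f, g)` such that `dia' f` is integral too, with reduction `δ • g`; the chart rings consist of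
such functions.)

Result: `kronInput : KronInput α β r (toPerm (φ * δ)) (toPerm φ⁻¹) ℓ (RedD A π dia' δ) (Red A π)`,
i.e. (with
`KronMainAbs.es_div_of_charts` / `EsDivMain24.es_div_main_abs`)
`r_* (α_* β^* D) = (φ δ)_* (r_* D) + ℓ • (φ⁻¹)_* (r_* D)`.
-/
import Mathlib
import Fermat.Prelude.Def_AlgebraicCurve_BaseChangeGalois
import Fermat.Agent.DS.G.ES.KRON.Conjugates11
import Fermat.Agent.DS.G.ES.KRON.KronNorm10
import Fermat.Agent.DS.G.ES.KRON.KronMainAbs

set_option autoImplicit false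
set_option linter.unusedSectionVars false

open ModularCurve AlgebraicCurve HahnSeries IntermediateField

noncomputable section

namespace Fermat.Agent.DS.G.ES.KRON.KronInputOf

open Fermat.Agent.ES.KRON.KronInst10
open Fermat.Agent.DS.G.ES.KRON.KronNorm10
open Fermat.Agent.DS.G.ES.KRON.Conjugates11
open Fermat.Agent.DS.G.ES.KRON.KronMainAbs
open Fermat.Agent.ES.HECKE.PointFormula28

section Red

variable {L : Type*} [Field L] (A : ValuationSubring L) {k : Type*} [Field k] (π : A →+* k)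
variable {F : IntermediateField L (LaurentSeries L)} {Fk : IntermediateField k (LaurentSeries k)}

/-- `f` has an `A`-integral `q`-expansion with non-zero reduction `g`. -/
def Red (f : F) (g : Fk) : Prop :=
  ∃ y : LaurentSeries A, coeffMap A.subtype y = (f : LaurentSeries L) ∧
    coeffMap π y = (g : LaurentSeries k) ∧ g ≠ 0

/-- the diamond-stable class: `f` and `dia' f` have `A`-integral `q`-expansions, with reductions
`g ≠ 0` and `δ • g`. -/
def RedD (dia' : F → F) (δ : SemilinearAut k Fk) (f : F) (g : Fk) : Prop :=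
  Red A π f g ∧ Red A π (dia' f) (δ • g)

variable {A π}

theorem Red.ne_zero' {f : F} {g : Fk} (h : Red A π f g) : g ≠ 0 := h.choose_spec.2.2

theorem Red.ne_zero {f : F} {g : Fk} (h : Red A π f g) : f ≠ 0 := by
  obtain ⟨y, hy, hyk, hg⟩ := h
  intro hf
  apply hg
  have h1 : coeffMap A.subtype y = 0 := by rw [hy, hf]; rfl
  have h2 : y = 0 := by
    ext n
    have := congrArg (fun z => z.coeff n) h1
    simpa using this
  apply Subtype.ext
  rw [← hyk, h2, map_zero]
  rfl

/-- (R2) in the shape of the Prelude's `IsPlaceReductionAlong` gives the `red` field. -/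
theorem red_of_isPlaceReduction {r : Place L F → Place k Fk}
    (hr2 : ∀ (y : LaurentSeries A) (hy : coeffMap A.subtype y ∈ F) (hyk : coeffMap π y ∈ Fk),
      coeffMap π y ≠ 0 → ∀ D : Divisor L F,
        (∀ P, D P = P.ord (⟨coeffMap A.subtype y, hy⟩ : F)) →
          ∀ Q, Finsupp.mapDomain r D Q = Q.ord (⟨coeffMap π y, hyk⟩ : Fk))
    (f : F) (g : Fk) (h : Red A π f g) (D : Divisor L F) (hD : ∀ P, D P = P.ord f)
    (Q : Place k Fk) : Finsupp.mapDomain r D Q = Q.ord g := by
  obtain ⟨y, hy, hyk, hg⟩ := h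
  have hy' : coeffMap A.subtype y ∈ F := by rw [hy]; exact f.2
  have hyk' : coeffMap π y ∈ Fk := by rw [hyk]; exact g.2
  have hne : coeffMap π y ≠ 0 := by
    rw [hyk]
    intro h0
    exact hg (Subtype.ext h0)
  have hf : (⟨coeffMap A.subtype y, hy'⟩ : F) = f := Subtype.ext hy
  have hg' : (⟨coeffMap π y, hyk'⟩ : Fk) = g := Subtype.ext hyk
  have := hr2 y hy' hyk' hne D (fun P => by rw [hD P, hf]) Q
  rw [this, hg']

end Red

section Norm

variable {L : Type*} [Field L] [IsAlgClosed L] [CharZero L] (A : ValuationSubring L)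
variable {k : Type*} [Field k] (π : A →+* k)
variable (ℓ : ℕ) [NeZero ℓ] [hℓ : Fact ℓ.Prime] [CharP k ℓ] [PerfectField k]
variable {F F' : IntermediateField L (LaurentSeries L)}
variable (α β : F →ₐ[L] F')
  (hα : ∀ x : F, ((α x : F') : LaurentSeries L) = (x : LaurentSeries L))
  (hβ : ∀ x : F, ((β x : F') : LaurentSeries L) = qExpand L ℓ (x : LaurentSeries L))

include hα hβ in
/-- **The reduced norm** (two series): if `f` and `dia' f` have `A`-integral `q`-expansions `y`, `y'`,
then `N_α (β f)` has an `A`-integral `q`-expansion `NR`, with reduction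
`(y'~)^φ · ((y~)^{φ⁻¹})^ℓ`. -/
theorem exists_norm_reduction (dia' : F →+* F) (hW : HasW' ℓ α β dia')
    (f₀ : F) (hf₀ : ((dia' f₀ : F) : LaurentSeries L).coeff (-1) ≠ 0)
    (hfin : FiniteAlong L α) (hn : finrankAlong L α = ℓ + 1)
    (f : F) (y y' : LaurentSeries A) (hy : coeffMap A.subtype y = (f : LaurentSeries L))
    (hy' : coeffMap A.subtype y' = ((dia' f : F) : LaurentSeries L)) :
    ∃ NR : LaurentSeries A,
      coeffMap A.subtype NR = ((normAlong α (β f) : F) : LaurentSeries L) ∧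
      coeffMap π NR = coeffMap (frobenius k ℓ) (coeffMap π y') *
        (coeffMap ((frobeniusEquiv k ℓ).symm : k →+* k) (coeffMap π y)) ^ ℓ := by
  obtain ⟨ζ, hζ1, hζp⟩ := exists_primitiveRoot_unit (L := L) ℓ
  have hℓpos : 0 < ℓ := hℓ.out.pos
  have hζL : (ζ : L) ^ ℓ = 1 := by rw [← Units.val_pow_eq_pow_val, hζ1, Units.val_one]
  set ζA : (↥A)ˣ := unitOfPowEqOne A hℓpos hζL with hζA
  have hmap : Units.map ((A.subtype : ↥A →+* L) : ↥A →* L) ζA = ζ := Units.ext rfl
  have hψ : ∀ a : k, ((frobeniusEquiv k ℓ).symm : k →+* k) a ^ ℓ = a := fun a =>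
    frobeniusEquiv_symm_pow_p k ℓ a
  have hq := qExpand_normAlong_alpha ℓ α β hα hβ hℓ.out ζ (IsPrimitiveRoot.coe_units_iff.mp hζp)
    dia' hW f₀ hf₀ hfin hn f
  have hN' : qExpand L ℓ ((normAlong α (β f) : F) : LaurentSeries L)
      = coeffMap A.subtype (normProd ℓ ζA y' y) := by
    rw [normProd_map, hmap, hy, hy']
    exact hq
  obtain ⟨NR, -, h2, h3⟩ := norm_descent ℓ A.subtype Subtype.val_injective π
    ((frobeniusEquiv k ℓ).symm : k →+* k) hψ ζA (unitOfPowEqOne_pow A hℓpos hζL) y' y _ hN'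
  exact ⟨NR, h2, h3⟩

end Norm

section Input

variable {L : Type*} [Field L] [IsAlgClosed L] [CharZero L] (A : ValuationSubring L)
variable {k : Type*} [Field k] (π : A →+* k)
variable (ℓ : ℕ) [NeZero ℓ] [hℓ : Fact ℓ.Prime] [CharP k ℓ] [PerfectField k]
variable {F F' : IntermediateField L (LaurentSeries L)}
variable {Fk : IntermediateField k (LaurentSeries k)}
variable (α β : F →ₐ[L] F')
  (hα : ∀ x : F, ((α x : F') : LaurentSeries L) = (x : LaurentSeries L))
  (hβ : ∀ x : F, ((β x : F') : LaurentSeries L) = qExpand L ℓ (x : LaurentSeries L))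

/-- the inverse of the coefficientwise Frobenius is `coeffMap φ⁻¹`. -/
theorem coe_inv_smul_of_frob (φ : SemilinearAut k Fk)
    (hφ : ∀ g : Fk, ((φ • g : Fk) : LaurentSeries k) = coeffMap (frobenius k ℓ) (g : LaurentSeries k))
    (g : Fk) :
    ((φ⁻¹ • g : Fk) : LaurentSeries k) =
      coeffMap ((frobeniusEquiv k ℓ).symm : k →+* k) (g : LaurentSeries k) := by
  have h1 := hφ (φ⁻¹ • g)
  rw [smul_inv_smul] at h1
  rw [h1, coeffMap_coeffMap]
  have : ((frobeniusEquiv k ℓ).symm : k →+* k).comp (frobenius k ℓ) = RingHom.id k :=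
    RingHom.ext fun a => frobeniusEquiv_symm_apply_frobenius k ℓ a
  rw [this, coeffMap_id]

theorem ord_smul_eq (σ : SemilinearAut k Fk) (Q : Place k Fk) (g : Fk) :
    Q.ord (σ • g) = (σ⁻¹ • Q).ord g := by
  have := SemilinearAut.ord_smul σ (σ⁻¹ • Q) g
  rwa [smul_inv_smul] at this

include hα hβ in
/-- **The abstract Kronecker input for Laurent-series function fields.**
`Fr = (φ δ)_*`, `W = (φ⁻¹)_*` with `φ` the coefficientwise Frobenius and `δ` the reduction of `dia'`. -/
theorem kronInput (dia' : F →+* F) (hW : HasW' ℓ α β dia')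
    (f₀ : F) (hf₀ : ((dia' f₀ : F) : LaurentSeries L).coeff (-1) ≠ 0)
    (hfin : FiniteAlong L α) (hn : finrankAlong L α = ℓ + 1)
    (φ δ : SemilinearAut k Fk)
    (hφ : ∀ g : Fk, ((φ • g : Fk) : LaurentSeries k) = coeffMap (frobenius k ℓ) (g : LaurentSeries k))
    {r : Place L F → Place k Fk}
    (hr2 : ∀ (y : LaurentSeries A) (hy : coeffMap A.subtype y ∈ F) (hyk : coeffMap π y ∈ Fk),
      coeffMap π y ≠ 0 → ∀ D : Divisor L F,
        (∀ P, D P = P.ord (⟨coeffMap A.subtype y, hy⟩ : F)) →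
          ∀ Q, Finsupp.mapDomain r D Q = Q.ord (⟨coeffMap π y, hyk⟩ : Fk)) :
    KronInput α β r (MulAction.toPerm (φ * δ)) (MulAction.toPerm φ⁻¹) ℓ
      (RedD A π (fun f => dia' f) δ) (Red A π) where
  sub _ _ h := h.1
  ne_zero _ _ h := h.ne_zero
  ne_zero' _ _ h := h.ne_zero'
  red := red_of_isPlaceReduction hr2
  norm := by
    rintro f g ⟨hfg, hfg'⟩
    obtain ⟨y', hy', hyk', hg'⟩ := hfg'
    obtain ⟨y, hy, hyk, hg⟩ := hfg
    obtain ⟨NR, hNR1, hNR2⟩ := exists_norm_reduction A π ℓ α β hα hβ dia' hW f₀ hf₀ hfin hn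
      f y y' hy hy'
    have hprod0 : (φ * δ) • g * (φ⁻¹ • g) ^ ℓ ≠ 0 :=
      mul_ne_zero ((smul_ne_zero_iff_ne _).mpr hg) (pow_ne_zero _ ((smul_ne_zero_iff_ne _).mpr hg))
    refine ⟨(φ * δ) • g, φ⁻¹ • g, ⟨NR, hNR1, ?_, hprod0⟩, fun Q => ?_, fun Q => ?_⟩
    · rw [hNR2, hyk', hyk]
      push_cast
      rw [mul_smul, hφ, coe_inv_smul_of_frob ℓ φ hφ]
    · rw [ord_smul_eq]
      rfl
    · rw [ord_smul_eq, inv_inv]
      rfl

end Input

/-! ### Variants taking the NORM identity itself as input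

`ConjTop90.kron_alpha_L1` (helper90) delivers, for `±Γ₁(M)`, the norm identity
`N_α (β f)(q^ℓ) = ∏_b (dia' f)(ζ^b q) · f(q^{ℓ²})` for every primitive `ℓ`-th root of unity `ζ`; the
variants below consume exactly that (with `dia' : F → F` an arbitrary map). -/

section OfNorm

open Fermat.Agent.ES.KRON.KronCong24 (twistU)

variable {L : Type*} [Field L] [IsAlgClosed L] [CharZero L] (A : ValuationSubring L)
variable {k : Type*} [Field k] (π : A →+* k)
variable (ℓ : ℕ) [NeZero ℓ] [hℓ : Fact ℓ.Prime] [CharP k ℓ] [PerfectField k]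
variable {F F' : IntermediateField L (LaurentSeries L)}
variable {Fk : IntermediateField k (LaurentSeries k)}
variable (α β : F →ₐ[L] F')

/-- The norm identity (NORM-α) as a hypothesis. -/
def NormIdentity (dia' : F → F) : Prop :=
  ∀ (ζ : Lˣ), IsPrimitiveRoot ζ ℓ → ∀ f : F,
    qExpand L ℓ ((normAlong α (β f) : F) : LaurentSeries L) =
      (∏ b ∈ Finset.range ℓ, twistU (ζ ^ b) ((dia' f : F) : LaurentSeries L)) *
        qExpand L (ℓ ^ 2) (f : LaurentSeries L)

/-- `HasW'` gives the norm identity (KRON-C). -/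
theorem normIdentity_of_hasW'
    (hα : ∀ x : F, ((α x : F') : LaurentSeries L) = (x : LaurentSeries L))
    (hβ : ∀ x : F, ((β x : F') : LaurentSeries L) = qExpand L ℓ (x : LaurentSeries L))
    (dia' : F →+* F) (hW : HasW' ℓ α β dia')
    (f₀ : F) (hf₀ : ((dia' f₀ : F) : LaurentSeries L).coeff (-1) ≠ 0)
    (hfin : FiniteAlong L α) (hn : finrankAlong L α = ℓ + 1) :
    NormIdentity ℓ α β dia' := fun ζ hζ f =>
  qExpand_normAlong_alpha ℓ α β hα hβ hℓ.out ζ hζ dia' hW f₀ hf₀ hfin hn f

/-- **The reduced norm**, from the norm identity. -/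
theorem exists_norm_reduction_of_norm (dia' : F → F) (hnorm : NormIdentity ℓ α β dia')
    (f : F) (y y' : LaurentSeries A) (hy : coeffMap A.subtype y = (f : LaurentSeries L))
    (hy' : coeffMap A.subtype y' = ((dia' f : F) : LaurentSeries L)) :
    ∃ NR : LaurentSeries A,
      coeffMap A.subtype NR = ((normAlong α (β f) : F) : LaurentSeries L) ∧
      coeffMap π NR = coeffMap (frobenius k ℓ) (coeffMap π y') *
        (coeffMap ((frobeniusEquiv k ℓ).symm : k →+* k) (coeffMap π y)) ^ ℓ := by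
  obtain ⟨ζ, hζ1, hζp⟩ := exists_primitiveRoot_unit (L := L) ℓ
  have hℓpos : 0 < ℓ := hℓ.out.pos
  have hζL : (ζ : L) ^ ℓ = 1 := by rw [← Units.val_pow_eq_pow_val, hζ1, Units.val_one]
  set ζA : (↥A)ˣ := unitOfPowEqOne A hℓpos hζL with hζA
  have hmap : Units.map ((A.subtype : ↥A →+* L) : ↥A →* L) ζA = ζ := Units.ext rfl
  have hψ : ∀ a : k, ((frobeniusEquiv k ℓ).symm : k →+* k) a ^ ℓ = a := fun a =>
    frobeniusEquiv_symm_pow_p k ℓ a
  have hq := hnorm ζ (IsPrimitiveRoot.coe_units_iff.mp hζp) f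
  have hN' : qExpand L ℓ ((normAlong α (β f) : F) : LaurentSeries L)
      = coeffMap A.subtype (normProd ℓ ζA y' y) := by
    rw [normProd_map, hmap, hy, hy']
    exact hq
  obtain ⟨NR, -, h2, h3⟩ := norm_descent ℓ A.subtype Subtype.val_injective π
    ((frobeniusEquiv k ℓ).symm : k →+* k) hψ ζA (unitOfPowEqOne_pow A hℓpos hζL) y' y _ hN'
  exact ⟨NR, h2, h3⟩

/-- **The abstract Kronecker input**, from the norm identity. -/
theorem kronInput_of_norm (dia' : F → F) (hnorm : NormIdentity ℓ α β dia')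
    (φ δ : SemilinearAut k Fk)
    (hφ : ∀ g : Fk, ((φ • g : Fk) : LaurentSeries k) = coeffMap (frobenius k ℓ) (g : LaurentSeries k))
    {r : Place L F → Place k Fk}
    (hr2 : ∀ (y : LaurentSeries A) (hy : coeffMap A.subtype y ∈ F) (hyk : coeffMap π y ∈ Fk),
      coeffMap π y ≠ 0 → ∀ D : Divisor L F,
        (∀ P, D P = P.ord (⟨coeffMap A.subtype y, hy⟩ : F)) →
          ∀ Q, Finsupp.mapDomain r D Q = Q.ord (⟨coeffMap π y, hyk⟩ : Fk)) :
    KronInput α β r (MulAction.toPerm (φ * δ)) (MulAction.toPerm φ⁻¹) ℓ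
      (RedD A π dia' δ) (Red A π) where
  sub _ _ h := h.1
  ne_zero _ _ h := h.ne_zero
  ne_zero' _ _ h := h.ne_zero'
  red := red_of_isPlaceReduction hr2
  norm := by
    rintro f g ⟨hfg, hfg'⟩
    obtain ⟨y', hy', hyk', hg'⟩ := hfg'
    obtain ⟨y, hy, hyk, hg⟩ := hfg
    obtain ⟨NR, hNR1, hNR2⟩ := exists_norm_reduction_of_norm A π ℓ α β dia' hnorm f y y' hy hy'
    have hprod0 : (φ * δ) • g * (φ⁻¹ • g) ^ ℓ ≠ 0 :=
      mul_ne_zero ((smul_ne_zero_iff_ne _).mpr hg) (pow_ne_zero _ ((smul_ne_zero_iff_ne _).mpr hg))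
    refine ⟨(φ * δ) • g, φ⁻¹ • g, ⟨NR, hNR1, ?_, hprod0⟩, fun Q => ?_, fun Q => ?_⟩
    · rw [hNR2, hyk', hyk]
      push_cast
      rw [mul_smul, hφ, coe_inv_smul_of_frob ℓ φ hφ]
    · rw [ord_smul_eq]
      rfl
    · rw [ord_smul_eq, inv_inv]
      rfl

end OfNorm

end Fermat.Agent.DS.G.ES.KRON.KronInputOf
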