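/-
DS programme (S48), chapter G-ESRED, brick KRON-D (instance layer, part 2; helper3): (ES-div) WITH
DIAMOND for function fields inside Laurent series, twin of Part 2 of `ES/KRON/EsDivMain24`
(`es_div_main`), level-free.

`es_div_series`: for `F F' ⊆ L((q))` (`L` algebraically closed of characteristic zero), `A` a
valuation subring of `L` with residue field `kA A` of characteristic `ℓ`, `Ft ⊆ (kA A)((q))`,
`T : TwoCharts A hx Ft`, the Hecke pair `α = incl`, `β = (q ↦ q^ℓ)`, the diamond `dia'` with `HasW'`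
(KRON-C), the coefficientwise Frobenius `φ` and the reduced diamond `δ` (semilinear automorphisms of
`Ft`, both fixing the reduced chart coordinate `s~`; `hδ0`/`hδ1`: for `b` in the chart rings, `dia' b`
has an integral `q`-expansion reducing to `δ • b~`), and (R2) for `T.r`:

  `r_* (α_* β^* D) = (φ δ)_* (r_* D) + ℓ • (φ⁻¹)_* (r_* D)`.
-/
import Mathlib
import Fermat.Agent.ES.KRON.FinDiv18
import Fermat.Agent.DS.G.ES.KRON.KronInputOf
import Fermat.Agent.DS.G.ES.KRON.EsDivMain24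

set_option autoImplicit false
set_option linter.unusedSectionVars false

open ModularCurve AlgebraicCurve HahnSeries IntermediateField

noncomputable section

namespace Fermat.Agent.DS.G.ES.KRON.EsDivSeries24

open Fermat.Agent.X0 Fermat.Agent.X0.FF
open Fermat.Agent.ES.RED.Contract8 Fermat.Agent.ES.RED.TwoCharts8
open Fermat.Agent.DS.G.ES.KRON.Conjugates11
open Fermat.Agent.DS.G.ES.KRON.KronMainAbs
open Fermat.Agent.DS.G.ES.KRON.KronInputOf
open Fermat.Agent.DS.G.ES.KRON.EsDivMain24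
open Fermat.Agent.ES.HECKE.PointFormula28

variable {L : Type*} [Field L] [IsAlgClosed L] [CharZero L] (A : ValuationSubring L)
variable (ℓ : ℕ) [NeZero ℓ] [hℓ : Fact ℓ.Prime] [CharP (kA A) ℓ] [IsAlgClosed (kA A)]
variable {F F' : IntermediateField L (LaurentSeries L)}
variable {Ft : IntermediateField (kA A) (LaurentSeries (kA A))}

/-- `ord_{σ • Q} s = ord_Q s` when `σ` fixes `s`. -/
theorem ord_smul_of_fix (σ : SemilinearAut (kA A) Ft) {s : Ft} (hs : σ • s = s) (Q : Place (kA A) Ft) :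
    (σ • Q).ord s = Q.ord s := by
  have := SemilinearAut.ord_smul σ Q s
  rwa [hs] at this

/-- `Red` from an `A`-integral `q`-expansion reducing to a non-zero `bt`. -/
theorem red_of_series (b : F) (bt : Ft) (hbt : bt ≠ 0)
    (hG : ∃ y : LaurentSeries A, coeffMap A.subtype y = (b : LaurentSeries L) ∧
      coeffMap (resA A) y = (bt : LaurentSeries (kA A))) : Red A (resA A) b bt := by
  obtain ⟨y, h1, h2⟩ := hG
  exact ⟨y, h1, h2, hbt⟩

/-- **(ES-div) with diamond, Laurent-series form**, from the norm identity (NORM-α). -/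
theorem es_div_series_of_norm {x : F} {hx : IsGen L x} (T : TwoCharts A hx Ft)
    {xt : Ft} (hxt : IsGen (kA A) xt) [Algebra.IsSeparable (kA A)⟮xt⟯ Ft]
    [HasPrincipalDivisors L F'] [HasPrincipalDivisors L F]
    (α β : F →ₐ[L] F')
    (hα : α.toRingHom.IsIntegral) (hβ : β.toRingHom.IsIntegral)
    (dia' : F → F) (hnorm : NormIdentity ℓ α β dia')
    (hFI : FundamentalIdentityAlong L β hβ) (hrank : finrankAlong L β = ℓ + 1)
    (hfin : FiniteAlong L α)
    (hN : NormFormulaAlong L α hfin)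
    (hdegP : ∀ P : Place L F, P.deg = 1)
    (φ δ : SemilinearAut (kA A) Ft)
    (hφ : ∀ g : Ft, ((φ • g : Ft) : LaurentSeries (kA A)) =
      coeffMap (frobenius (kA A) ℓ) (g : LaurentSeries (kA A)))
    (hδ0 : ∀ b : ↥T.S0.B, T.S0.red b ≠ 0 → Red A (resA A) (dia' (b : F)) (δ • T.S0.red b))
    (hδ1 : ∀ b : ↥T.S1.B, T.S1.red b ≠ 0 → Red A (resA A) (dia' (b : F)) (δ • T.S1.red b))
    (hr2 : ∀ (y : LaurentSeries A) (hy : coeffMap A.subtype y ∈ F)
      (hyk : coeffMap (resA A) y ∈ Ft),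
      coeffMap (resA A) y ≠ 0 → ∀ D : Divisor L F,
        (∀ P, D P = P.ord (⟨coeffMap A.subtype y, hy⟩ : F)) →
          ∀ Q, Finsupp.mapDomain T.r D Q = Q.ord (⟨coeffMap (resA A) y, hyk⟩ : Ft))
    (hintU0 : ∀ P : Place L F, T.S0.s ∈ P.toValuationSubring →
      ∀ b ∈ T.S0.B, b ∈ P.toValuationSubring)
    (hintU1 : ∀ P : Place L F, T.S1.s ∈ P.toValuationSubring →
      ∀ b ∈ T.S1.B, b ∈ P.toValuationSubring)
    (hintD0 : ∀ Q : Place (kA A) Ft, T.S0.red T.S0.sB ∈ Q.toValuationSubring →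
      ∀ b : ↥T.S0.B, T.S0.red b ∈ Q.toValuationSubring)
    (hintD1 : ∀ Q : Place (kA A) Ft, T.S1.red T.S1.sB ∈ Q.toValuationSubring →
      ∀ b : ↥T.S1.B, T.S1.red b ∈ Q.toValuationSubring)
    (hG0 : ∀ b : ↥T.S0.B, ∃ y : LaurentSeries A,
      coeffMap A.subtype y = (((b : F)) : LaurentSeries L) ∧
      coeffMap (resA A) y = ((T.S0.red b : Ft) : LaurentSeries (kA A)))
    (hG1 : ∀ b : ↥T.S1.B, ∃ y : LaurentSeries A,
      coeffMap A.subtype y = (((b : F)) : LaurentSeries L) ∧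
      coeffMap (resA A) y = ((T.S1.red b : Ft) : LaurentSeries (kA A)))
    (hdeg0 : ∀ (Dinf : Place L F →₀ ℤ) (Dinf' : Place (kA A) Ft →₀ ℤ),
      (∀ P, Dinf P = max (-(P.ord T.S0.s)) 0) →
      (∀ Q, Dinf' Q = max (-(Q.ord (T.S0.red T.S0.sB))) 0) →
      Dinf.sum (fun _ n => n) = Dinf'.sum (fun _ n => n))
    (hdeg1 : ∀ (Dinf : Place L F →₀ ℤ) (Dinf' : Place (kA A) Ft →₀ ℤ),
      (∀ P, Dinf P = max (-(P.ord T.S1.s)) 0) →
      (∀ Q, Dinf' Q = max (-(Q.ord (T.S1.red T.S1.sB))) 0) →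
      Dinf.sum (fun _ n => n) = Dinf'.sum (fun _ n => n))
    (hfixφ : φ • T.S0.red T.S0.sB = T.S0.red T.S0.sB)
    (hfixδ : δ • T.S0.red T.S0.sB = T.S0.red T.S0.sB)
    (D : Divisor L F) :
    Finsupp.mapDomain T.r (Divisor.correspondence β α hβ hα D) =
      Finsupp.mapDomain (MulAction.toPerm (φ * δ)) (Finsupp.mapDomain T.r D) +
        (ℓ : ℤ) • Finsupp.mapDomain (MulAction.toPerm φ⁻¹) (Finsupp.mapDomain T.r D) := by
  have I : KronInput α β T.r (MulAction.toPerm (φ * δ)) (MulAction.toPerm φ⁻¹) ℓ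
      (RedD A (resA A) dia' δ) (Red A (resA A)) :=
    kronInput_of_norm A (resA A) ℓ α β dia' hnorm φ δ hφ hr2
  have hfixφδ : (φ * δ) • T.S0.red T.S0.sB = T.S0.red T.S0.sB := by
    rw [mul_smul, hfixδ, hfixφ]
  have hfixinv : φ⁻¹ • T.S0.red T.S0.sB = T.S0.red T.S0.sB := by
    rw [inv_smul_eq_iff, hfixφ]
  exact es_div_main_abs hxt T hα hβ I hFI hrank hfin hN hdegP hintU0 hintU1 hintD0 hintD1
    (fun b hb => ⟨red_of_series A _ _ hb (hG0 b), hδ0 b hb⟩)
    (fun b hb => ⟨red_of_series A _ _ hb (hG1 b), hδ1 b hb⟩)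
    (fun f hf => (HasPrincipalDivisors.exists_divisor f hf).imp fun D h => h.1)
    (fun g hg => Fermat.Agent.ES.KRON.FinDiv18.exists_divisor hxt hg)
    (fun Q => Fermat.Agent.ES.KRON.FinDiv18.exists_ord_eq_one Q)
    hdeg0 hdeg1
    (fun Q => ord_smul_of_fix A (φ * δ) hfixφδ Q)
    (fun Q => ord_smul_of_fix A φ⁻¹ hfixinv Q) D

/-- **(ES-div) with diamond, Laurent-series form.** -/
theorem es_div_series {x : F} {hx : IsGen L x} (T : TwoCharts A hx Ft)
    {xt : Ft} (hxt : IsGen (kA A) xt) [Algebra.IsSeparable (kA A)⟮xt⟯ Ft]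
    [HasPrincipalDivisors L F'] [HasPrincipalDivisors L F]
    (α β : F →ₐ[L] F')
    (hαv : ∀ x : F, ((α x : F') : LaurentSeries L) = (x : LaurentSeries L))
    (hβv : ∀ x : F, ((β x : F') : LaurentSeries L) = qExpand L ℓ (x : LaurentSeries L))
    (hα : α.toRingHom.IsIntegral) (hβ : β.toRingHom.IsIntegral)
    (dia' : F →+* F) (hW : HasW' ℓ α β dia')
    (f₀ : F) (hf₀ : ((dia' f₀ : F) : LaurentSeries L).coeff (-1) ≠ 0)
    (hFI : FundamentalIdentityAlong L β hβ) (hrank : finrankAlong L β = ℓ + 1)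
    (hfin : FiniteAlong L α) (hn : finrankAlong L α = ℓ + 1)
    (hN : NormFormulaAlong L α hfin)
    (hdegP : ∀ P : Place L F, P.deg = 1)
    (φ δ : SemilinearAut (kA A) Ft)
    (hφ : ∀ g : Ft, ((φ • g : Ft) : LaurentSeries (kA A)) =
      coeffMap (frobenius (kA A) ℓ) (g : LaurentSeries (kA A)))
    (hδ0 : ∀ b : ↥T.S0.B, T.S0.red b ≠ 0 → Red A (resA A) (dia' (b : F)) (δ • T.S0.red b))
    (hδ1 : ∀ b : ↥T.S1.B, T.S1.red b ≠ 0 → Red A (resA A) (dia' (b : F)) (δ • T.S1.red b))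
    (hr2 : ∀ (y : LaurentSeries A) (hy : coeffMap A.subtype y ∈ F)
      (hyk : coeffMap (resA A) y ∈ Ft),
      coeffMap (resA A) y ≠ 0 → ∀ D : Divisor L F,
        (∀ P, D P = P.ord (⟨coeffMap A.subtype y, hy⟩ : F)) →
          ∀ Q, Finsupp.mapDomain T.r D Q = Q.ord (⟨coeffMap (resA A) y, hyk⟩ : Ft))
    (hintU0 : ∀ P : Place L F, T.S0.s ∈ P.toValuationSubring →
      ∀ b ∈ T.S0.B, b ∈ P.toValuationSubring)
    (hintU1 : ∀ P : Place L F, T.S1.s ∈ P.toValuationSubring →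
      ∀ b ∈ T.S1.B, b ∈ P.toValuationSubring)
    (hintD0 : ∀ Q : Place (kA A) Ft, T.S0.red T.S0.sB ∈ Q.toValuationSubring →
      ∀ b : ↥T.S0.B, T.S0.red b ∈ Q.toValuationSubring)
    (hintD1 : ∀ Q : Place (kA A) Ft, T.S1.red T.S1.sB ∈ Q.toValuationSubring →
      ∀ b : ↥T.S1.B, T.S1.red b ∈ Q.toValuationSubring)
    (hG0 : ∀ b : ↥T.S0.B, ∃ y : LaurentSeries A,
      coeffMap A.subtype y = (((b : F)) : LaurentSeries L) ∧
      coeffMap (resA A) y = ((T.S0.red b : Ft) : LaurentSeries (kA A)))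
    (hG1 : ∀ b : ↥T.S1.B, ∃ y : LaurentSeries A,
      coeffMap A.subtype y = (((b : F)) : LaurentSeries L) ∧
      coeffMap (resA A) y = ((T.S1.red b : Ft) : LaurentSeries (kA A)))
    (hdeg0 : ∀ (Dinf : Place L F →₀ ℤ) (Dinf' : Place (kA A) Ft →₀ ℤ),
      (∀ P, Dinf P = max (-(P.ord T.S0.s)) 0) →
      (∀ Q, Dinf' Q = max (-(Q.ord (T.S0.red T.S0.sB))) 0) →
      Dinf.sum (fun _ n => n) = Dinf'.sum (fun _ n => n))
    (hdeg1 : ∀ (Dinf : Place L F →₀ ℤ) (Dinf' : Place (kA A) Ft →₀ ℤ),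
      (∀ P, Dinf P = max (-(P.ord T.S1.s)) 0) →
      (∀ Q, Dinf' Q = max (-(Q.ord (T.S1.red T.S1.sB))) 0) →
      Dinf.sum (fun _ n => n) = Dinf'.sum (fun _ n => n))
    (hfixφ : φ • T.S0.red T.S0.sB = T.S0.red T.S0.sB)
    (hfixδ : δ • T.S0.red T.S0.sB = T.S0.red T.S0.sB)
    (D : Divisor L F) :
    Finsupp.mapDomain T.r (Divisor.correspondence β α hβ hα D) =
      Finsupp.mapDomain (MulAction.toPerm (φ * δ)) (Finsupp.mapDomain T.r D) +
        (ℓ : ℤ) • Finsupp.mapDomain (MulAction.toPerm φ⁻¹) (Finsupp.mapDomain T.r D) :=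
  es_div_series_of_norm A ℓ T hxt α β hα hβ (fun f => dia' f)
    (normIdentity_of_hasW' ℓ α β hαv hβv dia' hW f₀ hf₀ hfin hn) hFI hrank hfin hN hdegP φ δ hφ hδ0 hδ1
    hr2
    hintU0 hintU1 hintD0 hintD1 hG0 hG1 hdeg0 hdeg1 hfixφ hfixδ D

end Fermat.Agent.DS.G.ES.KRON.EsDivSeries24
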