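/-
DS programme (S48), chapter G-ESRED, brick KRON-D (helper3): THE REDUCTION OF PLACES COMMUTES WITH
AUTOMORPHISMS (diamond operators), by the SAME chart argument as (ES-div), used with `ℓ = 0`.

Abstract form (`K F k Fk` arbitrary): `σ : SemilinearAut K F` upstairs, `δ` a bijection of the places
downstairs, `Red f g` as in `KronMainAbs`.  From
 (R2)   `Red f g → r_* (div f) = div g`,
 (AUT)  `Red f g → ∃ g', Red' (σ • f) g' ∧ ∀ Q, ord_Q g' = ord_{δ⁻¹ Q} g`   (`g' = δ g`)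
and a cover by charts: `r (σ • P) = δ (r P)` for every place `P` (`red_smul_of_charts`).

`TwoCharts` form: `red_smul_main_abs`.  Laurent-series form: `red_smul_series`
(`σ`, `δ` semilinear automorphisms such that for `b` in the chart rings `σ • b` has an integral
`q`-expansion reducing to `δ • b~` (`hδ0`, `hδ1`), `δ` fixing the reduced chart coordinate):
`T.r (σ • P) = δ • T.r P`.

Finally `es_div_series_twisted`: the diamond moved to the other side,
  `r_* (α_* β^* (σ⁻¹_* D)) = φ_* (r_* D) + ℓ • (φ⁻¹)_* (r_* (σ⁻¹_* D))`,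
the shape `Φ (T y) = Fr (Φ y) + ℓ • Fr⁻¹ (Φ (⟨ℓ⟩ y))` consumed by `Geo/EsRelDia`.
-/
import Mathlib
import Fermat.Agent.DS.G.ES.KRON.EsDivSeries24

set_option autoImplicit false
set_option linter.unusedSectionVars false

open AlgebraicCurve

noncomputable section

namespace Fermat.Agent.DS.G.ES.KRON.RedAut24

open Fermat.Agent.DS.G.ES.KRON.EsDivAbs24
open Fermat.Agent.DS.G.ES.KRON.KronMainAbs

section Abstract

variable {K F : Type*} [Field K] [Field F] [Algebra K F]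
variable {k Fk : Type*} [Field k] [Field Fk] [Algebra k Fk]

/-- **The abstract automorphism input.**  Two predicates as in `KronMainAbs.KronInput`: `Red` (pairs
used by the charts, stable under `σ`) and `Red'` (pairs for which (R2) holds). -/
structure AutInput (σ : SemilinearAut K F) (r : Place K F → Place k Fk)
    (δ : Place k Fk ≃ Place k Fk) (Red Red' : F → Fk → Prop) : Prop where
  /-- `Red ⊆ Red'` -/
  sub : ∀ f g, Red f g → Red' f g
  /-- (R2): the reduction of `div f` is `div f~` -/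
  red : ∀ f g, Red' f g → ∀ D : Divisor K F, (∀ P, D P = P.ord f) →
    ∀ Q, Finsupp.mapDomain r D Q = Q.ord g
  /-- (AUT): `σ f` is integral with reduction `δ f~` -/
  aut : ∀ f g, Red f g → ∃ g' : Fk, Red' (σ • f) g' ∧
    ∀ Q : Place k Fk, Q.ord g' = (δ.symm Q).ord g

/-- `L = r_* ∘ σ_*`. -/
def redAut (σ : SemilinearAut K F) (r : Place K F → Place k Fk) : Divisor K F →+ Divisor k Fk :=
  (Finsupp.mapDomain.addMonoidHom r).comp
    (Finsupp.mapDomain.addMonoidHom (fun P : Place K F => σ • P))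

theorem redAut_apply (σ : SemilinearAut K F) (r : Place K F → Place k Fk) (D : Divisor K F) :
    redAut σ r D = Finsupp.mapDomain r (Finsupp.mapDomain (fun P : Place K F => σ • P) D) := rfl

theorem redAut_single (σ : SemilinearAut K F) (r : Place K F → Place k Fk) (P : Place K F)
    (n : ℤ) : redAut σ r (Finsupp.single P n) = Finsupp.single (r (σ • P)) n := by
  rw [redAut_apply, Finsupp.mapDomain_single, Finsupp.mapDomain_single]

/-- `σ_* (div f) = div (σ f)`, coefficientwise. -/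
theorem mapDomain_smul_apply (σ : SemilinearAut K F) (D : Divisor K F) (f : F)
    (hD : ∀ P, D P = P.ord f) (P : Place K F) :
    Finsupp.mapDomain (fun P : Place K F => σ • P) D P = P.ord (σ • f) := by
  have hinj : Function.Injective (fun P : Place K F => σ • P) := MulAction.injective σ
  have h1 : P = (fun P : Place K F => σ • P) (σ⁻¹ • P) := (smul_inv_smul σ P).symm
  have h2 : P.ord (σ • f) = (σ⁻¹ • P).ord f := by
    have := SemilinearAut.ord_smul σ (σ⁻¹ • P) f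
    rwa [smul_inv_smul] at this
  rw [h2, ← hD]
  conv_lhs => rw [h1]
  exact Finsupp.mapDomain_apply hinj D (σ⁻¹ • P)

variable {σ : SemilinearAut K F} {r : Place K F → Place k Fk} {δ : Place k Fk ≃ Place k Fk}
  {Red Red' : F → Fk → Prop}

/-- the `Setup` of `r_* ∘ σ_*` with `ℓ = 0`. -/
theorem setupAut (I : AutInput σ r δ Red Red') :
    Setup r δ (Equiv.refl (Place k Fk)) 0 (redAut σ r) (princ Red) where
  pos := by
    classical
    intro p y
    show 0 ≤ redAut σ r (Finsupp.single p 1) y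
    rw [redAut_single, Finsupp.single_apply]
    split_ifs
    · exact zero_le_one
    · exact le_rfl
  deg := by
    intro p
    rw [redAut_single, Finsupp.sum_single_index rfl]
    simp
  red := by
    rintro D D' ⟨f, g, hfg, hD, hD'⟩
    ext Q
    rw [hD' Q]
    exact I.red f g (I.sub f g hfg) D hD Q
  kron := by
    rintro D D' ⟨f, g, hfg, hD, hD'⟩ Q
    obtain ⟨g', hR, hg'⟩ := I.aut f g hfg
    rw [redAut_apply, I.red _ _ hR _ (mapDomain_smul_apply σ D f hD) Q, hg', hD']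
    simp

/-- **The reduction of places commutes with the automorphism**, modulo the chart data. -/
theorem red_smul_of_charts (I : AutInput σ r δ Red Red')
    {ι : Type*} {C : ι → Set (Place K F)} {Dinf : ι → Divisor K F} {Dinf' : ι → Divisor k Fk}
    (hC : ∀ i, Chart r δ (Equiv.refl (Place k Fk)) (princ Red) (C i) (Dinf i) (Dinf' i))
    (hcov : ∀ P, ∃ i, P ∈ C i) (P : Place K F) : r (σ • P) = δ (r P) := by
  have h := es_div (setupAut I) hC hcov P
  rw [redAut_single] at h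
  simp only [Nat.cast_zero, Finsupp.single_zero, add_zero] at h
  exact Finsupp.single_left_injective one_ne_zero h

/-- divisor form. -/
theorem mapDomain_red_smul (h : ∀ P : Place K F, r (σ • P) = δ (r P)) (D : Divisor K F) :
    Finsupp.mapDomain r (Finsupp.mapDomain (fun P : Place K F => σ • P) D) =
      Finsupp.mapDomain δ (Finsupp.mapDomain r D) := by
  rw [← Finsupp.mapDomain_comp, ← Finsupp.mapDomain_comp]
  congr 1
  funext P
  exact h P

end Abstract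

section TwoChartsForm

open Fermat.Agent.X0 Fermat.Agent.X0.FF
open Fermat.Agent.ES.RED.Contract8 Fermat.Agent.ES.RED.TwoCharts8
open Fermat.Agent.DS.G.ES.KRON.EsDivMain24

variable {L : Type*} [Field L] [IsAlgClosed L] {A : ValuationSubring L}
variable {F : Type*} [Field F] [Algebra L F] {x : F} {hx : IsGen L x}
variable {Ft : Type*} [Field Ft] [Algebra (kA A) Ft] [IsAlgClosed (kA A)]
variable {xt : Ft} (hxt : IsGen (kA A) xt)
variable (T : TwoCharts A hx Ft)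
variable {σ : SemilinearAut L F} {δ : Place (kA A) Ft ≃ Place (kA A) Ft}
  {Red Red' : F → Ft → Prop}

include hxt in
/-- **`T.r (σ • P) = δ (T.r P)`** for the reduction map of a `TwoCharts`, from an `AutInput`. -/
theorem red_smul_main_abs (I : AutInput σ T.r δ Red Red')
    (hintU0 : ∀ P : Place L F, T.S0.s ∈ P.toValuationSubring →
      ∀ b ∈ T.S0.B, b ∈ P.toValuationSubring)
    (hintU1 : ∀ P : Place L F, T.S1.s ∈ P.toValuationSubring →
      ∀ b ∈ T.S1.B, b ∈ P.toValuationSubring)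
    (hintD0 : ∀ Q : Place (kA A) Ft, T.S0.red T.S0.sB ∈ Q.toValuationSubring →
      ∀ b : ↥T.S0.B, T.S0.red b ∈ Q.toValuationSubring)
    (hintD1 : ∀ Q : Place (kA A) Ft, T.S1.red T.S1.sB ∈ Q.toValuationSubring →
      ∀ b : ↥T.S1.B, T.S1.red b ∈ Q.toValuationSubring)
    (hG0 : ∀ b : ↥T.S0.B, T.S0.red b ≠ 0 → Red (b : F) (T.S0.red b))
    (hG1 : ∀ b : ↥T.S1.B, T.S1.red b ≠ 0 → Red (b : F) (T.S1.red b))
    (hdivF : ∀ f : F, f ≠ 0 → ∃ D : Place L F →₀ ℤ, ∀ P, D P = P.ord f)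
    (hdivFt : ∀ g : Ft, g ≠ 0 → ∃ D' : Place (kA A) Ft →₀ ℤ, ∀ Q, D' Q = Q.ord g)
    (hunif : ∀ Q : Place (kA A) Ft, ∃ ϖ : Ft, Q.ord ϖ = 1)
    (hdeg0 : ∀ (Dinf : Place L F →₀ ℤ) (Dinf' : Place (kA A) Ft →₀ ℤ),
      (∀ P, Dinf P = max (-(P.ord T.S0.s)) 0) →
      (∀ Q, Dinf' Q = max (-(Q.ord (T.S0.red T.S0.sB))) 0) →
      Dinf.sum (fun _ n => n) = Dinf'.sum (fun _ n => n))
    (hdeg1 : ∀ (Dinf : Place L F →₀ ℤ) (Dinf' : Place (kA A) Ft →₀ ℤ),
      (∀ P, Dinf P = max (-(P.ord T.S1.s)) 0) →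
      (∀ Q, Dinf' Q = max (-(Q.ord (T.S1.red T.S1.sB))) 0) →
      Dinf.sum (fun _ n => n) = Dinf'.sum (fun _ n => n))
    (hδ0 : ∀ Q : Place (kA A) Ft,
      (δ Q).ord (T.S0.red T.S0.sB) = Q.ord (T.S0.red T.S0.sB))
    (P : Place L F) : T.r (σ • P) = δ (T.r P) := by
  obtain ⟨C, Dinf, Dinf', hC, hcov⟩ := charts_of_twoCharts hxt T (princ Red) δ
    (Equiv.refl (Place (kA A) Ft)) hintU0 hintU1 hintD0 hintD1
    (fun b hb D D' hD hD' => princ_of (hG0 b hb) D D' hD hD')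
    (fun b hb D D' hD hD' => princ_of (hG1 b hb) D D' hD hD')
    hdivF hdivFt hunif hdeg0 hdeg1 hδ0 (fun _ => rfl)
  exact red_smul_of_charts I hC hcov P

end TwoChartsForm

section Series

open ModularCurve HahnSeries IntermediateField
open Fermat.Agent.X0 Fermat.Agent.X0.FF
open Fermat.Agent.ES.RED.Contract8 Fermat.Agent.ES.RED.TwoCharts8
open Fermat.Agent.DS.G.ES.KRON.Conjugates11
open Fermat.Agent.DS.G.ES.KRON.KronInputOf
open Fermat.Agent.DS.G.ES.KRON.EsDivSeries24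
open Fermat.Agent.ES.HECKE.PointFormula28

variable {L : Type*} [Field L] [IsAlgClosed L] [CharZero L] (A : ValuationSubring L)
variable [IsAlgClosed (kA A)]
variable {F : IntermediateField L (LaurentSeries L)}
variable {Ft : IntermediateField (kA A) (LaurentSeries (kA A))}

/-- **Laurent-series form**: if `σ f` has an `A`-integral `q`-expansion reducing to `δ • f~` whenever
`f` has one reducing to `f~ ≠ 0`, and `δ` fixes the reduced chart coordinate, then
`T.r (σ • P) = δ • T.r P`. -/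
theorem red_smul_series {x : F} {hx : IsGen L x} (T : TwoCharts A hx Ft)
    {xt : Ft} (hxt : IsGen (kA A) xt) [Algebra.IsSeparable (kA A)⟮xt⟯ Ft]
    [HasPrincipalDivisors L F]
    (σ : SemilinearAut L F) (δ : SemilinearAut (kA A) Ft)
    (hδ0 : ∀ b : ↥T.S0.B, T.S0.red b ≠ 0 → Red A (resA A) (σ • (b : F)) (δ • T.S0.red b))
    (hδ1 : ∀ b : ↥T.S1.B, T.S1.red b ≠ 0 → Red A (resA A) (σ • (b : F)) (δ • T.S1.red b))
    (hr2 : ∀ (y : LaurentSeries A) (hy : coeffMap A.subtype y ∈ F)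
      (hyk : coeffMap (resA A) y ∈ Ft),
      coeffMap (resA A) y ≠ 0 → ∀ D : Divisor L F,
        (∀ P, D P = P.ord (⟨coeffMap A.subtype y, hy⟩ : F)) →
          ∀ Q, Finsupp.mapDomain T.r D Q = Q.ord (⟨coeffMap (resA A) y, hyk⟩ : Ft))
    (hintU0 : ∀ P : Place L F, T.S0.s ∈ P.toValuationSubring →
      ∀ b ∈ T.S0.B, b ∈ P.toValuationSubring)
    (hintU1 : ∀ P : Place L F, T.S1.s ∈ P.toValuationSubring →
      ∀ b ∈ T.S1.B, b ∈ P.toValuationSubring)
    (hintD0 : ∀ Q : Place (kA A) Ft, T.S0.red T.S0.sB ∈ Q.toValuationSubring →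
      ∀ b : ↥T.S0.B, T.S0.red b ∈ Q.toValuationSubring)
    (hintD1 : ∀ Q : Place (kA A) Ft, T.S1.red T.S1.sB ∈ Q.toValuationSubring →
      ∀ b : ↥T.S1.B, T.S1.red b ∈ Q.toValuationSubring)
    (hG0 : ∀ b : ↥T.S0.B, ∃ y : LaurentSeries A,
      coeffMap A.subtype y = (((b : F)) : LaurentSeries L) ∧
      coeffMap (resA A) y = ((T.S0.red b : Ft) : LaurentSeries (kA A)))
    (hG1 : ∀ b : ↥T.S1.B, ∃ y : LaurentSeries A,
      coeffMap A.subtype y = (((b : F)) : LaurentSeries L) ∧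
      coeffMap (resA A) y = ((T.S1.red b : Ft) : LaurentSeries (kA A)))
    (hdeg0 : ∀ (Dinf : Place L F →₀ ℤ) (Dinf' : Place (kA A) Ft →₀ ℤ),
      (∀ P, Dinf P = max (-(P.ord T.S0.s)) 0) →
      (∀ Q, Dinf' Q = max (-(Q.ord (T.S0.red T.S0.sB))) 0) →
      Dinf.sum (fun _ n => n) = Dinf'.sum (fun _ n => n))
    (hdeg1 : ∀ (Dinf : Place L F →₀ ℤ) (Dinf' : Place (kA A) Ft →₀ ℤ),
      (∀ P, Dinf P = max (-(P.ord T.S1.s)) 0) →
      (∀ Q, Dinf' Q = max (-(Q.ord (T.S1.red T.S1.sB))) 0) →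
      Dinf.sum (fun _ n => n) = Dinf'.sum (fun _ n => n))
    (hfixδ : δ • T.S0.red T.S0.sB = T.S0.red T.S0.sB)
    (P : Place L F) : T.r (σ • P) = δ • T.r P := by
  have I : AutInput σ T.r (MulAction.toPerm δ) (RedD A (resA A) (fun f => σ • f) δ)
      (Red A (resA A)) :=
    { sub := fun _ _ h => h.1
      red := red_of_isPlaceReduction hr2
      aut := fun f g hfg => ⟨δ • g, hfg.2, fun Q => by
        rw [KronInputOf.ord_smul_eq]
        rfl⟩ }
  exact red_smul_main_abs hxt T I hintU0 hintU1 hintD0 hintD1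
    (fun b hb => ⟨red_of_series A _ _ hb (hG0 b), hδ0 b hb⟩)
    (fun b hb => ⟨red_of_series A _ _ hb (hG1 b), hδ1 b hb⟩)
    (fun f hf => (HasPrincipalDivisors.exists_divisor f hf).imp fun D h => h.1)
    (fun g hg => Fermat.Agent.ES.KRON.FinDiv18.exists_divisor hxt hg)
    (fun Q => Fermat.Agent.ES.KRON.FinDiv18.exists_ord_eq_one Q)
    hdeg0 hdeg1 (fun Q => ord_smul_of_fix A δ hfixδ Q) P

end Series

section Twisted

open ModularCurve HahnSeries IntermediateField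
open Fermat.Agent.X0 Fermat.Agent.X0.FF
open Fermat.Agent.ES.RED.Contract8 Fermat.Agent.ES.RED.TwoCharts8
open Fermat.Agent.DS.G.ES.KRON.Conjugates11
open Fermat.Agent.DS.G.ES.KRON.KronInputOf
open Fermat.Agent.DS.G.ES.KRON.EsDivSeries24
open Fermat.Agent.ES.HECKE.PointFormula28

variable {L : Type*} [Field L] [IsAlgClosed L] [CharZero L] (A : ValuationSubring L)
variable (ℓ : ℕ) [NeZero ℓ] [hℓ : Fact ℓ.Prime] [CharP (kA A) ℓ] [IsAlgClosed (kA A)]
variable {F F' : IntermediateField L (LaurentSeries L)}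
variable {Ft : IntermediateField (kA A) (LaurentSeries (kA A))}

/-- **(ES-div) with the diamond on the Verschiebung side**, from the norm identity: with `X := (σ⁻¹)_*` (`σ • f = dia' f`),
`r_* (α_* β^* (X D)) = φ_* (r_* D) + ℓ • (φ⁻¹)_* (r_* (X D))`, and `r_* (X D) = (δ⁻¹)_* (r_* D)`. -/
theorem es_div_series_twisted_of_norm {x : F} {hx : IsGen L x} (T : TwoCharts A hx Ft)
    {xt : Ft} (hxt : IsGen (kA A) xt) [Algebra.IsSeparable (kA A)⟮xt⟯ Ft]
    [HasPrincipalDivisors L F'] [HasPrincipalDivisors L F]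
    (α β : F →ₐ[L] F')
    (hα : α.toRingHom.IsIntegral) (hβ : β.toRingHom.IsIntegral)
    (dia' : F → F) (hnorm : NormIdentity ℓ α β dia')
    (hFI : FundamentalIdentityAlong L β hβ) (hrank : finrankAlong L β = ℓ + 1)
    (hfin : FiniteAlong L α)
    (hN : NormFormulaAlong L α hfin)
    (hdegP : ∀ P : Place L F, P.deg = 1)
    (σ : SemilinearAut L F) (hσ : ∀ f : F, σ • f = dia' f)
    (φ δ : SemilinearAut (kA A) Ft)
    (hφ : ∀ g : Ft, ((φ • g : Ft) : LaurentSeries (kA A)) =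
      coeffMap (frobenius (kA A) ℓ) (g : LaurentSeries (kA A)))
    (hδ0 : ∀ b : ↥T.S0.B, T.S0.red b ≠ 0 → Red A (resA A) (dia' (b : F)) (δ • T.S0.red b))
    (hδ1 : ∀ b : ↥T.S1.B, T.S1.red b ≠ 0 → Red A (resA A) (dia' (b : F)) (δ • T.S1.red b))
    (hr2 : ∀ (y : LaurentSeries A) (hy : coeffMap A.subtype y ∈ F)
      (hyk : coeffMap (resA A) y ∈ Ft),
      coeffMap (resA A) y ≠ 0 → ∀ D : Divisor L F,
        (∀ P, D P = P.ord (⟨coeffMap A.subtype y, hy⟩ : F)) →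
          ∀ Q, Finsupp.mapDomain T.r D Q = Q.ord (⟨coeffMap (resA A) y, hyk⟩ : Ft))
    (hintU0 : ∀ P : Place L F, T.S0.s ∈ P.toValuationSubring →
      ∀ b ∈ T.S0.B, b ∈ P.toValuationSubring)
    (hintU1 : ∀ P : Place L F, T.S1.s ∈ P.toValuationSubring →
      ∀ b ∈ T.S1.B, b ∈ P.toValuationSubring)
    (hintD0 : ∀ Q : Place (kA A) Ft, T.S0.red T.S0.sB ∈ Q.toValuationSubring →
      ∀ b : ↥T.S0.B, T.S0.red b ∈ Q.toValuationSubring)
    (hintD1 : ∀ Q : Place (kA A) Ft, T.S1.red T.S1.sB ∈ Q.toValuationSubring →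
      ∀ b : ↥T.S1.B, T.S1.red b ∈ Q.toValuationSubring)
    (hG0 : ∀ b : ↥T.S0.B, ∃ y : LaurentSeries A,
      coeffMap A.subtype y = (((b : F)) : LaurentSeries L) ∧
      coeffMap (resA A) y = ((T.S0.red b : Ft) : LaurentSeries (kA A)))
    (hG1 : ∀ b : ↥T.S1.B, ∃ y : LaurentSeries A,
      coeffMap A.subtype y = (((b : F)) : LaurentSeries L) ∧
      coeffMap (resA A) y = ((T.S1.red b : Ft) : LaurentSeries (kA A)))
    (hdeg0 : ∀ (Dinf : Place L F →₀ ℤ) (Dinf' : Place (kA A) Ft →₀ ℤ),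
      (∀ P, Dinf P = max (-(P.ord T.S0.s)) 0) →
      (∀ Q, Dinf' Q = max (-(Q.ord (T.S0.red T.S0.sB))) 0) →
      Dinf.sum (fun _ n => n) = Dinf'.sum (fun _ n => n))
    (hdeg1 : ∀ (Dinf : Place L F →₀ ℤ) (Dinf' : Place (kA A) Ft →₀ ℤ),
      (∀ P, Dinf P = max (-(P.ord T.S1.s)) 0) →
      (∀ Q, Dinf' Q = max (-(Q.ord (T.S1.red T.S1.sB))) 0) →
      Dinf.sum (fun _ n => n) = Dinf'.sum (fun _ n => n))
    (hfixφ : φ • T.S0.red T.S0.sB = T.S0.red T.S0.sB)
    (hfixδ : δ • T.S0.red T.S0.sB = T.S0.red T.S0.sB)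
    (D : Divisor L F) :
    Finsupp.mapDomain T.r (Finsupp.mapDomain (fun P : Place L F => σ⁻¹ • P) D) =
        Finsupp.mapDomain (MulAction.toPerm δ⁻¹) (Finsupp.mapDomain T.r D) ∧
    Finsupp.mapDomain T.r (Divisor.correspondence β α hβ hα
        (Finsupp.mapDomain (fun P : Place L F => σ⁻¹ • P) D)) =
      Finsupp.mapDomain (MulAction.toPerm φ) (Finsupp.mapDomain T.r D) +
        (ℓ : ℤ) • Finsupp.mapDomain (MulAction.toPerm φ⁻¹)
          (Finsupp.mapDomain T.r (Finsupp.mapDomain (fun P : Place L F => σ⁻¹ • P) D)) := by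
  have hred : ∀ P : Place L F, T.r (σ • P) = δ • T.r P :=
    red_smul_series A T hxt σ δ (fun b hb => by rw [hσ]; exact hδ0 b hb)
      (fun b hb => by rw [hσ]; exact hδ1 b hb) hr2
      hintU0 hintU1 hintD0 hintD1 hG0 hG1 hdeg0 hdeg1 hfixδ
  have hred' : ∀ P : Place L F, T.r (σ⁻¹ • P) = δ⁻¹ • T.r P := by
    intro P
    have := hred (σ⁻¹ • P)
    rw [smul_inv_smul] at this
    rw [this, inv_smul_smul]
  have h1 : Finsupp.mapDomain T.r (Finsupp.mapDomain (fun P : Place L F => σ⁻¹ • P) D) =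
      Finsupp.mapDomain (MulAction.toPerm δ⁻¹) (Finsupp.mapDomain T.r D) :=
    mapDomain_red_smul (σ := σ⁻¹) (δ := MulAction.toPerm δ⁻¹) hred' D
  refine ⟨h1, ?_⟩
  rw [es_div_series_of_norm A ℓ T hxt α β hα hβ dia' hnorm hFI hrank hfin hN hdegP φ δ hφ hδ0 hδ1
    hr2 hintU0 hintU1 hintD0 hintD1 hG0 hG1 hdeg0 hdeg1 hfixφ hfixδ, h1]
  congr 1
  rw [← Finsupp.mapDomain_comp]
  congr 1
  funext Q
  show (φ * δ) • δ⁻¹ • Q = φ • Q
  rw [mul_smul, smul_inv_smul]

/-- **(ES-div) with the diamond on the Verschiebung side**: with `X := (σ⁻¹)_*` (`σ • f = dia' f`),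
`r_* (α_* β^* (X D)) = φ_* (r_* D) + ℓ • (φ⁻¹)_* (r_* (X D))`, and `r_* (X D) = (δ⁻¹)_* (r_* D)`. -/
theorem es_div_series_twisted {x : F} {hx : IsGen L x} (T : TwoCharts A hx Ft)
    {xt : Ft} (hxt : IsGen (kA A) xt) [Algebra.IsSeparable (kA A)⟮xt⟯ Ft]
    [HasPrincipalDivisors L F'] [HasPrincipalDivisors L F]
    (α β : F →ₐ[L] F')
    (hαv : ∀ x : F, ((α x : F') : LaurentSeries L) = (x : LaurentSeries L))
    (hβv : ∀ x : F, ((β x : F') : LaurentSeries L) = qExpand L ℓ (x : LaurentSeries L))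
    (hα : α.toRingHom.IsIntegral) (hβ : β.toRingHom.IsIntegral)
    (dia' : F →+* F) (hW : HasW' ℓ α β dia')
    (f₀ : F) (hf₀ : ((dia' f₀ : F) : LaurentSeries L).coeff (-1) ≠ 0)
    (hFI : FundamentalIdentityAlong L β hβ) (hrank : finrankAlong L β = ℓ + 1)
    (hfin : FiniteAlong L α) (hn : finrankAlong L α = ℓ + 1)
    (hN : NormFormulaAlong L α hfin)
    (hdegP : ∀ P : Place L F, P.deg = 1)
    (σ : SemilinearAut L F) (hσ : ∀ f : F, σ • f = dia' f)
    (φ δ : SemilinearAut (kA A) Ft)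
    (hφ : ∀ g : Ft, ((φ • g : Ft) : LaurentSeries (kA A)) =
      coeffMap (frobenius (kA A) ℓ) (g : LaurentSeries (kA A)))
    (hδ0 : ∀ b : ↥T.S0.B, T.S0.red b ≠ 0 → Red A (resA A) (dia' (b : F)) (δ • T.S0.red b))
    (hδ1 : ∀ b : ↥T.S1.B, T.S1.red b ≠ 0 → Red A (resA A) (dia' (b : F)) (δ • T.S1.red b))
    (hr2 : ∀ (y : LaurentSeries A) (hy : coeffMap A.subtype y ∈ F)
      (hyk : coeffMap (resA A) y ∈ Ft),
      coeffMap (resA A) y ≠ 0 → ∀ D : Divisor L F,
        (∀ P, D P = P.ord (⟨coeffMap A.subtype y, hy⟩ : F)) →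
          ∀ Q, Finsupp.mapDomain T.r D Q = Q.ord (⟨coeffMap (resA A) y, hyk⟩ : Ft))
    (hintU0 : ∀ P : Place L F, T.S0.s ∈ P.toValuationSubring →
      ∀ b ∈ T.S0.B, b ∈ P.toValuationSubring)
    (hintU1 : ∀ P : Place L F, T.S1.s ∈ P.toValuationSubring →
      ∀ b ∈ T.S1.B, b ∈ P.toValuationSubring)
    (hintD0 : ∀ Q : Place (kA A) Ft, T.S0.red T.S0.sB ∈ Q.toValuationSubring →
      ∀ b : ↥T.S0.B, T.S0.red b ∈ Q.toValuationSubring)
    (hintD1 : ∀ Q : Place (kA A) Ft, T.S1.red T.S1.sB ∈ Q.toValuationSubring →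
      ∀ b : ↥T.S1.B, T.S1.red b ∈ Q.toValuationSubring)
    (hG0 : ∀ b : ↥T.S0.B, ∃ y : LaurentSeries A,
      coeffMap A.subtype y = (((b : F)) : LaurentSeries L) ∧
      coeffMap (resA A) y = ((T.S0.red b : Ft) : LaurentSeries (kA A)))
    (hG1 : ∀ b : ↥T.S1.B, ∃ y : LaurentSeries A,
      coeffMap A.subtype y = (((b : F)) : LaurentSeries L) ∧
      coeffMap (resA A) y = ((T.S1.red b : Ft) : LaurentSeries (kA A)))
    (hdeg0 : ∀ (Dinf : Place L F →₀ ℤ) (Dinf' : Place (kA A) Ft →₀ ℤ),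
      (∀ P, Dinf P = max (-(P.ord T.S0.s)) 0) →
      (∀ Q, Dinf' Q = max (-(Q.ord (T.S0.red T.S0.sB))) 0) →
      Dinf.sum (fun _ n => n) = Dinf'.sum (fun _ n => n))
    (hdeg1 : ∀ (Dinf : Place L F →₀ ℤ) (Dinf' : Place (kA A) Ft →₀ ℤ),
      (∀ P, Dinf P = max (-(P.ord T.S1.s)) 0) →
      (∀ Q, Dinf' Q = max (-(Q.ord (T.S1.red T.S1.sB))) 0) →
      Dinf.sum (fun _ n => n) = Dinf'.sum (fun _ n => n))
    (hfixφ : φ • T.S0.red T.S0.sB = T.S0.red T.S0.sB)
    (hfixδ : δ • T.S0.red T.S0.sB = T.S0.red T.S0.sB)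
    (D : Divisor L F) :
    Finsupp.mapDomain T.r (Finsupp.mapDomain (fun P : Place L F => σ⁻¹ • P) D) =
        Finsupp.mapDomain (MulAction.toPerm δ⁻¹) (Finsupp.mapDomain T.r D) ∧
    Finsupp.mapDomain T.r (Divisor.correspondence β α hβ hα
        (Finsupp.mapDomain (fun P : Place L F => σ⁻¹ • P) D)) =
      Finsupp.mapDomain (MulAction.toPerm φ) (Finsupp.mapDomain T.r D) +
        (ℓ : ℤ) • Finsupp.mapDomain (MulAction.toPerm φ⁻¹)
          (Finsupp.mapDomain T.r (Finsupp.mapDomain (fun P : Place L F => σ⁻¹ • P) D)) :=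
  es_div_series_twisted_of_norm A ℓ T hxt α β hα hβ (fun f => dia' f)
    (normIdentity_of_hasW' ℓ α β hαv hβv dia' hW f₀ hf₀ hfin hn) hFI hrank hfin hN hdegP σ hσ φ δ hφ
    hδ0 hδ1 hr2 hintU0 hintU1 hintD0 hintD1 hG0 hG1 hdeg0 hdeg1 hfixφ hfixδ D

end Twisted

end Fermat.Agent.DS.G.ES.KRON.RedAut24
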