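/-
DS programme (S48), chapter G-ESRED, brick KRON-D (helper3): TWIN of `ES/KRON/EsDivFinal24`
(helper24), in PAIR form `(F₀, Ft)` and with the diamond: (ES-div) against the `RedMain15.ChartInputs`
of the E02 twin (helper52).

`es_div_final`: for `T : TwoCharts A hx Ft` (`x ∈ L·F₀` a generator), with `ChartInputs A F₀ Ft T.S0`,
`ChartInputs A F₀ Ft T.S1` (the SAME inputs that give (R2) in `RedMain15`), integrality of the chart
rings over `L[s]` (order form), the Hecke pair `α = incl`, `β = (q ↦ q^ℓ)` with the norm identity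
(KRON-C), the coefficientwise Frobenius `φ` and the reduced diamond `δ`, both fixing `s~`:

  `r_* (α_* β^* D) = (φ δ)_* (r_* D) + ℓ • (φ⁻¹)_* (r_* D)`,   `r = T.r`;

`es_div_final_twisted`: the same with the diamond on the Verschiebung side, and
`red_smul_final`: `T.r (σ • P) = δ • T.r P`.
-/
import Mathlib
import Fermat.Agent.ES.KRON.EsDivFinal24
import Fermat.Agent.DS.G.ES.KRON.RedAut24
import Fermat.Agent.DS.G.ES.RED.RedMain15

set_option autoImplicit false
set_option linter.unusedSectionVars false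

noncomputable section

open AlgebraicCurve ModularCurve HahnSeries IntermediateField

namespace Fermat.Agent.DS.G.ES.KRON.EsDivFinal24

open Fermat.Agent.X0 Fermat.Agent.X0.FF
open Fermat.Agent.ES.RED.Contract8 Fermat.Agent.ES.RED.TwoCharts8
open Fermat.Agent.DS.G.ES.RED.RedMain15
open Fermat.Agent.DS.G.RED.Defs
open Fermat.Agent.DS.G.ES.KRON.KronInputOf
open Fermat.Agent.DS.G.ES.KRON.EsDivSeries24
open Fermat.Agent.DS.G.ES.KRON.RedAut24
open Fermat.Agent.ES.KRON.EsDivFinal24 (sum_poleDiv)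
open Fermat.Agent.ES.HECKE.PointFormula28

section Final

variable {L : Type*} [Field L] [Algebra ℚ L] [IsAlgClosed L] [CharZero L] (A : ValuationSubring L)
variable (ℓ : ℕ) [NeZero ℓ] [hℓ : Fact ℓ.Prime] [CharP (kA A) ℓ] [IsAlgClosed (kA A)]
variable {F₀ F₀' : IntermediateField ℚ (LaurentSeries ℚ)}
variable {Ft : IntermediateField (kA A) (LaurentSeries (kA A))}
variable {x : ↥(laurentBaseChange L F₀)} {hx : IsGen L x}

/-- the degree equality of the pole divisors, from `ChartInputs`. -/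
theorem deg_eq_of_inputs (S : ChartSpec A hx ↥Ft) (h : ChartInputs A F₀ Ft S)
    (Dinf : Place L ↥(laurentBaseChange L F₀) →₀ ℤ) (Dinf' : Place (kA A) ↥Ft →₀ ℤ)
    (hD : ∀ P, Dinf P = max (-(P.ord S.s)) 0)
    (hD' : ∀ Q, Dinf' Q = max (-(Q.ord (S.red S.sB))) 0) :
    Dinf.sum (fun _ n => n) = Dinf'.sum (fun _ n => n) := by
  have := h.sep
  rw [sum_poleDiv S.s Dinf hD, sum_poleDiv (S.red S.sB) Dinf' hD', sum_ord_poles h.gen,
    Fermat.Agent.ES.RED.SumOrdSep15.sum_ord_poles_sep h.gent, h.deg]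

/-- integrality of the reductions, order form. -/
theorem hintD_of_inputs (S : ChartSpec A hx ↥Ft) (h : ChartInputs A F₀ Ft S)
    (Q : Place (kA A) ↥Ft) (hQ : S.red S.sB ∈ Q.toValuationSubring) (b : ↥S.B) :
    S.red b ∈ Q.toValuationSubring :=
  Fermat.Agent.ES.RED.ChartFacts9.mem_of_isIntegral_adjoin Q (R := kA A)
    (fun c => Q.algebraMap_mem' c) hQ (h.int b)

/-- (R2) for `T.r`, from the chart inputs. -/
theorem isPlaceReduction_of_inputs [HasPrincipalDivisors L ↥(laurentBaseChange L F₀)]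
    (T : TwoCharts A hx ↥Ft) (h0 : ChartInputs A F₀ Ft T.S0) (h1 : ChartInputs A F₀ Ft T.S1)
    (hdegP : ∀ P : Place L ↥(laurentBaseChange L F₀), P.deg = 1) :
    IsPlaceReductionAlongG A (resA A) F₀ Ft T.r := by
  have hdeg : ∀ P, (T.r P).deg = P.deg := fun P => by
    rw [FF.deg_eq_one h0.gent (T.r P), hdegP P]
  exact isPlaceReductionAlong_twoCharts T h0 h1
    Fermat.Agent.ES.RED.RedAssembly15.finDiv_of_hasPrincipalDivisors hdeg

variable {A}

/-- **(ES-div) with diamond** from the chart inputs of `RedMain15`. -/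
theorem es_div_final (T : TwoCharts A hx ↥Ft)
    (h0 : ChartInputs A F₀ Ft T.S0) (h1 : ChartInputs A F₀ Ft T.S1)
    [HasPrincipalDivisors L ↥(laurentBaseChange L F₀')]
    [HasPrincipalDivisors L ↥(laurentBaseChange L F₀)]
    (hdegP : ∀ P : Place L ↥(laurentBaseChange L F₀), P.deg = 1)
    (α β : ↥(laurentBaseChange L F₀) →ₐ[L] ↥(laurentBaseChange L F₀'))
    (hα : α.toRingHom.IsIntegral) (hβ : β.toRingHom.IsIntegral)
    (dia' : ↥(laurentBaseChange L F₀) → ↥(laurentBaseChange L F₀))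
    (hnorm : NormIdentity ℓ α β dia')
    (hFI : FundamentalIdentityAlong L β hβ) (hrank : finrankAlong L β = ℓ + 1)
    (hfin : FiniteAlong L α) (hN : NormFormulaAlong L α hfin)
    (φ δ : SemilinearAut (kA A) ↥Ft)
    (hφ : ∀ g : ↥Ft, ((φ • g : ↥Ft) : LaurentSeries (kA A)) =
      coeffMap (frobenius (kA A) ℓ) (g : LaurentSeries (kA A)))
    (hδ0 : ∀ b : ↥T.S0.B, T.S0.red b ≠ 0 →
      Red A (resA A) (dia' (b : ↥(laurentBaseChange L F₀))) (δ • T.S0.red b))
    (hδ1 : ∀ b : ↥T.S1.B, T.S1.red b ≠ 0 →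
      Red A (resA A) (dia' (b : ↥(laurentBaseChange L F₀))) (δ • T.S1.red b))
    (hintU0 : ∀ P : Place L ↥(laurentBaseChange L F₀),
      T.S0.s ∈ P.toValuationSubring → ∀ b ∈ T.S0.B, b ∈ P.toValuationSubring)
    (hintU1 : ∀ P : Place L ↥(laurentBaseChange L F₀),
      T.S1.s ∈ P.toValuationSubring → ∀ b ∈ T.S1.B, b ∈ P.toValuationSubring)
    (hfixφ : φ • T.S0.red T.S0.sB = T.S0.red T.S0.sB)
    (hfixδ : δ • T.S0.red T.S0.sB = T.S0.red T.S0.sB)
    (D : Divisor L ↥(laurentBaseChange L F₀)) :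
    Finsupp.mapDomain T.r (Divisor.correspondence β α hβ hα D) =
      Finsupp.mapDomain (MulAction.toPerm (φ * δ)) (Finsupp.mapDomain T.r D) +
        (ℓ : ℤ) • Finsupp.mapDomain (MulAction.toPerm φ⁻¹) (Finsupp.mapDomain T.r D) := by
  have := h0.sep
  exact es_div_series_of_norm A ℓ T h0.gent α β hα hβ dia' hnorm hFI hrank hfin hN hdegP φ δ hφ hδ0 hδ1
    (isPlaceReduction_of_inputs A T h0 h1 hdegP).2
    hintU0 hintU1 (hintD_of_inputs A T.S0 h0) (hintD_of_inputs A T.S1 h1)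
    (fun b => (h0.compat b).imp fun y h => ⟨h.1, h.2.symm⟩)
    (fun b => (h1.compat b).imp fun y h => ⟨h.1, h.2.symm⟩)
    (deg_eq_of_inputs A T.S0 h0) (deg_eq_of_inputs A T.S1 h1) hfixφ hfixδ D

/-- **The reduction of places commutes with the diamond**, from the chart inputs. -/
theorem red_smul_final (T : TwoCharts A hx ↥Ft)
    (h0 : ChartInputs A F₀ Ft T.S0) (h1 : ChartInputs A F₀ Ft T.S1)
    [HasPrincipalDivisors L ↥(laurentBaseChange L F₀)]
    (hdegP : ∀ P : Place L ↥(laurentBaseChange L F₀), P.deg = 1)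
    (σ : SemilinearAut L ↥(laurentBaseChange L F₀)) (δ : SemilinearAut (kA A) ↥Ft)
    (hδ0 : ∀ b : ↥T.S0.B, T.S0.red b ≠ 0 →
      Red A (resA A) (σ • (b : ↥(laurentBaseChange L F₀))) (δ • T.S0.red b))
    (hδ1 : ∀ b : ↥T.S1.B, T.S1.red b ≠ 0 →
      Red A (resA A) (σ • (b : ↥(laurentBaseChange L F₀))) (δ • T.S1.red b))
    (hintU0 : ∀ P : Place L ↥(laurentBaseChange L F₀),
      T.S0.s ∈ P.toValuationSubring → ∀ b ∈ T.S0.B, b ∈ P.toValuationSubring)
    (hintU1 : ∀ P : Place L ↥(laurentBaseChange L F₀),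
      T.S1.s ∈ P.toValuationSubring → ∀ b ∈ T.S1.B, b ∈ P.toValuationSubring)
    (hfixδ : δ • T.S0.red T.S0.sB = T.S0.red T.S0.sB)
    (P : Place L ↥(laurentBaseChange L F₀)) : T.r (σ • P) = δ • T.r P := by
  have := h0.sep
  exact red_smul_series A T h0.gent σ δ hδ0 hδ1 (isPlaceReduction_of_inputs A T h0 h1 hdegP).2
    hintU0 hintU1 (hintD_of_inputs A T.S0 h0) (hintD_of_inputs A T.S1 h1)
    (fun b => (h0.compat b).imp fun y h => ⟨h.1, h.2.symm⟩)
    (fun b => (h1.compat b).imp fun y h => ⟨h.1, h.2.symm⟩)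
    (deg_eq_of_inputs A T.S0 h0) (deg_eq_of_inputs A T.S1 h1) hfixδ P

/-- **(ES-div) with the diamond on the Verschiebung side**, from the chart inputs:
`X := (σ⁻¹)_*`, `σ • f = dia' f`. -/
theorem es_div_final_twisted (T : TwoCharts A hx ↥Ft)
    (h0 : ChartInputs A F₀ Ft T.S0) (h1 : ChartInputs A F₀ Ft T.S1)
    [HasPrincipalDivisors L ↥(laurentBaseChange L F₀')]
    [HasPrincipalDivisors L ↥(laurentBaseChange L F₀)]
    (hdegP : ∀ P : Place L ↥(laurentBaseChange L F₀), P.deg = 1)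
    (α β : ↥(laurentBaseChange L F₀) →ₐ[L] ↥(laurentBaseChange L F₀'))
    (hα : α.toRingHom.IsIntegral) (hβ : β.toRingHom.IsIntegral)
    (dia' : ↥(laurentBaseChange L F₀) → ↥(laurentBaseChange L F₀))
    (hnorm : NormIdentity ℓ α β dia')
    (hFI : FundamentalIdentityAlong L β hβ) (hrank : finrankAlong L β = ℓ + 1)
    (hfin : FiniteAlong L α) (hN : NormFormulaAlong L α hfin)
    (σ : SemilinearAut L ↥(laurentBaseChange L F₀)) (hσ : ∀ f, σ • f = dia' f)
    (φ δ : SemilinearAut (kA A) ↥Ft)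
    (hφ : ∀ g : ↥Ft, ((φ • g : ↥Ft) : LaurentSeries (kA A)) =
      coeffMap (frobenius (kA A) ℓ) (g : LaurentSeries (kA A)))
    (hδ0 : ∀ b : ↥T.S0.B, T.S0.red b ≠ 0 →
      Red A (resA A) (dia' (b : ↥(laurentBaseChange L F₀))) (δ • T.S0.red b))
    (hδ1 : ∀ b : ↥T.S1.B, T.S1.red b ≠ 0 →
      Red A (resA A) (dia' (b : ↥(laurentBaseChange L F₀))) (δ • T.S1.red b))
    (hintU0 : ∀ P : Place L ↥(laurentBaseChange L F₀),
      T.S0.s ∈ P.toValuationSubring → ∀ b ∈ T.S0.B, b ∈ P.toValuationSubring)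
    (hintU1 : ∀ P : Place L ↥(laurentBaseChange L F₀),
      T.S1.s ∈ P.toValuationSubring → ∀ b ∈ T.S1.B, b ∈ P.toValuationSubring)
    (hfixφ : φ • T.S0.red T.S0.sB = T.S0.red T.S0.sB)
    (hfixδ : δ • T.S0.red T.S0.sB = T.S0.red T.S0.sB)
    (D : Divisor L ↥(laurentBaseChange L F₀)) :
    Finsupp.mapDomain T.r (Finsupp.mapDomain
        (fun P : Place L ↥(laurentBaseChange L F₀) => σ⁻¹ • P) D) =
        Finsupp.mapDomain (MulAction.toPerm δ⁻¹) (Finsupp.mapDomain T.r D) ∧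
    Finsupp.mapDomain T.r (Divisor.correspondence β α hβ hα
        (Finsupp.mapDomain (fun P : Place L ↥(laurentBaseChange L F₀) => σ⁻¹ • P) D)) =
      Finsupp.mapDomain (MulAction.toPerm φ) (Finsupp.mapDomain T.r D) +
        (ℓ : ℤ) • Finsupp.mapDomain (MulAction.toPerm φ⁻¹)
          (Finsupp.mapDomain T.r (Finsupp.mapDomain
            (fun P : Place L ↥(laurentBaseChange L F₀) => σ⁻¹ • P) D)) := by
  have := h0.sep
  exact es_div_series_twisted_of_norm A ℓ T h0.gent α β hα hβ dia' hnorm hFI hrank hfin hN hdegP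
    σ hσ φ δ hφ hδ0 hδ1 (isPlaceReduction_of_inputs A T h0 h1 hdegP).2
    hintU0 hintU1 (hintD_of_inputs A T.S0 h0) (hintD_of_inputs A T.S1 h1)
    (fun b => (h0.compat b).imp fun y h => ⟨h.1, h.2.symm⟩)
    (fun b => (h1.compat b).imp fun y h => ⟨h.1, h.2.symm⟩)
    (deg_eq_of_inputs A T.S0 h0) (deg_eq_of_inputs A T.S1 h1) hfixφ hfixδ D

end Final

end Fermat.Agent.DS.G.ES.KRON.EsDivFinal24
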