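/-
DS programme (S48), chapter G-ESRED, brick KRON-D (helper3): TWIN of `ES/KRON/EsDivInst24` (helper24):
the remaining chart-level hypotheses of `EsDivFinal24.es_div_final` discharged for COEFFICIENTWISE
charts.

* `hintU_of_mem_chart` : if the chart ring is (contained in) the integral
  closure of `A[s]` (`GaloisInst21.CoeffChart.mem_iff`), then every place at which `s` is regular
  contains the chart ring (`hintU0`, `hintU1`);
* `coe_red_sB` : the reduced coordinate `s~` is the coefficientwise reduction of the expansion of `s`;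
* `smul_red_sB_of_int` : if the coordinate `s` has INTEGER `q`-expansion coefficients (e.g. the
  Hauptmodul `tq n e`, any polynomial in `j` over `ℤ`), then the coefficientwise Frobenius fixes `s~`
  (`hfixφ`); more generally every semilinear automorphism acting coefficientwise does;
* `es_div_inst` : `EsDivFinal24.es_div_final` with these three hypotheses discharged.
-/
import Mathlib
import Fermat.Agent.ES.RED.ChartSpecOfChart18
import Fermat.Agent.DS.G.ES.KRON.EsDivFinal24

set_option autoImplicit false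
set_option linter.unusedSectionVars false

noncomputable section

open AlgebraicCurve ModularCurve HahnSeries IntermediateField

namespace Fermat.Agent.DS.G.ES.KRON.EsDivInst24

open Fermat.Agent.X0 Fermat.Agent.X0.FF
open Fermat.Agent.ES.RED.Contract8 Fermat.Agent.ES.RED.TwoCharts8
open Fermat.Agent.RED.PUR.ChartGeneric22
open Fermat.Agent.DS.G.ES.RED.Iface
open Fermat.Agent.DS.G.ES.RED.RedCharts15 Fermat.Agent.DS.G.ES.RED.RedMain15
open Fermat.Agent.DS.G.ES.KRON.KronInputOf
open Fermat.Agent.DS.G.ES.KRON.EsDivFinal24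
open Fermat.Agent.ES.HECKE.PointFormula28

section Generic

variable {L : Type*} [Field L] [IsAlgClosed L] (A : ValuationSubring L)
variable {F : Type*} [Field F] [Algebra L F] {x : F} {hx : IsGen L x}
variable {Ft : Type*} [Field Ft] [Algebra (kA A) Ft]

/-- integrality of a chart ring contained in the integral closure of `A[s]`, order form. -/
theorem hintU_of_mem_chart (S : ChartSpec A hx Ft)
    (hS : ∀ b : F, b ∈ S.B → b ∈ chart ↥A S.s)
    (P : Place L F) (hs : S.s ∈ P.toValuationSubring) (b : F) (hb : b ∈ S.B) :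
    b ∈ P.toValuationSubring :=
  Fermat.Agent.ES.RED.ChartSpecOfChart18.mem_place_of_mem_chart' A S.s P hs (hS b hb)

end Generic

section Series

variable {L : Type*} [Field L] [Algebra ℚ L] [IsAlgClosed L] (A : ValuationSubring L)
variable {F₀ : IntermediateField ℚ (LaurentSeries ℚ)}
variable {Ft : IntermediateField (kA A) (LaurentSeries (kA A))}
variable {x : ↥(laurentBaseChange L F₀)} {hx : IsGen L x}

/-- the reduced coordinate is the coefficientwise reduction of the expansion of the coordinate. -/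
theorem coe_red_sB (S : ChartSpec A hx ↥Ft) (hcompat : Compat A F₀ Ft S)
    (sA : LaurentSeries ↥A)
    (hsA : coeffMap A.subtype sA = ((S.s : ↥(laurentBaseChange L F₀)) : LaurentSeries L)) :
    ((S.red S.sB : ↥Ft) : LaurentSeries (kA A)) = coeffMap (resA A) sA := by
  obtain ⟨Y, hY, hYr⟩ := hcompat S.sB
  have hYs : Y = sA := by
    have h : coeffMap A.subtype Y = coeffMap A.subtype sA := by
      rw [hY, hsA]
      rfl
    ext n
    have := congrArg (fun z => z.coeff n) h
    simpa using this
  rw [hYr, hYs]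

/-- **`hfixφ`**: a semilinear automorphism of `Ft` acting coefficientwise through `τ` fixes the
reduced coordinate, when the coordinate has integer `q`-expansion coefficients. -/
theorem smul_red_sB_of_int (S : ChartSpec A hx ↥Ft) (hcompat : Compat A F₀ Ft S)
    (sZ : LaurentSeries ℤ)
    (hs : ((S.s : ↥(laurentBaseChange L F₀)) : LaurentSeries L) =
      coeffMap (Int.castRingHom L) sZ)
    (φ : SemilinearAut (kA A) ↥Ft) (τ : kA A →+* kA A)
    (hφ : ∀ g : ↥Ft, ((φ • g : ↥Ft) : LaurentSeries (kA A)) = coeffMap τ (g : LaurentSeries (kA A))) :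
    φ • S.red S.sB = S.red S.sB := by
  have h1 : ((S.red S.sB : ↥Ft) : LaurentSeries (kA A)) =
      coeffMap (resA A) (coeffMap (Int.castRingHom ↥A) sZ) :=
    coe_red_sB A S hcompat _ (by rw [hs, coeffMap_intCast_comp])
  apply Subtype.ext
  rw [hφ, h1, coeffMap_intCast_comp, coeffMap_intCast_comp]

end Series

section Inst

variable {L : Type*} [Field L] [Algebra ℚ L] [IsAlgClosed L] [CharZero L] {A : ValuationSubring L}
variable (ℓ : ℕ) [NeZero ℓ] [hℓ : Fact ℓ.Prime] [CharP (kA A) ℓ] [IsAlgClosed (kA A)]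
variable {F₀ F₀' : IntermediateField ℚ (LaurentSeries ℚ)}
variable {Ft : IntermediateField (kA A) (LaurentSeries (kA A))}
variable {x : ↥(laurentBaseChange L F₀)} {hx : IsGen L x}

/-- **(ES-div) with diamond, for coefficientwise charts**: `EsDivFinal24.es_div_final` with `hintU0`,
`hintU1` (chart rings inside the integral closures of `A[s_i]`) and `hfixφ` (integer coordinate)
discharged. -/
theorem es_div_inst (T : TwoCharts A hx ↥Ft)
    (h0 : ChartInputs A F₀ Ft T.S0) (h1 : ChartInputs A F₀ Ft T.S1)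
    (hB0 : ∀ b : ↥(laurentBaseChange L F₀), b ∈ T.S0.B → b ∈ chart ↥A T.S0.s)
    (hB1 : ∀ b : ↥(laurentBaseChange L F₀), b ∈ T.S1.B → b ∈ chart ↥A T.S1.s)
    (sZ : LaurentSeries ℤ)
    (hs : ((T.S0.s : ↥(laurentBaseChange L F₀)) : LaurentSeries L) =
      coeffMap (Int.castRingHom L) sZ)
    [HasPrincipalDivisors L ↥(laurentBaseChange L F₀')]
    [HasPrincipalDivisors L ↥(laurentBaseChange L F₀)]
    (hdegP : ∀ P : Place L ↥(laurentBaseChange L F₀), P.deg = 1)
    (α β : ↥(laurentBaseChange L F₀) →ₐ[L] ↥(laurentBaseChange L F₀'))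
    (hα : α.toRingHom.IsIntegral) (hβ : β.toRingHom.IsIntegral)
    (dia' : ↥(laurentBaseChange L F₀) → ↥(laurentBaseChange L F₀))
    (hnorm : NormIdentity ℓ α β dia')
    (hFI : FundamentalIdentityAlong L β hβ) (hrank : finrankAlong L β = ℓ + 1)
    (hfin : FiniteAlong L α) (hN : NormFormulaAlong L α hfin)
    (φ δ : SemilinearAut (kA A) ↥Ft)
    (hφ : ∀ g : ↥Ft, ((φ • g : ↥Ft) : LaurentSeries (kA A)) =
      coeffMap (frobenius (kA A) ℓ) (g : LaurentSeries (kA A)))
    (hδ0 : ∀ b : ↥T.S0.B, T.S0.red b ≠ 0 →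
      Red A (resA A) (dia' (b : ↥(laurentBaseChange L F₀))) (δ • T.S0.red b))
    (hδ1 : ∀ b : ↥T.S1.B, T.S1.red b ≠ 0 →
      Red A (resA A) (dia' (b : ↥(laurentBaseChange L F₀))) (δ • T.S1.red b))
    (hfixδ : δ • T.S0.red T.S0.sB = T.S0.red T.S0.sB)
    (D : Divisor L ↥(laurentBaseChange L F₀)) :
    Finsupp.mapDomain T.r (Divisor.correspondence β α hβ hα D) =
      Finsupp.mapDomain (MulAction.toPerm (φ * δ)) (Finsupp.mapDomain T.r D) +
        (ℓ : ℤ) • Finsupp.mapDomain (MulAction.toPerm φ⁻¹) (Finsupp.mapDomain T.r D) :=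
  es_div_final ℓ T h0 h1 hdegP α β hα hβ dia' hnorm hFI hrank hfin hN φ δ hφ hδ0 hδ1
    (hintU_of_mem_chart A T.S0 hB0) (hintU_of_mem_chart A T.S1 hB1)
    (smul_red_sB_of_int A T.S0 h0.compat sZ hs φ _ hφ) hfixδ D

end Inst

end Fermat.Agent.DS.G.ES.KRON.EsDivInst24
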