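/-
DS programme (S48), chapter G-ESRED, brick KRON-D (helper3): GENERIC TWIN of
`ES/KRON/EsDivMain24` (helper24): (ES-div), FINAL FORM, from a `TwoCharts8.TwoCharts`, for the
two-bijection setting `(Fr, W)` (`W` = diamond-twisted Verschiebung; the original is `W = Fr.symm`).

Part 1 (generic in `(L, A, F, Ft)`, = Part 1 of the original with the extra stability of the polar
divisors under `W`): the `ChartBridge24.BridgeHyp` of both charts of a `TwoCharts` for the global map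
`T.r`; hence the two `EsDivAbs24.Chart`s and their cover (`charts_of_twoCharts`).

Part 2 (ABSTRACT form of the concrete Part 2 of the original): `es_div_main_abs`,
  `r_* T = (Fr_* + ℓ W_*) r_*` on divisors for `r = T.r`,
from a `KronMainAbs.KronInput` (the Kronecker congruence in norm form + (R2)) and the integrality /
degree hypotheses on the two charts.  The instance for a concrete level structure only has to
provide the `KronInput` and `princ` for the elements of the chart rings.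
-/
import Mathlib
import Fermat.Agent.ES.RED.TwoCharts8
import Fermat.Agent.DS.G.ES.KRON.ChartBridge24
import Fermat.Agent.DS.G.ES.KRON.KronMainAbs

set_option autoImplicit false
set_option linter.unusedSectionVars false

noncomputable section

open AlgebraicCurve

namespace Fermat.Agent.DS.G.ES.KRON.EsDivMain24

open Fermat.Agent.X0.FF Fermat.Agent.ES.RED.PlaceValue13 Fermat.Agent.ES.RED.Contract8
open Fermat.Agent.ES.RED.TwoCharts8
open Fermat.Agent.DS.G.ES.KRON.EsDivAbs24 Fermat.Agent.DS.G.ES.KRON.ChartBridge24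
open Fermat.Agent.ES.KRON.ChartBridge24 (BridgeHyp mem_support_Dinf_iff mem_support_Dinf'_iff
  ord_red_pos)

section Generic

variable {L : Type*} [Field L] [IsAlgClosed L] {A : ValuationSubring L}
variable {F : Type*} [Field F] [Algebra L F] {x : F} {hx : IsGen L x}
variable {Ft : Type*} [Field Ft] [Algebra (kA A) Ft] [IsAlgClosed (kA A)]
variable {xt : Ft} (hxt : IsGen (kA A) xt)
variable (T : TwoCharts A hx Ft)

include hxt in
theorem hr0 (P : Place L F) (hP : T.S0.InChart P) (y : Ft) :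
    y ∈ (T.r P).toValuationSubring ↔ y ∈ T.S0.rSubring P hP := by
  rw [T.r_eq0 P hP]
  exact Iff.rfl

include hxt in
theorem hr1 (P : Place L F) (hP : T.S1.InChart P) (y : Ft) :
    y ∈ (T.r P).toValuationSubring ↔ y ∈ T.S1.rSubring P hP := by
  rw [T.r_eq1 hxt P hP]
  exact Iff.rfl

theorem not_const_of_transcendental {g : Ft} (hg : Transcendental (kA A) g) (c : kA A) :
    g ≠ algebraMap (kA A) Ft c := by
  intro h
  apply hg
  rw [h]
  exact isAlgebraic_algebraMap _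

include hxt in
/-- poles of `s` reduce to poles of `s~`. -/
theorem hrbad0 (P : Place L F) (hP : P.ord T.S0.s < 0) :
    (T.r P).ord (T.S0.red T.S0.sB) < 0 := by
  have h0 : ¬ T.S0.InChart P := by
    rintro ⟨hs, -⟩
    have := ord_nonneg_of_mem P hs
    omega
  have h1 : T.S1.InChart P := (T.inChart_or P).resolve_left h0
  have hχ := T.chi1_s_eq_zero P h0 h1
  have hne : T.S1.red T.S1.sB ≠ 0 := by
    rw [T.red_s1_eq]
    exact inv_ne_zero T.red_s0_ne_zero
  have hpos := ord_red_pos hxt T.S1 T.r P h1 (hr1 hxt T P h1) hχ hne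
  have : T.S0.red T.S0.sB = (T.S1.red T.S1.sB)⁻¹ := by rw [T.red_s1_eq, inv_inv]
  rw [this, Place.ord_inv]
  omega

include hxt in
/-- poles of `s⁻¹` reduce to poles of `(s~)⁻¹`. -/
theorem hrbad1 (P : Place L F) (hP : P.ord T.S1.s < 0) :
    (T.r P).ord (T.S1.red T.S1.sB) < 0 := by
  have h1 : ¬ T.S1.InChart P := by
    rintro ⟨hs, -⟩
    have := ord_nonneg_of_mem P hs
    omega
  have h0 : T.S0.InChart P := (T.inChart_or P).resolve_right h1
  have hχ := T.chi0_s_eq_zero P h0 h1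
  have hpos := ord_red_pos hxt T.S0 T.r P h0 (hr0 hxt T P h0) hχ T.red_s0_ne_zero
  rw [T.red_s1_eq, Place.ord_inv]
  omega

/-- the pole divisor built from a divisor of the function. -/
theorem exists_poleDiv {K E : Type*} [Field K] [Field E] [Algebra K E] (s : E)
    (h : ∃ D : Place K E →₀ ℤ, ∀ P, D P = P.ord s) :
    ∃ Dinf : Place K E →₀ ℤ, ∀ P, Dinf P = max (-(P.ord s)) 0 := by
  obtain ⟨D, hD⟩ := h
  refine ⟨D.mapRange (fun n => max (-n) 0) (by simp), fun P => ?_⟩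
  rw [Finsupp.mapRange_apply, hD]

include hxt in
/-- **The two abstract charts of a `TwoCharts`**, and their cover. -/
theorem charts_of_twoCharts
    (princ : (Place L F →₀ ℤ) → (Place (kA A) Ft →₀ ℤ) → Prop)
    (Fr W : Place (kA A) Ft ≃ Place (kA A) Ft)
    (hintU0 : ∀ P : Place L F, T.S0.s ∈ P.toValuationSubring →
      ∀ b ∈ T.S0.B, b ∈ P.toValuationSubring)
    (hintU1 : ∀ P : Place L F, T.S1.s ∈ P.toValuationSubring →
      ∀ b ∈ T.S1.B, b ∈ P.toValuationSubring)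
    (hintD0 : ∀ Q : Place (kA A) Ft, T.S0.red T.S0.sB ∈ Q.toValuationSubring →
      ∀ b : ↥T.S0.B, T.S0.red b ∈ Q.toValuationSubring)
    (hintD1 : ∀ Q : Place (kA A) Ft, T.S1.red T.S1.sB ∈ Q.toValuationSubring →
      ∀ b : ↥T.S1.B, T.S1.red b ∈ Q.toValuationSubring)
    (hprinc0 : ∀ b : ↥T.S0.B, T.S0.red b ≠ 0 →
      ∀ (D : Place L F →₀ ℤ) (D' : Place (kA A) Ft →₀ ℤ),
      (∀ P, D P = P.ord (b : F)) → (∀ Q, D' Q = Q.ord (T.S0.red b)) → princ D D')
    (hprinc1 : ∀ b : ↥T.S1.B, T.S1.red b ≠ 0 →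
      ∀ (D : Place L F →₀ ℤ) (D' : Place (kA A) Ft →₀ ℤ),
      (∀ P, D P = P.ord (b : F)) → (∀ Q, D' Q = Q.ord (T.S1.red b)) → princ D D')
    (hdivF : ∀ f : F, f ≠ 0 → ∃ D : Place L F →₀ ℤ, ∀ P, D P = P.ord f)
    (hdivFt : ∀ g : Ft, g ≠ 0 → ∃ D' : Place (kA A) Ft →₀ ℤ, ∀ Q, D' Q = Q.ord g)
    (hunif : ∀ Q : Place (kA A) Ft, ∃ ϖ : Ft, Q.ord ϖ = 1)
    (hdeg0 : ∀ (Dinf : Place L F →₀ ℤ) (Dinf' : Place (kA A) Ft →₀ ℤ),
      (∀ P, Dinf P = max (-(P.ord T.S0.s)) 0) →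
      (∀ Q, Dinf' Q = max (-(Q.ord (T.S0.red T.S0.sB))) 0) →
      Dinf.sum (fun _ n => n) = Dinf'.sum (fun _ n => n))
    (hdeg1 : ∀ (Dinf : Place L F →₀ ℤ) (Dinf' : Place (kA A) Ft →₀ ℤ),
      (∀ P, Dinf P = max (-(P.ord T.S1.s)) 0) →
      (∀ Q, Dinf' Q = max (-(Q.ord (T.S1.red T.S1.sB))) 0) →
      Dinf.sum (fun _ n => n) = Dinf'.sum (fun _ n => n))
    (hFr0 : ∀ Q : Place (kA A) Ft,
      (Fr Q).ord (T.S0.red T.S0.sB) = Q.ord (T.S0.red T.S0.sB))
    (hW0 : ∀ Q : Place (kA A) Ft,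
      (W Q).ord (T.S0.red T.S0.sB) = Q.ord (T.S0.red T.S0.sB)) :
    ∃ (C : Bool → Set (Place L F)) (Dinf : Bool → Place L F →₀ ℤ)
      (Dinf' : Bool → Place (kA A) Ft →₀ ℤ),
      (∀ i, Chart T.r Fr W princ (C i) (Dinf i) (Dinf' i)) ∧ ∀ P, ∃ i, P ∈ C i := by
  have hs1F : T.S1.s ≠ 0 := by rw [T.s_inv]; exact inv_ne_zero T.s_ne
  have hs1t : T.S1.red T.S1.sB ≠ 0 := by
    rw [T.red_s1_eq]; exact inv_ne_zero T.red_s0_ne_zero
  obtain ⟨D0, hD0⟩ := exists_poleDiv T.S0.s (hdivF _ T.s_ne)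
  obtain ⟨D0', hD0'⟩ := exists_poleDiv (T.S0.red T.S0.sB) (hdivFt _ T.red_s0_ne_zero)
  obtain ⟨D1, hD1⟩ := exists_poleDiv T.S1.s (hdivF _ hs1F)
  obtain ⟨D1', hD1'⟩ := exists_poleDiv (T.S1.red T.S1.sB) (hdivFt _ hs1t)
  have hFr1 : ∀ Q : Place (kA A) Ft,
      (Fr Q).ord (T.S1.red T.S1.sB) = Q.ord (T.S1.red T.S1.sB) := by
    intro Q
    rw [T.red_s1_eq, Place.ord_inv, Place.ord_inv, hFr0]
  have hW1 : ∀ Q : Place (kA A) Ft,
      (W Q).ord (T.S1.red T.S1.sB) = Q.ord (T.S1.red T.S1.sB) := by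
    intro Q
    rw [T.red_s1_eq, Place.ord_inv, Place.ord_inv, hW0]
  have hB0 : BridgeHyp T.S0 T.r princ D0 D0' :=
    { hr := hr0 hxt T
      hrbad := hrbad0 hxt T
      hintU := hintU0
      hintD := hintD0
      hprinc := hprinc0
      hst := not_const_of_transcendental T.tr0
      hdivF := hdivF
      hdivFt := hdivFt
      hunif := hunif
      hDinf := hD0
      hDinf' := hD0' }
  have hB1 : BridgeHyp T.S1 T.r princ D1 D1' :=
    { hr := hr1 hxt T
      hrbad := hrbad1 hxt T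
      hintU := hintU1
      hintD := hintD1
      hprinc := hprinc1
      hst := not_const_of_transcendental T.tr1
      hdivF := hdivF
      hdivFt := hdivFt
      hunif := hunif
      hDinf := hD1
      hDinf' := hD1' }
  have hst0 : ∀ Q, Q ∈ D0'.support ↔ Fr Q ∈ D0'.support := by
    intro Q
    rw [mem_support_Dinf'_iff hB0, mem_support_Dinf'_iff hB0, hFr0]
  have hst1 : ∀ Q, Q ∈ D1'.support ↔ Fr Q ∈ D1'.support := by
    intro Q
    rw [mem_support_Dinf'_iff hB1, mem_support_Dinf'_iff hB1, hFr1]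
  have hsw0 : ∀ Q, Q ∈ D0'.support ↔ W Q ∈ D0'.support := by
    intro Q
    rw [mem_support_Dinf'_iff hB0, mem_support_Dinf'_iff hB0, hW0]
  have hsw1 : ∀ Q, Q ∈ D1'.support ↔ W Q ∈ D1'.support := by
    intro Q
    rw [mem_support_Dinf'_iff hB1, mem_support_Dinf'_iff hB1, hW1]
  have hC0 := chart_of_bridge hxt hB0 Fr W (hdeg0 D0 D0' hD0 hD0') hst0 hsw0
  have hC1 := chart_of_bridge hxt hB1 Fr W (hdeg1 D1 D1' hD1 hD1') hst1 hsw1
  refine ⟨fun i => cond i {P | T.S1.InChart P} {P | T.S0.InChart P},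
    fun i => cond i D1 D0, fun i => cond i D1' D0', ?_, ?_⟩
  · intro i
    cases i
    · exact hC0
    · exact hC1
  · intro P
    rcases T.inChart_or P with h | h
    · exact ⟨false, h⟩
    · exact ⟨true, h⟩

end Generic

section Main

open Fermat.Agent.DS.G.ES.KRON.KronMainAbs Fermat.Agent.ES.HECKE.PointFormula28

variable {L : Type*} [Field L] [IsAlgClosed L] {A : ValuationSubring L}
variable {F F' : Type*} [Field F] [Algebra L F] [Field F'] [Algebra L F']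
  [HasPrincipalDivisors L F'] {x : F} {hx : IsGen L x}
variable {Ft : Type*} [Field Ft] [Algebra (kA A) Ft] [IsAlgClosed (kA A)]
variable {xt : Ft} (hxt : IsGen (kA A) xt)
variable (T : TwoCharts A hx Ft)
variable {α β : F →ₐ[L] F'} (hα : α.toRingHom.IsIntegral) (hβ : β.toRingHom.IsIntegral)
variable {Fr W : Place (kA A) Ft ≃ Place (kA A) Ft} {ℓ : ℕ} {Red Red' : F → Ft → Prop}

include hxt in
/-- **(ES-div), final form, abstract**: `r_* (T D) = Fr_* (r_* D) + ℓ · W_* (r_* D)` for the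
reduction map `r = T.r` of a `TwoCharts`, from a `KronInput`. -/
theorem es_div_main_abs (I : KronInput α β T.r Fr W ℓ Red Red')
    (hFI : FundamentalIdentityAlong L β hβ) (hrank : finrankAlong L β = ℓ + 1)
    (hfin : FiniteAlong L α) (hN : NormFormulaAlong L α hfin)
    (hdegP : ∀ P : Place L F, P.deg = 1)
    (hintU0 : ∀ P : Place L F, T.S0.s ∈ P.toValuationSubring →
      ∀ b ∈ T.S0.B, b ∈ P.toValuationSubring)
    (hintU1 : ∀ P : Place L F, T.S1.s ∈ P.toValuationSubring →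
      ∀ b ∈ T.S1.B, b ∈ P.toValuationSubring)
    (hintD0 : ∀ Q : Place (kA A) Ft, T.S0.red T.S0.sB ∈ Q.toValuationSubring →
      ∀ b : ↥T.S0.B, T.S0.red b ∈ Q.toValuationSubring)
    (hintD1 : ∀ Q : Place (kA A) Ft, T.S1.red T.S1.sB ∈ Q.toValuationSubring →
      ∀ b : ↥T.S1.B, T.S1.red b ∈ Q.toValuationSubring)
    (hG0 : ∀ b : ↥T.S0.B, T.S0.red b ≠ 0 → Red (b : F) (T.S0.red b))
    (hG1 : ∀ b : ↥T.S1.B, T.S1.red b ≠ 0 → Red (b : F) (T.S1.red b))
    (hdivF : ∀ f : F, f ≠ 0 → ∃ D : Place L F →₀ ℤ, ∀ P, D P = P.ord f)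
    (hdivFt : ∀ g : Ft, g ≠ 0 → ∃ D' : Place (kA A) Ft →₀ ℤ, ∀ Q, D' Q = Q.ord g)
    (hunif : ∀ Q : Place (kA A) Ft, ∃ ϖ : Ft, Q.ord ϖ = 1)
    (hdeg0 : ∀ (Dinf : Place L F →₀ ℤ) (Dinf' : Place (kA A) Ft →₀ ℤ),
      (∀ P, Dinf P = max (-(P.ord T.S0.s)) 0) →
      (∀ Q, Dinf' Q = max (-(Q.ord (T.S0.red T.S0.sB))) 0) →
      Dinf.sum (fun _ n => n) = Dinf'.sum (fun _ n => n))
    (hdeg1 : ∀ (Dinf : Place L F →₀ ℤ) (Dinf' : Place (kA A) Ft →₀ ℤ),
      (∀ P, Dinf P = max (-(P.ord T.S1.s)) 0) →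
      (∀ Q, Dinf' Q = max (-(Q.ord (T.S1.red T.S1.sB))) 0) →
      Dinf.sum (fun _ n => n) = Dinf'.sum (fun _ n => n))
    (hFr0 : ∀ Q : Place (kA A) Ft,
      (Fr Q).ord (T.S0.red T.S0.sB) = Q.ord (T.S0.red T.S0.sB))
    (hW0 : ∀ Q : Place (kA A) Ft,
      (W Q).ord (T.S0.red T.S0.sB) = Q.ord (T.S0.red T.S0.sB))
    (D : Divisor L F) :
    Finsupp.mapDomain T.r (Divisor.correspondence β α hβ hα D) =
      Finsupp.mapDomain Fr (Finsupp.mapDomain T.r D) +
        (ℓ : ℤ) • Finsupp.mapDomain W (Finsupp.mapDomain T.r D) := by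
  obtain ⟨C, Dinf, Dinf', hC, hcov⟩ := charts_of_twoCharts hxt T (princ Red) Fr W
    hintU0 hintU1 hintD0 hintD1
    (fun b hb D D' hD hD' => princ_of (hG0 b hb) D D' hD hD')
    (fun b hb D D' hD hD' => princ_of (hG1 b hb) D D' hD hD')
    hdivF hdivFt hunif hdeg0 hdeg1 hFr0 hW0
  exact es_div_of_charts hα hβ I hFI hrank hfin hN hdegP hC hcov D

end Main

end Fermat.Agent.DS.G.ES.KRON.EsDivMain24
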