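/-
Programme DS (S48), chapter G-ESRED (helper52): GENERIC TWIN of `Fermat/Agent/ES/KRON/FrobPlace13.lean`
(helper13), with `(N : ℕ) [NeZero N]` replaced by a generator datum `D : GenData`
(`DS/G/ES/RED/Iface`) and `modularFunctionFieldFullC K N` by `D.FC K`.  Same theorem names.

**(FRk)**: the coefficientwise Frobenius on the special fibre function field
`F~ = D.FC k ⊂ k((q))` and on its places.

* generic: every ring automorphism `σ` of the coefficient field `K` acts on `D.FC K` through
  `coeffMap σ` (`coeffMap_mem_fullC`, `coeffAut`), giving a semilinear automorphism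
  `coeffSemi K D σ : SemilinearAut K (D.FC K)` (`toRingAut = coeffAut σ`, `baseAut = σ`);
  `coeffSemiHom` is the group homomorphism `(K ≃+* K) →* SemilinearAut K F~`;
* Frobenius: for `k` perfect of exponential characteristic `l`,
  `frobSemi k l D := coeffSemi k D (frobeniusEquiv k l)`, and the bijection
  `frobPlace k l D : Place k F~ ≃ Place k F~`, `Q ↦ frobSemi • Q`, with `ord_frobPlace`,
  `deg_frobPlace`, `ord_sub_const_frobPlace`, `residue_smul`, `residueEquiv_algebraMap`.
-/
import Mathlib
import Fermat.Prelude.Def_ModularCurve_X0ModL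
import Fermat.Prelude.Def_AlgebraicCurve_BaseChangeGalois
import Fermat.Agent.DS.G.ES.RED.Iface

set_option autoImplicit false
set_option linter.unusedSectionVars false

noncomputable section

namespace Fermat.Agent.DS.G.ES.KRON.FrobPlace13

open ModularCurve AlgebraicCurve HahnSeries IntermediateField
open Fermat.Agent.DS.G.ES.RED.Iface

section Generic

variable (K : Type*) [Field K] (D : GenData)

/-- the generators of `F~` have integer coefficients, hence are fixed by every `coeffMap σ`. -/
theorem coeffMap_generator (σ : K →+* K) (g : LaurentSeries ℤ) :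
    coeffMap σ (coeffMap (Int.castRingHom K) g) = coeffMap (Int.castRingHom K) g :=
  coeffMap_intCast_comp σ g

variable {K D} in
/-- `coeffMap σ` preserves `D.FC K`. -/
theorem coeffMap_mem_fullC (σ : K →+* K) {x : LaurentSeries K}
    (hx : x ∈ D.FC K) :
    coeffMap σ x ∈ D.FC K :=
  D.coeffMap_mem_FC_self σ hx

/-- the ring automorphism of `F~` induced by a ring automorphism of the coefficients. -/
def coeffAut (σ : K ≃+* K) :
    ↥(D.FC K) ≃+* ↥(D.FC K) where
  toFun x := ⟨coeffMap (σ : K →+* K) x, coeffMap_mem_fullC _ x.2⟩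
  invFun x := ⟨coeffMap (σ.symm : K →+* K) x, coeffMap_mem_fullC _ x.2⟩
  left_inv x := Subtype.ext (by
    show coeffMap (σ.symm : K →+* K) (coeffMap (σ : K →+* K) x) = x
    rw [coeffMap_coeffMap]
    have : (σ.symm : K →+* K).comp (σ : K →+* K) = RingHom.id K :=
      RingHom.ext fun a => σ.symm_apply_apply a
    rw [this, coeffMap_id])
  right_inv x := Subtype.ext (by
    show coeffMap (σ : K →+* K) (coeffMap (σ.symm : K →+* K) x) = x
    rw [coeffMap_coeffMap]
    have : (σ : K →+* K).comp (σ.symm : K →+* K) = RingHom.id K :=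
      RingHom.ext fun a => σ.apply_symm_apply a
    rw [this, coeffMap_id])
  map_mul' x y := Subtype.ext (map_mul (coeffMap (σ : K →+* K)) _ _)
  map_add' x y := Subtype.ext (map_add (coeffMap (σ : K →+* K)) _ _)

@[simp] theorem coe_coeffAut (σ : K ≃+* K) (x : ↥(D.FC K)) :
    ((coeffAut K D σ x : ↥(D.FC K)) : LaurentSeries K) =
      coeffMap (σ : K →+* K) x := rfl

@[simp] theorem coe_coeffAut_symm (σ : K ≃+* K) (x : ↥(D.FC K)) :
    (((coeffAut K D σ).symm x : ↥(D.FC K)) : LaurentSeries K) =
      coeffMap (σ.symm : K →+* K) x := rfl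

theorem coeffAut_algebraMap (σ : K ≃+* K) (a : K) :
    coeffAut K D σ (algebraMap K ↥(D.FC K) a) =
      algebraMap K ↥(D.FC K) (σ a) :=
  Subtype.ext (by
    show coeffMap (σ : K →+* K) (algebraMap K (LaurentSeries K) a) = _
    rw [coeffMap_algebraMap]
    rfl)

/-- **the semilinear automorphism of `F~ / K` induced by `σ ∈ Aut K`.** -/
def coeffSemi (σ : K ≃+* K) : SemilinearAut K ↥(D.FC K) :=
  ⟨(coeffAut K D σ, σ), fun a => coeffAut_algebraMap K D σ a⟩

@[simp] theorem toRingAut_coeffSemi (σ : K ≃+* K) :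
    SemilinearAut.toRingAut (coeffSemi K D σ) = coeffAut K D σ := rfl

@[simp] theorem baseAut_coeffSemi (σ : K ≃+* K) :
    SemilinearAut.baseAut (coeffSemi K D σ) = σ := rfl

theorem coe_coeffSemi_smul (σ : K ≃+* K) (x : ↥(D.FC K)) :
    ((coeffSemi K D σ • x : ↥(D.FC K)) : LaurentSeries K) =
      coeffMap (σ : K →+* K) x := rfl

theorem coeffSemi_smul_algebraMap (σ : K ≃+* K) (a : K) :
    coeffSemi K D σ • algebraMap K ↥(D.FC K) a =
      algebraMap K ↥(D.FC K) (σ a) :=
  coeffAut_algebraMap K D σ a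

/-- `σ ↦ coeffSemi σ` is a group homomorphism. -/
def coeffSemiHom : (K ≃+* K) →* SemilinearAut K ↥(D.FC K) where
  toFun := coeffSemi K D
  map_one' := Subtype.ext (Prod.ext (RingEquiv.ext fun x => Subtype.ext (by
    show coeffMap ((1 : K ≃+* K) : K →+* K) x = x
    have : ((1 : K ≃+* K) : K →+* K) = RingHom.id K := rfl
    rw [this, coeffMap_id])) rfl)
  map_mul' σ τ := Subtype.ext (Prod.ext (RingEquiv.ext fun x => Subtype.ext (by
    show coeffMap ((σ * τ : K ≃+* K) : K →+* K) x =
      coeffMap (σ : K →+* K) (coeffMap (τ : K →+* K) x)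
    rw [coeffMap_coeffMap]
    rfl)) rfl)

@[simp] theorem coeffSemiHom_apply (σ : K ≃+* K) : coeffSemiHom K D σ = coeffSemi K D σ := rfl

end Generic

section Frobenius

variable (k : Type*) [Field k] (l : ℕ) [ExpChar k l] [PerfectField k] (D : GenData)

/-- **the coefficientwise Frobenius `cφ : g ↦ g^φ`** as a semilinear automorphism of `F~ / k`. -/
def frobSemi : SemilinearAut k ↥(D.FC k) :=
  coeffSemi k D (frobeniusEquiv k l)

theorem coe_frobSemi_smul (g : ↥(D.FC k)) :
    ((frobSemi k l D • g : ↥(D.FC k)) : LaurentSeries k) =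
      coeffMap (frobenius k l) g := rfl

theorem coeff_frobSemi_smul (g : ↥(D.FC k)) (n : ℤ) :
    ((frobSemi k l D • g : ↥(D.FC k)) : LaurentSeries k).coeff n =
      ((g : LaurentSeries k).coeff n) ^ l := rfl

theorem baseAut_frobSemi : SemilinearAut.baseAut (frobSemi k l D) = frobeniusEquiv k l := rfl

/-- semilinearity: `(a)^φ = a ^ l` on constants. -/
theorem frobSemi_smul_algebraMap (a : k) :
    frobSemi k l D • algebraMap k ↥(D.FC k) a =
      algebraMap k ↥(D.FC k) (a ^ l) :=
  coeffSemi_smul_algebraMap k D (frobeniusEquiv k l) a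

/-- `(a • g)^φ = a ^ l • g^φ`. -/
theorem frobSemi_smul_smul (a : k) (g : ↥(D.FC k)) :
    frobSemi k l D • (a • g) = (a ^ l) • (frobSemi k l D • g) := by
  rw [Algebra.smul_def, Algebra.smul_def, smul_mul', frobSemi_smul_algebraMap]

/-- **the Frobenius bijection on the places of `F~ / k`**: `Fr Q` has valuation ring `cφ (O_Q)`. -/
def frobPlace : Place k ↥(D.FC k) ≃ Place k ↥(D.FC k) :=
  MulAction.toPerm (frobSemi k l D)

@[simp] theorem frobPlace_apply (Q : Place k ↥(D.FC k)) :
    frobPlace k l D Q = frobSemi k l D • Q := rfl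

@[simp] theorem frobPlace_symm_apply (Q : Place k ↥(D.FC k)) :
    (frobPlace k l D).symm Q = (frobSemi k l D)⁻¹ • Q := rfl

theorem mem_frobPlace_iff (Q : Place k ↥(D.FC k))
    (g : ↥(D.FC k)) :
    frobSemi k l D • g ∈ (frobPlace k l D Q).toValuationSubring ↔ g ∈ Q.toValuationSubring := by
  rw [frobPlace_apply, SemilinearAut.smul_toValuationSubring,
    ValuationSubring.mem_pointwise_smul_iff_inv_smul_mem, inv_smul_smul]

/-- (iii) `ord_{Fr Q} (cφ g) = ord_Q g`. -/
theorem ord_frobPlace (Q : Place k ↥(D.FC k))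
    (g : ↥(D.FC k)) :
    (frobPlace k l D Q).ord (frobSemi k l D • g) = Q.ord g :=
  SemilinearAut.ord_smul (frobSemi k l D) Q g

/-- `ord_{Fr Q} g = ord_Q (cφ⁻¹ g)`. -/
theorem ord_frobPlace' (Q : Place k ↥(D.FC k))
    (g : ↥(D.FC k)) :
    (frobPlace k l D Q).ord g = Q.ord ((frobSemi k l D)⁻¹ • g) := by
  rw [← ord_frobPlace k l D Q ((frobSemi k l D)⁻¹ • g), smul_inv_smul]

/-- degrees are preserved. -/
theorem deg_frobPlace (Q : Place k ↥(D.FC k)) :
    (frobPlace k l D Q).deg = Q.deg :=
  SemilinearAut.deg_smul (frobSemi k l D) Q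

/-- **value rule** (order form): `ord_{Fr Q} (cφ g - a ^ l) = ord_Q (g - a)`; in particular
`g(Q) = a ⇒ (cφ g)(Fr Q) = a ^ l`. -/
theorem ord_sub_const_frobPlace (Q : Place k ↥(D.FC k))
    (g : ↥(D.FC k)) (a : k) :
    (frobPlace k l D Q).ord
        (frobSemi k l D • g - algebraMap k ↥(D.FC k) (a ^ l)) =
      Q.ord (g - algebraMap k ↥(D.FC k) a) := by
  rw [← ord_frobPlace k l D Q (g - algebraMap k _ a), smul_sub, frobSemi_smul_algebraMap]

/-- **value rule** (residue form, constants): the Prelude's residue isomorphism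
`κ(Q) ≃ κ(cφ • Q)` is `a ↦ a ^ l` on `k`. -/
theorem residueEquiv_algebraMap (Q : Place k ↥(D.FC k)) (a : k) :
    SemilinearAut.smulResidueRingEquiv (frobSemi k l D) Q (algebraMap k Q.ResidueField a) =
      algebraMap k (frobSemi k l D • Q).ResidueField (a ^ l) :=
  SemilinearAut.smulResidueRingEquiv_algebraMap (frobSemi k l D) Q a

/-- **value rule** (residue form): the residue class of `cφ g` at `cφ • Q` is the image of the
residue class of `g` at `Q`. -/
theorem residue_smul (Q : Place k ↥(D.FC k))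
    (g : Q.toValuationSubring) :
    IsLocalRing.residue (frobSemi k l D • Q).toValuationSubring
        (SemilinearAut.smulValuationSubringEquiv (frobSemi k l D) Q.toValuationSubring g) =
      SemilinearAut.smulResidueRingEquiv (frobSemi k l D) Q
        (IsLocalRing.residue Q.toValuationSubring g) :=
  rfl

end Frobenius

end Fermat.Agent.DS.G.ES.KRON.FrobPlace13
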