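/-
DS programme (S48), chapter G-ESRED / LOCALINST (P3), helper3: THE LEVEL-FREE MIDDLE LAYER of `hK`.

`hK_of_coeffCharts`: at a generator datum `D : GenData`, for the global reduction map `T.r` of two
COEFFICIENTWISE charts (`RedMain15.ChartInputs` + `GaloisInst21.CoeffChart` on both charts, integer
coordinate), an `L`-automorphism `δ` of the generic function field fixing the chart coordinate
(`dia' = (dia σ_p)⁻¹`) with `Conjugates11.HasW' ℓ α β δ` (KRON-C), and generators `x`, `x'` of the two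
function fields:

  `r_* (α_* β^* X) = (Fr * dt') • r_* X + ℓ • (Fr⁻¹ • r_* X)`,

`Fr = FrobPlace13.frobSemi (kA A) ℓ D`, `dt' = DiaPlaceInst.reducedDia T c0 δ hs hfrac` (the reduction
of `δ`), `α_* β^* = HECKE.Inputs.divCorr β α hx hx'`: verbatim the shape of the field `hK` of
`Top/LocalInst.LocalHyps` (with `dt = dt'⁻¹`).  Everything is discharged from landed chapters:
KRON-D (`EsDivInst24.es_div_inst`), KRON-C norm identity, DIAPLACE (`red_dia₀/₁`, `smul_red_s`),
HECKE/Inputs (integrality, finiteness, fundamental identity, norm formula, principal divisors).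
-/
import Mathlib
import Fermat.Agent.DS.G.HECKE.Inputs
import Fermat.Agent.DS.G.ES.RED.DiaPlaceInst
import Fermat.Agent.DS.G.ES.KRON.EsDivInst24
import Fermat.Agent.DS.G.ES.KRON.FrobPlace13

set_option autoImplicit false
set_option linter.unusedSectionVars false

noncomputable section

open AlgebraicCurve ModularCurve HahnSeries IntermediateField

namespace Fermat.Agent.DS.G.ES.KRON.HKGen

open Fermat.Agent.X0 Fermat.Agent.X0.FF
open Fermat.Agent.ES.RED.Contract8 Fermat.Agent.ES.RED.TwoCharts8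
open Fermat.Agent.RED.PUR.ChartGeneric22
open Fermat.Agent.DS.G.ES.RED.Iface
open Fermat.Agent.DS.G.ES.RED.RedCharts15 Fermat.Agent.DS.G.ES.RED.RedMain15
open Fermat.Agent.DS.G.ES.RED.GaloisInst21
open Fermat.Agent.DS.G.ES.RED.DiaPlace Fermat.Agent.DS.G.ES.RED.DiaPlaceInst
open Fermat.Agent.DS.G.ES.KRON.FrobPlace13
open Fermat.Agent.DS.G.ES.KRON.Conjugates11
open Fermat.Agent.DS.G.ES.KRON.KronInputOf
open Fermat.Agent.DS.G.ES.KRON.EsDivInst24
open Fermat.Agent.DS.G.HECKE.Inputs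
open Fermat.Agent.ES.HECKE.PointFormula28

variable {L : Type*} [Field L] [Algebra ℚ L] [IsAlgClosed L] [CharZero L] {A : ValuationSubring L}
variable (ℓ : ℕ) [NeZero ℓ] [hℓ : Fact ℓ.Prime] [CharP (kA A) ℓ] [IsAlgClosed (kA A)]
variable {D : GenData} {F₀' : IntermediateField ℚ (LaurentSeries ℚ)}
variable {x : ↥(laurentBaseChange L D.FQ)} {hx : IsGen L x}

/-- **(hK), level-free**: (ES-div) with diamond for coefficientwise charts at a generator datum. -/
theorem hK_of_coeffCharts (T : TwoCharts A hx ↥(D.FC (kA A)))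
    (i0 : ChartInputs A D.FQ (D.FC (kA A)) T.S0) (i1 : ChartInputs A D.FQ (D.FC (kA A)) T.S1)
    (c0 : CoeffChart (F₀ := D.FQ) T.S0) (c1 : CoeffChart (F₀ := D.FQ) T.S1)
    (δ : ↥(laurentBaseChange L D.FQ) ≃ₐ[L] ↥(laurentBaseChange L D.FQ))
    (hs : δ T.S0.s = T.S0.s) (hfrac : FracRed T.S0)
    (sZ : LaurentSeries ℤ)
    (hsZ : ((T.S0.s : ↥(laurentBaseChange L D.FQ)) : LaurentSeries L) =
      coeffMap (Int.castRingHom L) sZ)
    {x' : ↥(laurentBaseChange L F₀')} (hx' : IsGen L x')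
    (α β : ↥(laurentBaseChange L D.FQ) →ₐ[L] ↥(laurentBaseChange L F₀'))
    (hαv : ∀ f : ↥(laurentBaseChange L D.FQ),
      ((α f : ↥(laurentBaseChange L F₀')) : LaurentSeries L) = (f : LaurentSeries L))
    (hβv : ∀ f : ↥(laurentBaseChange L D.FQ),
      ((β f : ↥(laurentBaseChange L F₀')) : LaurentSeries L) = qExpand L ℓ (f : LaurentSeries L))
    (hW : HasW' ℓ α β (δ : ↥(laurentBaseChange L D.FQ) →+* ↥(laurentBaseChange L D.FQ)))
    (f₀ : ↥(laurentBaseChange L D.FQ))
    (hf₀ : ((δ f₀ : ↥(laurentBaseChange L D.FQ)) : LaurentSeries L).coeff (-1) ≠ 0)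
    (hn : finrankAlong L α = ℓ + 1) (hrank : finrankAlong L β = ℓ + 1)
    (X : Divisor L ↥(laurentBaseChange L D.FQ)) :
    Finsupp.mapDomain T.r (divCorr β α hx hx' X) =
      (frobSemi (kA A) ℓ D * reducedDia T c0 δ hs hfrac) • Finsupp.mapDomain T.r X +
        (ℓ : ℤ) • ((frobSemi (kA A) ℓ D)⁻¹ • Finsupp.mapDomain T.r X) := by
  have : HasPrincipalDivisors L ↥(laurentBaseChange L F₀') := hasPrincipalDivisors_of_isGen hx'
  have : HasPrincipalDivisors L ↥(laurentBaseChange L D.FQ) := hasPrincipalDivisors_of_isGen hx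
  have hα := isIntegral_of_isGen α hx hx'
  have hβ := isIntegral_of_isGen β hx hx'
  have hfin := finiteAlong_of_isGen α hx hx'
  have hFI := fundamentalIdentityAlong_of_isGen β hx hx' hβ
  have hN := normFormulaAlong_of_isGen α hx' hfin
  have hnorm : NormIdentity ℓ α β (fun f => δ f) :=
    normIdentity_of_hasW' ℓ α β hαv hβv
      (δ : ↥(laurentBaseChange L D.FQ) →+* ↥(laurentBaseChange L D.FQ)) hW f₀ hf₀ hfin hn
  rw [divCorr_eq_correspondence β α hx hx' hβ hα]
  exact es_div_inst ℓ T i0 i1 (fun b hb => (c0.mem_iff b).mp hb) (fun b hb => (c1.mem_iff b).mp hb)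
    sZ hsZ (fun P => FF.deg_eq_one hx P) α β hα hβ (fun f => δ f) hnorm hFI hrank hfin hN
    (frobSemi (kA A) ℓ D) (reducedDia T c0 δ hs hfrac) (fun g => rfl)
    (fun b hb => red_dia₀ T c0 δ hs hfrac b hb)
    (fun b hb => red_dia₁ T c0 c1 δ hs hfrac b hb)
    (smul_red_s T c0 δ hs hfrac) X

end Fermat.Agent.DS.G.ES.KRON.HKGen
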