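/-
Programme DS (S48), chapter G-ESRED, brick KRON-C (bricks row 258), helper90.

THE ANALYTIC ENGINE behind all "expansion at another cusp" embeddings (Atkin–Lehner embedding `W`,
diamond automorphisms, cusp expansions `T γ` with integral width):

Let `Lc` be a field with `ι : Lc →+* ℂ` and `A : ℍ → ℍ` a SURJECTIVE map.  Call
`Rel ι A x y` (`x y : Lc((q))`) the relation "some function `g : ℍ → ℂ` has `q`-expansion `x` and
`g ∘ A` has `q`-expansion `y`" (`q`-expansion in the sense of `X0.Analytic.HasQExp`, read through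
`ι`).  It is the graph of an injective `Lc`-algebra hom defined on a subalgebra `dom ι A` of
`Lc((q))`, hence

* `exists_algHom` : if every element `x` of a set `S ⊆ Lc((q))` is related to some `y`, there is an
  `Lc`-algebra hom `W : IntermediateField.adjoin Lc S →ₐ[Lc] Lc((q))` (defined on the FIELD
  generated by `S`) with `W x = y` whenever `Rel ι A x y`.

No modular input: pure function theory on `ℍ` (+ `IsFractionRing.lift`).
-/
import Mathlib
import Fermat.Agent.X0.Analytic

set_option autoImplicit false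
set_option linter.unusedSectionVars false

open ModularCurve UpperHalfPlane IntermediateField

noncomputable section

namespace Fermat.Agent.DS.G.ES.KRON.Transport90

open Fermat.Agent.X0 Fermat.Agent.X0.Analytic

variable {Lc : Type*} [Field Lc] (ι : Lc →+* ℂ) (A : ℍ → ℍ)

theorem coeffMap_injective : Function.Injective (coeffMap ι : LaurentSeries Lc → LaurentSeries ℂ) := by
  intro x y h
  ext k
  have h1 := congrArg (fun s : LaurentSeries ℂ => s.coeff k) h
  exact ι.injective h1

theorem coeffMap_algebraMap (c : Lc) :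
    coeffMap ι (algebraMap Lc (LaurentSeries Lc) c) = HahnSeries.C (ι c) := by
  rw [algebraMap_laurentSeries_eq_single, coeffMap_single]
  rfl

/-- `Rel ι A x y`: some function `g` on `ℍ` has `q`-expansion `x`, and `g ∘ A` has `q`-expansion
`y`. -/
def Rel (x y : LaurentSeries Lc) : Prop :=
  ∃ g : ℍ → ℂ, HasQExp (coeffMap ι x) g ∧ HasQExp (coeffMap ι y) (g ∘ A)

variable {ι A}

theorem Rel.intro {x y : LaurentSeries Lc} {g : ℍ → ℂ} (h1 : HasQExp (coeffMap ι x) g)
    (h2 : HasQExp (coeffMap ι y) (fun z => g (A z))) : Rel ι A x y :=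
  ⟨g, h1, h2⟩

theorem Rel.add {x y x' y' : LaurentSeries Lc} (h : Rel ι A x y) (h' : Rel ι A x' y') :
    Rel ι A (x + x') (y + y') := by
  obtain ⟨g, h1, h2⟩ := h
  obtain ⟨g', h1', h2'⟩ := h'
  refine ⟨g + g', ?_, ?_⟩
  · rw [map_add]
    exact h1.add h1'
  · rw [map_add]
    exact h2.add h2'

theorem Rel.mul {x y x' y' : LaurentSeries Lc} (h : Rel ι A x y) (h' : Rel ι A x' y') :
    Rel ι A (x * x') (y * y') := by
  obtain ⟨g, h1, h2⟩ := h
  obtain ⟨g', h1', h2'⟩ := h'
  refine ⟨g * g', ?_, ?_⟩
  · rw [map_mul]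
    exact h1.mul h1'
  · rw [map_mul]
    exact h2.mul h2'

variable (ι A) in
theorem Rel.algebraMap (c : Lc) :
    Rel ι A (algebraMap Lc (LaurentSeries Lc) c) (algebraMap Lc (LaurentSeries Lc) c) := by
  refine ⟨fun _ => ι c, ?_, ?_⟩
  · rw [coeffMap_algebraMap]
    exact HasQExp.const (ι c)
  · rw [coeffMap_algebraMap]
    exact HasQExp.const (ι c)

variable (ι A) in
theorem Rel.zero : Rel ι A (0 : LaurentSeries Lc) 0 := by
  have := Rel.algebraMap ι A (0 : Lc)
  rwa [map_zero] at this

variable (ι A) in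
theorem Rel.one : Rel ι A (1 : LaurentSeries Lc) 1 := by
  have := Rel.algebraMap ι A (1 : Lc)
  rwa [map_one] at this

/-- `y` is determined by `x`. -/
theorem Rel.unique_right {x y y' : LaurentSeries Lc} (h : Rel ι A x y) (h' : Rel ι A x y') :
    y = y' := by
  obtain ⟨g, h1, h2⟩ := h
  obtain ⟨g', h1', h2'⟩ := h'
  have hg : g = g' := h1.unique_right h1'
  subst hg
  exact coeffMap_injective ι (h2.unique_left h2')

/-- `x` is determined by `y` (for surjective `A`). -/
theorem Rel.unique_left (hA : Function.Surjective A) {x x' y : LaurentSeries Lc}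
    (h : Rel ι A x y) (h' : Rel ι A x' y) : x = x' := by
  obtain ⟨g, h1, h2⟩ := h
  obtain ⟨g', h1', h2'⟩ := h'
  have hgA : g ∘ A = g' ∘ A := h2.unique_right h2'
  have hg : g = g' := by
    funext z
    obtain ⟨w, rfl⟩ := hA z
    exact congrFun hgA w
  subst hg
  exact coeffMap_injective ι (h1.unique_left h1')

variable (ι A)

/-- The domain of the transport: a subalgebra of `Lc((q))`. -/
def dom : Subalgebra Lc (LaurentSeries Lc) where
  carrier := {x | ∃ y, Rel ι A x y}
  mul_mem' := fun ⟨y, h⟩ ⟨y', h'⟩ => ⟨y * y', h.mul h'⟩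
  one_mem' := ⟨1, Rel.one ι A⟩
  add_mem' := fun ⟨y, h⟩ ⟨y', h'⟩ => ⟨y + y', h.add h'⟩
  zero_mem' := ⟨0, Rel.zero ι A⟩
  algebraMap_mem' := fun c => ⟨_, Rel.algebraMap ι A c⟩

theorem mem_dom {x : LaurentSeries Lc} : x ∈ dom ι A ↔ ∃ y, Rel ι A x y := Iff.rfl

/-- The transport of `x ∈ dom`. -/
def tr (x : dom ι A) : LaurentSeries Lc := x.2.choose

theorem rel_tr (x : dom ι A) : Rel ι A (x : LaurentSeries Lc) (tr ι A x) := x.2.choose_spec

variable {ι A} in
theorem tr_eq {x : dom ι A} {y : LaurentSeries Lc} (h : Rel ι A (x : LaurentSeries Lc) y) :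
    tr ι A x = y :=
  (rel_tr ι A x).unique_right h

/-- The transport, as an algebra hom. -/
def trHom : dom ι A →ₐ[Lc] LaurentSeries Lc where
  toFun := tr ι A
  map_one' := tr_eq (Rel.one ι A)
  map_mul' x y := tr_eq ((rel_tr ι A x).mul (rel_tr ι A y))
  map_zero' := tr_eq (Rel.zero ι A)
  map_add' x y := tr_eq ((rel_tr ι A x).add (rel_tr ι A y))
  commutes' c := tr_eq (Rel.algebraMap ι A c)

theorem trHom_apply (x : dom ι A) : trHom ι A x = tr ι A x := rfl

theorem trHom_injective (hA : Function.Surjective A) : Function.Injective (trHom ι A) := by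
  intro x y h
  apply Subtype.ext
  have hx := rel_tr ι A x
  have hy := rel_tr ι A y
  rw [← trHom_apply, h, trHom_apply] at hx
  exact hx.unique_left hA hy

open scoped IntermediateField.algebraAdjoinAdjoin in
/-- **The transport theorem**: a surjective `A : ℍ → ℍ` and a set `S` of series, each of which is
the `q`-expansion of a function `g` such that `g ∘ A` has a `q`-expansion again, give an algebra
hom on the field generated by `S`, computing the `q`-expansion of `g ∘ A` from the one of `g`. -/
theorem exists_algHom (hA : Function.Surjective A) (S : Set (LaurentSeries Lc))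
    (hS : ∀ x ∈ S, ∃ y, Rel ι A x y) :
    ∃ W : IntermediateField.adjoin Lc S →ₐ[Lc] LaurentSeries Lc,
      ∀ (x : IntermediateField.adjoin Lc S) (y : LaurentSeries Lc),
        Rel ι A (x : LaurentSeries Lc) y → W x = y := by
  have hle : Algebra.adjoin Lc S ≤ dom ι A := Algebra.adjoin_le fun x hx => hS x hx
  let w₁ : Algebra.adjoin Lc S →ₐ[Lc] LaurentSeries Lc :=
    (trHom ι A).comp (Subalgebra.inclusion hle)
  have hw₁ : Function.Injective w₁ :=
    (trHom_injective ι A hA).comp (Subalgebra.inclusion_injective hle)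
  have hrel : ∀ r : Algebra.adjoin Lc S, Rel ι A (r : LaurentSeries Lc) (w₁ r) := fun r =>
    rel_tr ι A (Subalgebra.inclusion hle r)
  refine ⟨IsFractionRing.liftAlgHom (K := IntermediateField.adjoin Lc S) hw₁, fun x y hxy => ?_⟩
  obtain ⟨r, hr, s, hs, hx⟩ := IntermediateField.mem_adjoin_iff_div.mp x.2
  by_cases hs0 : s = 0
  · have hx0 : (x : LaurentSeries Lc) = 0 := by rw [hx, hs0, div_zero]
    have hx0' : x = 0 := Subtype.ext hx0
    rw [hx0] at hxy
    rw [hx0', map_zero]
    exact (Rel.zero ι A).unique_right hxy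
  · set r' : Algebra.adjoin Lc S := ⟨r, hr⟩ with hr'
    set s' : Algebra.adjoin Lc S := ⟨s, hs⟩ with hs'
    have hs'0 : s' ≠ 0 := fun h => hs0 (congrArg Subtype.val h)
    have hws : w₁ s' ≠ 0 := fun h => hs'0 (hw₁ (h.trans (map_zero w₁).symm))
    have hxdiv : x = algebraMap (Algebra.adjoin Lc S) (IntermediateField.adjoin Lc S) r' /
        algebraMap (Algebra.adjoin Lc S) (IntermediateField.adjoin Lc S) s' := by
      apply Subtype.ext
      rw [hx]
      rfl
    have hW : IsFractionRing.liftAlgHom (K := IntermediateField.adjoin Lc S) hw₁ x =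
        w₁ r' / w₁ s' := by
      rw [hxdiv, map_div₀, IsFractionRing.liftAlgHom_apply, IsFractionRing.liftAlgHom_apply,
        IsFractionRing.lift_algebraMap, IsFractionRing.lift_algebraMap]
      rfl
    rw [hW, div_eq_iff hws]
    have h1 : Rel ι A ((x : LaurentSeries Lc) * s) (y * w₁ s') := hxy.mul (hrel s')
    have h2 : (x : LaurentSeries Lc) * s = r := by
      rw [hx, div_mul_cancel₀ _ hs0]
    rw [h2] at h1
    exact (hrel r').unique_right h1

end Fermat.Agent.DS.G.ES.KRON.Transport90
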